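import Fermat.Agent.SelbergCLT.Euler
import Mathlib.Analysis.SpecialFunctions.Pow.Asymptotics

/-!
# The parameters of the mollifier

With `L = log T`, `l = log L`, `m = log l`: the line `σ = 1/2 + m³ / L`, the primes up to
`exp (L / l²)` and up to `exp (L / m²)`, products of at most `100 l`, `100 m` of them.
-/

set_option autoImplicit false

noncomputable section

namespace FA.SelbergCLT

open Finset Filter
open FA.ErdosKac (primesUpTo mem_primesUpTo recipSum exists_abs_recipSum_sub_le)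
open scoped Topology Real

/-- `log L`. -/
def scaleOne (L : ℝ) : ℝ := Real.log L

/-- `log log L`. -/
def scaleTwo (L : ℝ) : ℝ := Real.log (Real.log L)

/-- `W = m³`. -/
def shiftW (L : ℝ) : ℝ := scaleTwo L ^ 3

/-- `1/2 + W / L`. -/
def sigmaL (L : ℝ) : ℝ := 1 / 2 + shiftW L / L

/-- `exp (L / l²)`. -/
def cutOne (L : ℝ) : ℕ := ⌊Real.exp (L / scaleOne L ^ 2)⌋₊

/-- `exp (L / m²)`. -/
def cutTwo (L : ℝ) : ℕ := ⌊Real.exp (L / scaleTwo L ^ 2)⌋₊

/-- The primes up to `exp (L / l²)`. -/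
def blockOne (L : ℝ) : Finset ℕ := primesUpTo (cutOne L)

/-- The primes in `(exp (L / l²), exp (L / m²)]`. -/
def blockTwo (L : ℝ) : Finset ℕ := primesUpTo (cutTwo L) \ primesUpTo (cutOne L)

/-- `⌈100 l⌉`. -/
def depthOne (L : ℝ) : ℕ := ⌈100 * scaleOne L⌉₊

/-- `⌈100 m⌉`. -/
def depthTwo (L : ℝ) : ℕ := ⌈100 * scaleTwo L⌉₊

/-- The mollifier at height `t`. -/
def mollifier (L t : ℝ) : ℂ :=
  molPoly (blockOne L) (depthOne L) (blockTwo L) (depthTwo L)
    ((sigmaL L : ℂ) + t * Complex.I)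

theorem tendsto_scaleOne : Tendsto scaleOne atTop atTop := Real.tendsto_log_atTop

theorem tendsto_scaleTwo : Tendsto scaleTwo atTop atTop :=
  Real.tendsto_log_atTop.comp Real.tendsto_log_atTop

theorem tendsto_shiftW : Tendsto shiftW atTop atTop :=
  (tendsto_pow_atTop (by norm_num)).comp tendsto_scaleTwo

theorem eventually_scales (c : ℝ) : ∀ᶠ L in atTop, c ≤ scaleTwo L ∧ c ≤ scaleOne L ∧ c ≤ L ∧
    scaleTwo L ≤ scaleOne L ∧ scaleOne L ≤ L ∧ 1 ≤ scaleTwo L := by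
  filter_upwards [tendsto_scaleTwo.eventually_ge_atTop (max c 1), eventually_gt_atTop (1 : ℝ)]
    with L hm hL
  have hm1 : 1 ≤ scaleTwo L := le_of_max_le_right hm
  have hl0 : 0 < scaleOne L := Real.log_pos hL
  have h1 : scaleOne L ≤ L := Real.log_le_self (by linarith)
  have h2 : scaleTwo L ≤ scaleOne L := Real.log_le_self hl0.le
  exact ⟨le_of_max_le_left hm, (le_of_max_le_left hm).trans h2,
    ((le_of_max_le_left hm).trans h2).trans h1, h2, h1, hm1⟩

theorem tendsto_shiftW_div : Tendsto (fun L => shiftW L / L) atTop (𝓝 0) := by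
  have h3 := (Real.tendsto_pow_log_div_mul_add_atTop 1 0 3 one_ne_zero).congr
    (f₂ := fun L => Real.log L ^ 3 / L) fun L => by simp
  refine squeeze_zero' ?_ ?_ h3
  · filter_upwards [eventually_scales 1] with L h
    exact div_nonneg (pow_nonneg (by linarith [h.2.2.2.2.2]) 3) (by linarith [h.2.2.1])
  · filter_upwards [eventually_scales 1] with L h
    exact div_le_div_of_nonneg_right (pow_le_pow_left₀ (by linarith [h.1]) h.2.2.2.1 3)
      (by linarith [h.2.2.1])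

theorem eventually_sigmaL : ∀ᶠ L in atTop, 1 / 2 < sigmaL L ∧ sigmaL L ≤ 3 / 4 ∧
    (sigmaL L - 1 / 2) * L = shiftW L := by
  filter_upwards [tendsto_shiftW.eventually_gt_atTop 0, eventually_gt_atTop (0 : ℝ),
    tendsto_shiftW_div.eventually_le_const (show (0 : ℝ) < 1 / 4 by norm_num)] with L hW hL h
  refine ⟨?_, ?_, ?_⟩ <;> rw [sigmaL]
  · linarith [div_pos hW hL]
  · linarith
  · field_simp
    ring

theorem eventually_cuts : ∀ᶠ L in atTop, 2 ≤ cutOne L ∧ cutOne L ≤ cutTwo L ∧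
    (cutTwo L : ℝ) ≤ Real.exp L ∧
    Real.log (cutOne L) ≤ L / scaleOne L ^ 2 ∧ L / (2 * scaleOne L ^ 2) ≤ Real.log (cutOne L) ∧
    Real.log (cutTwo L) ≤ L / scaleTwo L ^ 2 ∧ L / (2 * scaleTwo L ^ 2) ≤ Real.log (cutTwo L) := by
  have hratio : Tendsto (fun L => L / scaleOne L ^ 2) atTop atTop := by
    have h := (Real.tendsto_pow_log_div_mul_add_atTop 1 0 2 one_ne_zero).congr
      (f₂ := fun L => Real.log L ^ 2 / L) fun L => by simp
    have h' : ∀ᶠ L in atTop, 0 < Real.log L ^ 2 / L := by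
      filter_upwards [eventually_gt_atTop (1 : ℝ)] with L hL
      exact div_pos (pow_pos (Real.log_pos hL) 2) (by linarith)
    refine ((tendsto_nhdsWithin_iff.2 ⟨h, h'⟩).inv_tendsto_nhdsGT_zero).congr fun L => ?_
    simp [scaleOne]
  filter_upwards [eventually_scales 1, hratio.eventually_ge_atTop 2] with L h hr
  obtain ⟨hm, hl, hL, hml, -, -⟩ := h
  have hmono : L / scaleOne L ^ 2 ≤ L / scaleTwo L ^ 2 :=
    div_le_div_of_nonneg_left (by linarith) (by positivity) (pow_le_pow_left₀ (by linarith) hml 2)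
  have key : ∀ x : ℝ, 2 ≤ x → 2 ≤ ⌊Real.exp x⌋₊ ∧ Real.log ⌊Real.exp x⌋₊ ≤ x ∧
      x / 2 ≤ Real.log ⌊Real.exp x⌋₊ := fun x hx => by
    have he : (4 : ℝ) ≤ Real.exp x := by
      refine le_trans ?_ (Real.exp_le_exp.2 hx)
      rw [show (2 : ℝ) = 1 + 1 by norm_num, Real.exp_add]
      nlinarith [Real.exp_one_gt_d9]
    have h2 : 2 ≤ ⌊Real.exp x⌋₊ := Nat.le_floor (by push_cast; linarith)
    have hpos : (0 : ℝ) < ⌊Real.exp x⌋₊ := Nat.cast_pos.2 (by omega)
    refine ⟨h2, (Real.log_le_log hpos (Nat.floor_le (Real.exp_pos _).le)).trans_eq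
      (Real.log_exp x), ?_⟩
    have h3 := Real.log_le_log (Real.exp_pos x)
      (show Real.exp x ≤ 2 * ⌊Real.exp x⌋₊ by
        have := Nat.lt_floor_add_one (Real.exp x)
        have : (2 : ℝ) ≤ ⌊Real.exp x⌋₊ := Nat.ofNat_le_cast.2 h2
        linarith)
    rw [Real.log_exp, Real.log_mul two_ne_zero hpos.ne'] at h3
    linarith [Real.log_two_lt_d9]
  obtain ⟨a1, a2, a3⟩ := key _ hr
  obtain ⟨b1, b2, b3⟩ := key _ (hr.trans hmono)
  refine ⟨a1, Nat.floor_mono (Real.exp_le_exp.2 hmono), ?_, a2, ?_, b2, ?_⟩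
  · exact (Nat.floor_le (Real.exp_pos _).le).trans
      (Real.exp_le_exp.2 (div_le_self (by linarith) (one_le_pow₀ hm)))
  · rw [show L / (2 * scaleOne L ^ 2) = L / scaleOne L ^ 2 / 2 by ring]
    exact a3
  · rw [show L / (2 * scaleTwo L ^ 2) = L / scaleTwo L ^ 2 / 2 by ring]
    exact b3

theorem blocks_disjoint (L : ℝ) : Disjoint (blockOne L) (blockTwo L) := disjoint_sdiff

theorem prime_of_mem_blockOne {L : ℝ} {p : ℕ} (h : p ∈ blockOne L) : p.Prime :=
  (mem_primesUpTo.1 h).1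

theorem prime_of_mem_blockTwo {L : ℝ} {p : ℕ} (h : p ∈ blockTwo L) : p.Prime :=
  (mem_primesUpTo.1 (Finset.mem_sdiff.1 h).1).1

theorem le_cut_of_mem {L : ℝ} {p : ℕ} :
    (p ∈ blockOne L → p ≤ cutOne L) ∧ (p ∈ blockTwo L → p ≤ cutTwo L) :=
  ⟨fun h => (mem_primesUpTo.1 h).2, fun h => (mem_primesUpTo.1 (Finset.mem_sdiff.1 h).1).2⟩

theorem card_primesUpTo_succ_le {n : ℕ} (hn : 1 ≤ n) : (primesUpTo n).card + 1 ≤ n := by
  have h : primesUpTo n ⊆ Icc 2 n := fun p hp =>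
    mem_Icc.2 ⟨(mem_primesUpTo.1 hp).1.two_le, (mem_primesUpTo.1 hp).2⟩
  have := card_le_card h
  rw [Nat.card_Icc] at this
  omega

/-- **The mollifier is short.** -/
theorem eventually_length : ∀ᶠ L in atTop,
    ((cutOne L : ℝ) ^ depthOne L * (cutTwo L : ℝ) ^ depthTwo L ≤ Real.exp (L / 20)) ∧
    ∀ t : ℝ, ‖mollifier L t‖ ≤ Real.exp (L / 20) := by
  filter_upwards [eventually_cuts, eventually_scales 5000, eventually_sigmaL] with L hc hs hσ
  obtain ⟨h2, h12, -, -, -, -, -⟩ := hc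
  obtain ⟨hm, hl, hL, -, -, -⟩ := hs
  have hlen : (cutOne L : ℝ) ^ depthOne L * (cutTwo L : ℝ) ^ depthTwo L ≤ Real.exp (L / 20) := by
    have hpow : ∀ (y : ℝ), 5000 ≤ y →
        (⌊Real.exp (L / y ^ 2)⌋₊ : ℝ) ^ ⌈100 * y⌉₊ ≤ Real.exp (L / 40) := fun y hy => by
      refine (pow_le_pow_left₀ (Nat.cast_nonneg _) (Nat.floor_le (Real.exp_pos _).le) _).trans ?_
      rw [← Real.exp_nat_mul, Real.exp_le_exp]
      refine (mul_le_mul_of_nonneg_right ((Nat.ceil_lt_add_one (by linarith)).le.trans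
        (show 100 * y + 1 ≤ 101 * y by linarith)) (div_nonneg (by linarith) (sq_nonneg _))).trans ?_
      rw [show 101 * y * (L / y ^ 2) = 101 * L / y by field_simp]
      rw [div_le_div_iff₀ (by linarith) (by norm_num)]
      nlinarith
    refine (mul_le_mul (hpow _ hl) (hpow _ hm) (by positivity) (Real.exp_pos _).le).trans ?_
    rw [← Real.exp_add]
    exact Real.exp_le_exp.2 (by linarith)
  refine ⟨hlen, fun t => le_trans ?_ hlen⟩
  have hx : ∀ p : ℕ, p.Prime → ‖(p : ℂ) ^ (-((sigmaL L : ℂ) + t * Complex.I))‖ ≤ 1 := fun p hp => by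
    rw [Complex.norm_natCast_cpow_of_pos hp.pos]
    exact Real.rpow_le_one_of_one_le_of_nonpos (Nat.one_le_cast.2 hp.one_le)
      (by simp; linarith [hσ.1])
  rw [mollifier, molPoly, norm_mul]
  refine mul_le_mul ((norm_trunc_le _ _ fun p hp => hx p (prime_of_mem_blockOne hp)).trans ?_)
    ((norm_trunc_le _ _ fun p hp => hx p (prime_of_mem_blockTwo hp)).trans ?_) (norm_nonneg _)
    (by positivity)
  · refine pow_le_pow_left₀ (by positivity) ?_ _
    exact_mod_cast card_primesUpTo_succ_le (show 1 ≤ cutOne L by omega)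
  · refine pow_le_pow_left₀ (by positivity) ?_ _
    have := card_le_card (sdiff_subset (s := primesUpTo (cutTwo L)) (t := primesUpTo (cutOne L)))
    have := card_primesUpTo_succ_le (show 1 ≤ cutTwo L by omega)
    exact_mod_cast (show (blockTwo L).card + 1 ≤ cutTwo L by rw [blockTwo]; omega)

/-- The sums of `1 / p` over the blocks. -/
theorem exists_block_recip : ∃ C, 0 ≤ C ∧ ∀ᶠ L in atTop,
    ∑ p ∈ blockOne L, (p : ℝ)⁻¹ ≤ scaleOne L + C ∧
    ∑ p ∈ blockTwo L, (p : ℝ)⁻¹ ≤ 2 * scaleTwo L + C := by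
  obtain ⟨C, hC⟩ := exists_abs_recipSum_sub_le
  obtain ⟨D, hD0, hD⟩ := exists_recipSum_sub_le
  refine ⟨|C| + D + 1, by positivity, ?_⟩
  filter_upwards [eventually_cuts, eventually_scales 1] with L hc hs
  obtain ⟨h2, h12, -, hu, hd, hu2, -⟩ := hc
  obtain ⟨hm, hl, hL, -, -, -⟩ := hs
  have h0 : 0 < Real.log (cutOne L) := Real.log_pos (Nat.one_lt_cast.2 (by omega))
  refine ⟨?_, ?_⟩
  · show recipSum (cutOne L) ≤ _
    have hle : Real.log (Real.log (cutOne L)) ≤ scaleOne L :=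
      Real.log_le_log h0 (hu.trans (div_le_self (by linarith) (one_le_pow₀ hl)))
    linarith [(abs_le.1 (hC _ h2)).2, le_abs_self C]
  · refine (hD _ _ h2 h12).trans ?_
    have hr : Real.log (cutTwo L) / Real.log (cutOne L) ≤ 2 * scaleOne L ^ 2 := by
      rw [div_le_iff₀ h0]
      refine (hu2.trans (div_le_self (by linarith) (one_le_pow₀ hm))).trans ?_
      rw [div_le_iff₀ (by positivity)] at hd
      linarith
    have h1 := Real.log_le_log (div_pos (Real.log_pos (Nat.one_lt_cast.2 (by omega))) h0) hr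
    rw [Real.log_mul two_ne_zero (by positivity), Real.log_pow] at h1
    push_cast at h1
    have e : Real.log (scaleOne L) = scaleTwo L := rfl
    linarith [Real.log_two_lt_d9, abs_nonneg C]

/-- **The primes beyond the blocks.** -/
theorem exists_rough_le : ∃ C, 0 ≤ C ∧ ∀ᶠ L in atTop, ∀ N : ℕ, (N : ℝ) ≤ Real.exp L →
    ∀ a : ℝ, 1 ≤ a →
    ∏ p ∈ primesUpTo N \ primesUpTo (cutTwo L), (1 + qWeight a p) ≤
      Real.exp (2 * Real.exp (-(a - 1) * L / scaleTwo L ^ 2) *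
        (2 * Real.log (scaleTwo L) + C)) := by
  obtain ⟨D, hD0, hD⟩ := exists_recipSum_sub_le
  refine ⟨D + 1, by positivity, ?_⟩
  filter_upwards [eventually_cuts, eventually_scales 1] with L hc hs
  intro N hN a ha
  obtain ⟨h2, h12, -, -, -, -, hd⟩ := hc
  obtain ⟨hm, hl, hL, -, -, -⟩ := hs
  refine (one_add_sum_le_exp fun p hp =>
    qWeight_nonneg (mem_primesUpTo.1 (Finset.mem_sdiff.1 hp).1).1 ha).trans (Real.exp_le_exp.2 ?_)
  refine (sum_le_sum (g := fun p : ℕ =>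
    2 * Real.exp (-(a - 1) * L / scaleTwo L ^ 2) * (p : ℝ)⁻¹) fun p hp => ?_).trans ?_
  · rw [Finset.mem_sdiff, mem_primesUpTo, mem_primesUpTo, not_and, not_le] at hp
    have hp0 : (0 : ℝ) < p := Nat.cast_pos.2 hp.1.1.pos
    refine (qWeight_le hp.1.1 ha).trans ?_
    rw [show -a = -(a - 1) + -1 by ring, Real.rpow_add hp0, Real.rpow_neg_one, mul_assoc 2]
    refine mul_le_mul_of_nonneg_left (mul_le_mul_of_nonneg_right ?_ (by positivity)) zero_le_two
    rw [Real.rpow_def_of_pos hp0, Real.exp_le_exp,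
      show -(a - 1) * L / scaleTwo L ^ 2 = L / scaleTwo L ^ 2 * -(a - 1) by ring]
    refine mul_le_mul_of_nonpos_right ?_ (by linarith)
    have h := Real.log_le_log (Real.exp_pos _) (Nat.lt_of_floor_lt (hp.2 hp.1.1)).le
    rwa [Real.log_exp] at h
  · rw [← mul_sum]
    refine mul_le_mul_of_nonneg_left ?_ (by positivity)
    have hlm : 0 ≤ Real.log (scaleTwo L) := Real.log_nonneg hm
    rcases le_or_gt N (cutTwo L) with hle | hgt
    · rw [sdiff_eq_empty_iff_subset.2 fun p hp => mem_primesUpTo.2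
        ⟨(mem_primesUpTo.1 hp).1, (mem_primesUpTo.1 hp).2.trans hle⟩, sum_empty]
      linarith
    refine (hD _ _ (by omega) hgt.le).trans ?_
    have hc0 : 0 < Real.log (cutTwo L) := Real.log_pos (Nat.one_lt_cast.2 (by omega))
    have hN0 : (0 : ℝ) < N := Nat.cast_pos.2 (by omega)
    have hr : Real.log N / Real.log (cutTwo L) ≤ 2 * scaleTwo L ^ 2 := by
      rw [div_le_iff₀ hc0]
      refine ((Real.log_le_log hN0 hN).trans_eq (Real.log_exp L)).trans ?_
      rw [div_le_iff₀ (by positivity)] at hd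
      linarith
    have h1 := Real.log_le_log
      (div_pos (Real.log_pos (Nat.one_lt_cast.2 (by omega))) hc0) hr
    rw [Real.log_mul two_ne_zero (by positivity), Real.log_pow] at h1
    push_cast at h1
    linarith [Real.log_two_lt_d9]

/-- **One block.** -/
theorem exists_block_le : ∃ C, 1 ≤ C ∧ ∀ (P K : ℕ) (S : Finset ℕ) (z : ℂ) (a τ u ε : ℝ), 2 ≤ P →
    S ⊆ primesUpTo P → 1 ≤ a → 0 ≤ τ → τ ≤ 1 → 0 ≤ u →
    z.re * Real.log P ≤ 1 / 2 → ‖z‖ * Real.log P ≤ τ * u →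
    2 / 4 ^ K * Real.exp (50 * ∑ p ∈ S, (p : ℝ)⁻¹) ≤ ε →
    ∑ A ∈ S.powerset, ‖trunc A K (fun p => (p : ℂ) ^ z)‖ ^ 2 * ∏ p ∈ A, qWeight a p ≤
      1 + C * τ ^ 2 * (2 + u) ^ 20 + ε := by
  obtain ⟨C, hC1, hC⟩ := exists_xBound_sum_le
  refine ⟨2 * C * C, by nlinarith, fun P K S z a τ u ε hP hS ha hτ0 hτ1 hu hre hnorm hε => ?_⟩
  have hlP : 0 ≤ Real.log P := Real.log_natCast_nonneg P
  have hz : ∀ p ∈ S, z.re * Real.log p ≤ 1 / 2 := fun p hp => by
    have hp' := mem_primesUpTo.1 (hS hp)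
    rcases le_or_gt z.re 0 with h | h
    · linarith [mul_nonpos_of_nonpos_of_nonneg h (Real.log_natCast_nonneg p)]
    · exact le_trans (mul_le_mul_of_nonneg_left
        (Real.log_le_log (Nat.cast_pos.2 hp'.1.pos) (Nat.cast_le.2 hp'.2)) h.le) hre
  refine (block_sum_le (fun p hp => (mem_primesUpTo.1 (hS hp)).1) ha hz K).trans ?_
  obtain ⟨h1, h2⟩ := hC P ‖z‖ hP (norm_nonneg _)
  obtain ⟨Y, hY⟩ : ∃ Y, Y = ∑ p ∈ primesUpTo P, xBound ‖z‖ p * (2 / p) := ⟨_, rfl⟩
  rw [← hY] at h1 h2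
  have hsub : ∑ p ∈ S, xBound ‖z‖ p * (2 / p) ≤ Y := hY ▸
    sum_le_sum_of_subset_of_nonneg hS fun p _ _ => mul_nonneg (xBound_nonneg _ _) (by positivity)
  have hY0 : 0 ≤ Y := hY ▸ sum_nonneg fun p _ => mul_nonneg (xBound_nonneg _ _) (by positivity)
  have hY1 : Real.exp Y - 1 ≤ Y * Real.exp Y := by
    have h := Real.add_one_le_exp (-Y)
    have e : Real.exp Y * Real.exp (-Y) = 1 := by rw [← Real.exp_add]; simp
    nlinarith [Real.exp_pos Y]
  have hu2 : ‖z‖ * Real.log P ≤ u := hnorm.trans (mul_le_of_le_one_left hu hτ1)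
  have hx0 : 0 ≤ ‖z‖ * Real.log P := mul_nonneg (norm_nonneg _) hlP
  have k1 : Y ≤ C * (τ * u) ^ 2 :=
    h1.trans (mul_le_mul_of_nonneg_left (pow_le_pow_left₀ hx0 hnorm 2) (by linarith))
  have k2 : Real.exp Y ≤ C * (2 + u) ^ 18 :=
    h2.trans (mul_le_mul_of_nonneg_left (pow_le_pow_left₀ (by linarith) (by linarith) 18)
      (by linarith))
  have k3 : Y * Real.exp Y ≤ C * C * τ ^ 2 * (2 + u) ^ 20 := by
    refine (mul_le_mul k1 k2 (Real.exp_pos _).le (by positivity)).trans ?_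
    calc C * (τ * u) ^ 2 * (C * (2 + u) ^ 18) = C * C * τ ^ 2 * (2 + u) ^ 18 * u ^ 2 := by ring
      _ ≤ C * C * τ ^ 2 * (2 + u) ^ 18 * (2 + u) ^ 2 :=
          mul_le_mul_of_nonneg_left (pow_le_pow_left₀ hu (by linarith) 2) (by positivity)
      _ = _ := by ring
  linarith [Real.exp_le_exp.2 hsub]

/-- The cost of the truncation. -/
def truncCost (L : ℝ) (C : ℝ) : ℝ :=
  2 * Real.exp (50 * C) * (Real.exp (-scaleOne L) + Real.exp (-scaleTwo L))

theorem tendsto_truncCost (C : ℝ) : Tendsto (fun L => truncCost L C) atTop (𝓝 0) := by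
  have h1 := Real.tendsto_exp_atBot.comp (tendsto_neg_atTop_atBot.comp tendsto_scaleOne)
  have h2 := Real.tendsto_exp_atBot.comp (tendsto_neg_atTop_atBot.comp tendsto_scaleTwo)
  simpa [truncCost, Function.comp_def] using (h1.add h2).const_mul (2 * Real.exp (50 * C))

theorem two_div_four_pow_mul_le {y : ℝ} (hy : 0 ≤ y) {K : ℕ} (hK : 100 * y ≤ K) {Q C : ℝ}
    (hQ : Q ≤ 2 * y + C) :
    2 / 4 ^ K * Real.exp (50 * Q) ≤ 2 * Real.exp (50 * C) * Real.exp (-y) := by
  have h4 : (4 : ℝ) ^ K = Real.exp (K * Real.log 4) := by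
    rw [Real.exp_nat_mul, Real.exp_log (by norm_num)]
  have hl4 : (1.38 : ℝ) ≤ Real.log 4 := by
    rw [show (4 : ℝ) = 2 ^ 2 by norm_num, Real.log_pow]
    push_cast
    linarith [Real.log_two_gt_d9]
  rw [h4, div_eq_mul_inv, ← Real.exp_neg, mul_assoc, mul_assoc, ← Real.exp_add, ← Real.exp_add]
  refine mul_le_mul_of_nonneg_left (Real.exp_le_exp.2 ?_) zero_le_two
  nlinarith [mul_le_mul_of_nonneg_right hK (show (0 : ℝ) ≤ Real.log 4 by linarith),
    mul_le_mul_of_nonneg_left hl4 (show (0 : ℝ) ≤ 100 * y by positivity)]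

/-- **The coefficients of the mollified `n^(-z)`.** -/
theorem exists_coef_le : ∃ C, 1 ≤ C ∧ ∀ᶠ L in atTop, ∀ (N : ℕ) (z : ℂ) (σ u : ℝ),
    (N : ℝ) ≤ Real.exp L → 1 ≤ 2 * σ + 2 * z.re → z.re * L ≤ 1 → ‖z‖ * L ≤ u →
    ∑ k ∈ Icc 1 N, ‖coef (blockOne L) (depthOne L) (blockTwo L) (depthTwo L)
        (fun n => (n : ℂ) ^ (-z)) k‖ ^ 2 * (k : ℝ) ^ (-(2 * σ)) ≤
      (1 + C * (2 + u) ^ 20 / scaleOne L ^ 4 + truncCost L C) *
        (1 + C * (2 + u) ^ 20 / scaleTwo L ^ 4 + truncCost L C) *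
        Real.exp (2 * Real.exp (-(2 * σ + 2 * z.re - 1) * L / scaleTwo L ^ 2) *
          (2 * Real.log (scaleTwo L) + C)) := by
  obtain ⟨C₁, hC₁, hblock⟩ := exists_block_le
  obtain ⟨C₂, hC₂, hrecip⟩ := exists_block_recip
  obtain ⟨C₃, hC₃, hrough⟩ := exists_rough_le
  refine ⟨C₁ + C₂ + C₃, by linarith, ?_⟩
  filter_upwards [hrecip, hrough, eventually_cuts, eventually_scales 2]
    with L hQ hR hc hs
  intro N z σ u hN ha hzre hznorm
  obtain ⟨h2, h12, -, hu1, -, hu2, -⟩ := hc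
  obtain ⟨hm, hl, hL, -, -, -⟩ := hs
  have hu : 0 ≤ u := le_trans (mul_nonneg (norm_nonneg _) (by linarith)) hznorm
  obtain ⟨S₃, hS₃⟩ : ∃ S₃, S₃ = primesUpTo N \ primesUpTo (cutTwo L) := ⟨_, rfl⟩
  have hsub : primesUpTo (cutOne L) ⊆ primesUpTo (cutTwo L) := fun p hp =>
    mem_primesUpTo.2 ⟨(mem_primesUpTo.1 hp).1, (mem_primesUpTo.1 hp).2.trans h12⟩
  have hunion : blockOne L ∪ blockTwo L = primesUpTo (cutTwo L) :=
    union_sdiff_of_subset hsub
  have hterm : ∀ k ∈ Icc 1 N, ‖coef (blockOne L) (depthOne L) (blockTwo L) (depthTwo L)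
      (fun n => (n : ℂ) ^ (-z)) k‖ ^ 2 * (k : ℝ) ^ (-(2 * σ)) =
      ‖trunc (blockOne L ∩ k.primeFactors) (depthOne L) (fun p => (p : ℂ) ^ z)‖ ^ 2 *
        ‖trunc (blockTwo L ∩ k.primeFactors) (depthTwo L) (fun p => (p : ℂ) ^ z)‖ ^ 2 *
        (k : ℝ) ^ (-(2 * σ + 2 * z.re)) := fun k hk => by
    have hk0 : 0 < k := (mem_Icc.1 hk).1
    rw [coef_cpow (fun p hp => prime_of_mem_blockOne hp) (fun p hp => prime_of_mem_blockTwo hp)
      (blocks_disjoint L) hk0.ne', norm_mul, norm_mul, mul_pow, mul_pow,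
      Complex.norm_natCast_cpow_of_pos hk0, ← Real.rpow_natCast ((k : ℝ) ^ _) 2,
      ← Real.rpow_mul (Nat.cast_nonneg k),
      show -(2 * σ + 2 * z.re) = (-z).re * ((2 : ℕ) : ℝ) + -(2 * σ) by simp; ring,
      Real.rpow_add (Nat.cast_pos.2 hk0)]
    ring
  rw [sum_congr rfl hterm]
  refine (sum_three_blocks_le ha (blocks_disjoint L) (S₃ := S₃)
    (u := fun A => ‖trunc A (depthOne L) (fun p => (p : ℂ) ^ z)‖ ^ 2)
    (v := fun A => ‖trunc A (depthTwo L) (fun p => (p : ℂ) ^ z)‖ ^ 2)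
    (by rw [hunion, hS₃]; exact disjoint_sdiff) (fun p hp => ?_) (fun p hp hpN => ?_)
    (fun A => sq_nonneg _) (fun A => sq_nonneg _)).trans ?_
  · rw [hunion, hS₃, mem_union, Finset.mem_sdiff] at hp
    rcases hp with hp | hp
    · exact (mem_primesUpTo.1 hp).1
    · exact (mem_primesUpTo.1 hp.1).1
  · rw [hunion, hS₃, mem_union, Finset.mem_sdiff]
    by_cases h : p ∈ primesUpTo (cutTwo L)
    · exact Or.inl h
    · exact Or.inr ⟨mem_primesUpTo.2 ⟨hp, hpN⟩, h⟩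
  have hL0 : 0 < L := by linarith
  have hblockL : ∀ (y : ℝ) (P K : ℕ) (S : Finset ℕ) (Q : ℝ), 2 ≤ y → 2 ≤ P →
      Real.log P ≤ L / y ^ 2 → S ⊆ primesUpTo P → 100 * y ≤ K → Q = ∑ p ∈ S, (p : ℝ)⁻¹ →
      Q ≤ 2 * y + C₂ → Real.exp (-y) ≤ Real.exp (-scaleOne L) + Real.exp (-scaleTwo L) →
      ∑ A ∈ S.powerset, ‖trunc A K (fun p => (p : ℂ) ^ z)‖ ^ 2 *
          ∏ p ∈ A, qWeight (2 * σ + 2 * z.re) p ≤
        1 + (C₁ + C₂ + C₃) * (2 + u) ^ 20 / y ^ 4 + truncCost L (C₁ + C₂ + C₃) := by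
    intro y P K S Q hy hP hlog hS hK hQ hQy hey
    have hy2 : 4 ≤ y ^ 2 := by nlinarith
    refine (hblock P K S z _ (1 / y ^ 2) u (truncCost L (C₁ + C₂ + C₃)) hP hS ha (by positivity)
      ((div_le_one (by positivity)).2 (by linarith)) hu ?_ ?_ ?_).trans ?_
    · rcases le_or_gt z.re 0 with h | h
      · linarith [mul_nonpos_of_nonpos_of_nonneg h (Real.log_natCast_nonneg P)]
      · refine (mul_le_mul_of_nonneg_left hlog h.le).trans ?_
        rw [mul_div_assoc', div_le_iff₀ (by positivity)]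
        linarith
    · refine (mul_le_mul_of_nonneg_left hlog (norm_nonneg _)).trans ?_
      rw [mul_div_assoc', one_div_mul_eq_div]
      exact div_le_div_of_nonneg_right hznorm (by positivity)
    · rw [← hQ]
      refine (two_div_four_pow_mul_le (by linarith) hK hQy).trans ?_
      rw [truncCost]
      refine mul_le_mul (mul_le_mul_of_nonneg_left (Real.exp_le_exp.2 (by linarith)) zero_le_two)
        hey (Real.exp_pos _).le (by positivity)
    · rw [show C₁ * (1 / y ^ 2) ^ 2 * (2 + u) ^ 20 = C₁ * (2 + u) ^ 20 / y ^ 4 by ring]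
      have h5 : C₁ * (2 + u) ^ 20 / y ^ 4 ≤ (C₁ + C₂ + C₃) * (2 + u) ^ 20 / y ^ 4 :=
        div_le_div_of_nonneg_right (mul_le_mul_of_nonneg_right (by linarith) (by positivity))
          (by positivity)
      linarith
  have h1 := hblockL (scaleOne L) (cutOne L) (depthOne L) (blockOne L) _ hl h2 hu1 Subset.rfl
    (Nat.le_ceil _) rfl (hQ.1.trans (by linarith)) (le_add_of_nonneg_right (Real.exp_pos _).le)
  have h2' := hblockL (scaleTwo L) (cutTwo L) (depthTwo L) (blockTwo L) _ hm (h2.trans h12) hu2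
    sdiff_subset (Nat.le_ceil _) rfl hQ.2 (le_add_of_nonneg_left (Real.exp_pos _).le)
  have h3 := hS₃ ▸ (hR N hN _ ha)
  have hcost : 0 ≤ truncCost L (C₁ + C₂ + C₃) := by rw [truncCost]; positivity
  refine mul_le_mul (mul_le_mul h1 h2' (sum_nonneg fun A hA => mul_nonneg (sq_nonneg _)
    (prod_nonneg fun p hp => qWeight_nonneg
      (prime_of_mem_blockTwo (mem_powerset.1 hA hp)) ha)) (by positivity))
    (h3.trans (Real.exp_le_exp.2 (mul_le_mul_of_nonneg_left (by linarith) (by positivity))))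
    (prod_nonneg fun p hp => ?_) (by positivity)
  rw [hS₃, Finset.mem_sdiff] at hp
  linarith [qWeight_nonneg (mem_primesUpTo.1 hp.1).1 ha]

/-- The error of the main series. -/
theorem exists_coef_main : ∃ η : ℝ → ℝ, Tendsto η atTop (𝓝 0) ∧ ∀ᶠ L in atTop,
    ∀ (N : ℕ) (z : ℂ) (u : ℝ), (N : ℝ) ≤ Real.exp L → 0 ≤ z.re → z.re * L ≤ 1 → ‖z‖ * L ≤ u →
    ∑ k ∈ Icc 2 N, ‖coef (blockOne L) (depthOne L) (blockTwo L) (depthTwo L)
        (fun n => (n : ℂ) ^ (-z)) k‖ ^ 2 * (k : ℝ) ^ (-(2 * sigmaL L)) ≤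
      η L * (2 + u) ^ 40 := by
  obtain ⟨C, hC1, hC⟩ := exists_coef_le
  obtain ⟨b, hb⟩ : ∃ b : ℝ → ℝ,
      b = fun L => C / scaleTwo L ^ 4 + truncCost L C := ⟨_, rfl⟩
  obtain ⟨r, hr⟩ : ∃ r : ℝ → ℝ, r = fun L =>
      Real.exp (2 * Real.exp (-(2 * scaleTwo L)) * (2 * Real.log (scaleTwo L) + C)) := ⟨_, rfl⟩
  have hbt : Tendsto b atTop (𝓝 0) := by
    rw [hb]
    simpa using (tendsto_const_nhds.div_atTop
      ((tendsto_pow_atTop (by norm_num : (4 : ℕ) ≠ 0)).comp tendsto_scaleTwo)).add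
      (tendsto_truncCost C)
  have hrt : Tendsto r atTop (𝓝 1) := by
    rw [hr, ← Real.exp_zero]
    refine (Real.continuous_exp.tendsto 0).comp ?_
    have h1 := (Real.tendsto_pow_mul_exp_neg_atTop_nhds_zero 1).comp
      (tendsto_scaleTwo.const_mul_atTop two_pos)
    have h2 := Real.tendsto_exp_atBot.comp
      (tendsto_scaleTwo.const_mul_atTop_of_neg (show (-2 : ℝ) < 0 by norm_num))
    have h3 : Tendsto (fun L => 2 * ((2 * scaleTwo L) ^ 1 * Real.exp (-(2 * scaleTwo L))) +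
        2 * C * Real.exp (-2 * scaleTwo L)) atTop (𝓝 0) := by
      simpa using (h1.const_mul 2).add (h2.const_mul (2 * C))
    refine squeeze_zero' ?_ ?_ h3
    · filter_upwards [eventually_scales 1] with L h
      have := Real.log_nonneg h.1
      positivity
    · filter_upwards [eventually_scales 1] with L h
      have hlog := Real.log_le_self (show 0 ≤ scaleTwo L by linarith [h.1])
      have := mul_le_mul_of_nonneg_left hlog (Real.exp_pos (-(2 * scaleTwo L))).le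
      rw [neg_mul]
      linarith
  refine ⟨fun L => (1 + b L) ^ 2 * r L - 1,
    by simpa using (((hbt.const_add 1).pow 2).mul hrt).sub_const 1, ?_⟩
  filter_upwards [hC, eventually_sigmaL, eventually_scales 1, hrt.eventually_le_const one_lt_two]
    with L hCL hσ hs hr2
  intro N z u hN hre hzre hznorm
  obtain ⟨hm, hl, hL, hml, -, -⟩ := hs
  rcases Nat.eq_zero_or_pos N with hN0 | hN0
  · subst hN0
    rw [show Icc 2 0 = (∅ : Finset ℕ) from Icc_eq_empty (by norm_num), sum_empty]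
    have hb0 : 0 ≤ b L := by rw [hb]; simp only [truncCost]; positivity
    have hr1 : 1 ≤ r L := by
      rw [hr]
      refine Real.one_le_exp ?_
      have := Real.log_nonneg hm
      positivity
    refine mul_nonneg ?_ (by positivity)
    nlinarith [one_le_mul_of_one_le_of_one_le
      (one_le_pow₀ (n := 2) (by linarith : (1 : ℝ) ≤ 1 + b L)) hr1]
  have h := hCL N z (sigmaL L) u hN (by linarith [hσ.1]) hzre hznorm
  have hIcc : Icc 1 N = insert 1 (Icc 2 N) := by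
    ext k
    simp only [mem_insert, mem_Icc]
    omega
  rw [hIcc, sum_insert (by simp), coef_one _ (fun p hp => prime_of_mem_blockOne hp)
    fun p hp => prime_of_mem_blockTwo hp] at h
  simp only [Nat.cast_one, Complex.one_cpow, norm_one, one_pow, Real.one_rpow, mul_one] at h
  have hu : 0 ≤ u := le_trans (mul_nonneg (norm_nonneg _) (by linarith)) hznorm
  obtain ⟨U, hU⟩ : ∃ U, U = (2 + u) ^ 20 := ⟨_, rfl⟩
  have hU1 : 1 ≤ U := hU ▸ one_le_pow₀ (by linarith)
  have hcost : 0 ≤ truncCost L C := by rw [truncCost]; positivity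
  have hbL : b L = C / scaleTwo L ^ 4 + truncCost L C := by rw [hb]
  have hb0 : 0 ≤ b L := by rw [hbL]; positivity
  have hone : 1 + C * (2 + u) ^ 20 / scaleOne L ^ 4 + truncCost L C ≤ 1 + b L * U := by
    rw [hbL, hU, add_mul, add_assoc, div_mul_eq_mul_div]
    refine add_le_add le_rfl (add_le_add (div_le_div_of_nonneg_left (by positivity) (by positivity)
      (pow_le_pow_left₀ (by linarith) hml 4)) (le_mul_of_one_le_right hcost (hU ▸ hU1)))
  have htwo : 1 + C * (2 + u) ^ 20 / scaleTwo L ^ 4 + truncCost L C ≤ 1 + b L * U := by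
    rw [hbL, hU, add_mul, add_assoc, div_mul_eq_mul_div]
    exact add_le_add le_rfl (add_le_add le_rfl (le_mul_of_one_le_right hcost (hU ▸ hU1)))
  have hexp : Real.exp (2 * Real.exp (-(2 * sigmaL L + 2 * z.re - 1) * L / scaleTwo L ^ 2) *
      (2 * Real.log (scaleTwo L) + C)) ≤ r L := by
    rw [hr]
    refine Real.exp_le_exp.2 (mul_le_mul_of_nonneg_right (mul_le_mul_of_nonneg_left
      (Real.exp_le_exp.2 ?_) zero_le_two) (by linarith [Real.log_nonneg hm]))
    rw [div_le_iff₀ (by positivity)]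
    have e : scaleTwo L * scaleTwo L ^ 2 = shiftW L := by rw [shiftW]; ring
    nlinarith [hσ.2.2, mul_nonneg hre (show 0 ≤ L by linarith)]
  have key := h.trans (mul_le_mul (mul_le_mul hone htwo (by positivity) (by positivity)) hexp
    (Real.exp_pos _).le (by positivity))
  have hrL : 0 ≤ r L := by rw [hr]; positivity
  have hr1 : 1 ≤ r L := by
    rw [hr]
    refine Real.one_le_exp ?_
    have := Real.log_nonneg hm
    positivity
  have hUU : U ≤ U * U := le_mul_of_one_le_left (by linarith) hU1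
  rw [show (2 + u) ^ 40 = U * U by rw [hU]; ring]
  nlinarith [mul_nonneg (mul_nonneg hb0 hrL) (sub_nonneg.2 hUU),
    mul_nonneg (sub_nonneg.2 hr1) (show 0 ≤ U * U - 1 by nlinarith)]

/-- The bound for the dual series. -/
theorem exists_coef_dual : ∃ C, 1 ≤ C ∧ ∀ᶠ L in atTop, ∀ (N : ℕ) (z : ℂ) (σ u : ℝ),
    (N : ℝ) ≤ Real.exp L → 1 ≤ 2 * σ + 2 * z.re → z.re * L ≤ 1 → ‖z‖ * L ≤ u →
    ∑ k ∈ Icc 1 N, ‖coef (blockOne L) (depthOne L) (blockTwo L) (depthTwo L)
        (fun n => (n : ℂ) ^ (-z)) k‖ ^ 2 * (k : ℝ) ^ (-(2 * σ)) ≤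
      C * scaleTwo L ^ 4 * (2 + u) ^ 40 := by
  obtain ⟨C, hC1, hC⟩ := exists_coef_le
  refine ⟨(C + 2) ^ 2 * Real.exp (2 * C), one_le_mul_of_one_le_of_one_le
    (one_le_pow₀ (by linarith)) (Real.one_le_exp (by positivity)), ?_⟩
  filter_upwards [hC, eventually_scales 1, (tendsto_truncCost C).eventually_le_const one_pos]
    with L hCL hs hcost
  intro N z σ u hN ha hzre hznorm
  obtain ⟨hm, hl, hL, -, -, -⟩ := hs
  have hu : 0 ≤ u := le_trans (mul_nonneg (norm_nonneg _) (by linarith)) hznorm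
  obtain ⟨U, hU⟩ : ∃ U, U = (2 + u) ^ 20 := ⟨_, rfl⟩
  have hU1 : 1 ≤ U := hU ▸ one_le_pow₀ (by linarith)
  have hblk : ∀ y : ℝ, 1 ≤ y →
      1 + C * (2 + u) ^ 20 / y ^ 4 + truncCost L C ≤ (C + 2) * U := fun y hy => by
    have h1 : C * (2 + u) ^ 20 / y ^ 4 ≤ C * U :=
      hU ▸ div_le_self (by positivity) (one_le_pow₀ hy)
    linarith
  have hlm := Real.log_nonneg hm
  have hexp : Real.exp (2 * Real.exp (-(2 * σ + 2 * z.re - 1) * L / scaleTwo L ^ 2) *
      (2 * Real.log (scaleTwo L) + C)) ≤ Real.exp (2 * C) * scaleTwo L ^ 4 := by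
    refine (Real.exp_le_exp.2 (mul_le_mul_of_nonneg_right (mul_le_of_le_one_right zero_le_two
      (Real.exp_le_one_iff.2 (div_nonpos_of_nonpos_of_nonneg
        (mul_nonpos_of_nonpos_of_nonneg (by linarith) (by linarith)) (sq_nonneg _))))
      (by linarith))).trans (le_of_eq ?_)
    rw [show 2 * (2 * Real.log (scaleTwo L) + C) = 2 * C + ((4 : ℕ) : ℝ) * Real.log (scaleTwo L) by
      push_cast; ring, Real.exp_add, Real.exp_nat_mul, Real.exp_log (by linarith)]
  have hcost0 : 0 ≤ truncCost L C := by rw [truncCost]; positivity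
  refine (hCL N z σ u hN ha hzre hznorm).trans ((mul_le_mul (mul_le_mul (hblk _ hl) (hblk _ hm)
    (by positivity) (by positivity)) hexp (Real.exp_pos _).le (by positivity)).trans (le_of_eq ?_))
  rw [hU]
  ring

end FA.SelbergCLT
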