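import Fermat.Agent.SelbergCLT.Identity
import Fermat.Agent.SelbergCLT.Parameters
import Fermat.Agent.MeanValue.Dirichlet
import Mathlib.MeasureTheory.Integral.Prod

/-!
# `∫ |1 - ζ M|²` over `[T, 2T]` is `o (T)`

At `σ = 1/2 + (log log log T)³ / log T`, by the approximate functional equation, the mean value
theorem for Dirichlet polynomials and the bounds for the mollified coefficients.
-/

set_option autoImplicit false

noncomputable section

namespace FA.SelbergCLT

open Finset Filter MeasureTheory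
open FA.ExplicitFormula (boxInt)
open scoped Topology Real ComplexConjugate

/-- The Cauchy–Schwarz inequality against a nonnegative weight. -/
theorem norm_sq_integral_le {h : ℝ → ℂ} {A B : ℝ → ℝ} (hA : ∀ v, 0 ≤ A v) (_hB : ∀ v, 0 ≤ B v)
    (hle : ∀ v, ‖h v‖ ≤ A v * B v) (hAi : Integrable A) (hABi : Integrable fun v => A v * B v)
    (hABB : Integrable fun v => A v * B v ^ 2) :
    ‖∫ v, h v‖ ^ 2 ≤ (∫ v, A v) * ∫ v, A v * B v ^ 2 := by
  obtain ⟨a, ha⟩ : ∃ a, a = ∫ v, A v := ⟨_, rfl⟩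
  obtain ⟨b, hb⟩ : ∃ b, b = ∫ v, A v * B v := ⟨_, rfl⟩
  obtain ⟨c, hc⟩ : ∃ c, c = ∫ v, A v * B v ^ 2 := ⟨_, rfl⟩
  rw [← ha, ← hc]
  have hn : ‖∫ v, h v‖ ≤ b := hb ▸ norm_integral_le_of_norm_le hABi (Eventually.of_forall hle)
  refine (pow_le_pow_left₀ (norm_nonneg _) hn 2).trans ?_
  have key : ∀ x : ℝ, 0 ≤ c - 2 * x * b + x ^ 2 * a := fun x => by
    have e : ∫ v, A v * (B v - x) ^ 2 = c - 2 * x * b + x ^ 2 * a := by
      have e' : ∀ v, A v * (B v - x) ^ 2 = (A v * B v ^ 2 - 2 * x * (A v * B v)) + x ^ 2 * A v :=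
        fun v => by ring
      simp only [e']
      have h12 : Integrable fun v => A v * B v ^ 2 - 2 * x * (A v * B v) :=
        hABB.sub (hABi.const_mul _)
      rw [integral_add h12 (hAi.const_mul _), integral_sub hABB (hABi.const_mul _),
        integral_const_mul,
        integral_const_mul, ha, hb, hc]
    exact e ▸ integral_nonneg fun v => mul_nonneg (hA v) (sq_nonneg _)
  rcases (show 0 ≤ a from ha ▸ integral_nonneg hA).lt_or_eq with h0 | h0
  · have h1 := key (b / a)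
    rw [show c - 2 * (b / a) * b + (b / a) ^ 2 * a = c - b ^ 2 / a by field_simp; ring, sub_nonneg,
      div_le_iff₀ h0] at h1
    linarith
  · have hzero : A =ᵐ[volume] 0 := (integral_eq_zero_iff_of_nonneg hA hAi).1 (ha ▸ h0.symm)
    have hb0 : b = 0 := by
      rw [hb]
      refine integral_eq_zero_of_ae ?_
      filter_upwards [hzero] with v hv
      rw [hv]
      simp
    rw [hb0, ← h0]
    simp

/-- `e^(a w) g₀ w / w` on `re w = 1`, over `2π`. -/
def cutWeight (a v : ℝ) : ℂ := (2 * π : ℂ)⁻¹ * kern 1 (-a) v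

/-- The exponent carried by `n`. -/
def cutExp (L v : ℝ) : ℂ := ((1 : ℂ) + (v : ℂ) * Complex.I) / L

theorem smooth_eq_integral (a L : ℝ) {n : ℕ} (hn : 0 < n) :
    smooth a L n = ∫ v, cutWeight a v * (n : ℂ) ^ (-cutExp L v) := by
  rw [smooth, cutoff, ← integral_const_mul]
  refine integral_congr_ae (Eventually.of_forall fun v => ?_)
  simp only [cutWeight, kern, natCast_cpow_eq_exp hn]
  rw [mul_assoc, div_mul_eq_mul_div, mul_right_comm _ (g₀ _) (Complex.exp _), ← Complex.exp_add,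
    cutExp]
  congr 4
  push_cast
  ring

theorem norm_cutWeight_le {a : ℝ} (ha : a ≤ 1) (v : ℝ) :
    ‖cutWeight a v‖ ≤ 4 * kernelConst * decay kernelDeg v := by
  rw [cutWeight, norm_mul, norm_inv, norm_mul, Complex.norm_two, Complex.norm_real,
    Real.norm_of_nonneg Real.pi_pos.le]
  refine (mul_le_of_le_one_left (norm_nonneg _) (inv_le_one_of_one_le₀
    (by linarith [Real.pi_gt_three]))).trans ((norm_kern_le one_ne_zero _ _).trans ?_)
  rw [abs_one, div_one, neg_neg, mul_one]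
  refine mul_le_mul_of_nonneg_right (mul_le_mul_of_nonneg_right ?_
    (zero_le_one.trans one_le_kernelConst)) (decay_nonneg _ _)
  refine (Real.exp_le_exp.2 (show a + 1 / 10 ≤ 1 + 1 / 10 by linarith)).trans ?_
  rw [Real.exp_add]
  have h1 : Real.exp (1 / 10) ≤ 10 / 9 := by
    have := Real.exp_bound_div_one_sub_of_interval (show (0 : ℝ) ≤ 1 / 10 by norm_num)
      (show (1 / 10 : ℝ) < 1 by norm_num)
    exact this.trans (by norm_num)
  nlinarith [Real.exp_one_lt_d9, Real.exp_pos (1 / 10 : ℝ), Real.exp_pos (1 : ℝ)]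

theorem forty_two_le_kernelDeg : 40 + 2 ≤ kernelDeg := by
  have := growDeg_add_le
  omega

theorem forty_le_kernelDeg : 40 ≤ kernelDeg := le_trans (by norm_num) forty_two_le_kernelDeg

theorem two_le_kernelDeg_sub_forty : 2 ≤ kernelDeg - 40 := by
  have := forty_two_le_kernelDeg
  omega

variable {S₁ S₂ : Finset ℕ} {K₁ K₂ : ℕ}

theorem continuous_coef {g : ℝ → ℕ → ℂ} (hg : ∀ n, 0 < n → Continuous fun v => g v n) {k : ℕ}
    (hk : k ≠ 0) : Continuous fun v => coef S₁ K₁ S₂ K₂ (g v) k := by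
  refine continuous_finsetSum _ fun A _ => continuous_finsetSum _ fun B _ => ?_
  by_cases hd : (∏ p ∈ A, p) * ∏ p ∈ B, p ∣ k
  · simp only [if_pos hd]
    exact continuous_const.mul (hg _ (Nat.div_pos (Nat.le_of_dvd (Nat.pos_of_ne_zero hk) hd)
      (Nat.pos_of_ne_zero fun h => hk (by rw [h] at hd; simpa using hd))))
  · simp only [if_neg hd]
    exact continuous_const

theorem norm_coef_le {f : ℕ → ℂ} {D : ℝ} (hD : 0 ≤ D) {k : ℕ}
    (hf : ∀ n, 0 < n → n ≤ k → ‖f n‖ ≤ D) (hk : k ≠ 0) :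
    ‖coef S₁ K₁ S₂ K₂ f k‖ ≤ (smallSets S₁ K₁).card * ((smallSets S₂ K₂).card * D) := by
  refine (norm_sum_le_of_le _ (n := fun _ => ((smallSets S₂ K₂).card : ℝ) * D) fun A _ => ?_).trans
    (le_of_eq (by simp))
  refine (norm_sum_le_of_le _ (n := fun _ => D) fun B _ => ?_).trans (le_of_eq (by simp))
  split_ifs with hd
  · rw [norm_mul, norm_pow, norm_neg, norm_one, one_pow, one_mul]
    exact hf _ (Nat.div_pos (Nat.le_of_dvd (Nat.pos_of_ne_zero hk) hd)
      (Nat.pos_of_ne_zero fun h => hk (by rw [h] at hd; simpa using hd))) (Nat.div_le_self _ _)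
  · rwa [norm_zero]

theorem coef_const_mul (c : ℂ) (f : ℕ → ℂ) (k : ℕ) :
    coef S₁ K₁ S₂ K₂ (fun n => c * f n) k = c * coef S₁ K₁ S₂ K₂ f k := by
  rw [coef, coef, mul_sum]
  refine sum_congr rfl fun A _ => ?_
  rw [mul_sum]
  refine sum_congr rfl fun B _ => ?_
  split_ifs <;> ring

/-- **Coefficients given by an integral.** -/
theorem coef_mean_sq_le {f : ℕ → ℂ} {G z : ℝ → ℂ} (hGc : Continuous G) (hzc : Continuous z)
    {K : ℝ} (hK : 0 ≤ K) (hG : ∀ v, ‖G v‖ ≤ K * decay kernelDeg v) {x : ℝ}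
    (hx : ∀ v, (z v).re = x) (hf : ∀ n, 0 < n → f n = ∫ v, G v * (n : ℂ) ^ (-z v))
    {s : Finset ℕ} (hs : ∀ k ∈ s, k ≠ 0) {σ E : ℝ}
    (hb : ∀ v, ∑ k ∈ s, ‖coef S₁ K₁ S₂ K₂ (fun n => (n : ℂ) ^ (-z v)) k‖ ^ 2 *
      (k : ℝ) ^ (-(2 * σ)) ≤ E * (1 + |v|) ^ 40) :
    ∑ k ∈ s, ‖coef S₁ K₁ S₂ K₂ f k‖ ^ 2 * (k : ℝ) ^ (-(2 * σ)) ≤
      (K * ∫ v, decay kernelDeg v) * (K * E * ∫ v, decay (kernelDeg - 40) v) := by
  have hE : 0 ≤ E := by
    have h := (sum_nonneg fun k _ => by positivity).trans (hb 0)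
    simpa using h
  have hcpow : ∀ n : ℕ, 0 < n → Continuous fun v => (n : ℂ) ^ (-z v) := fun n hn =>
    Continuous.const_cpow hzc.neg (Or.inl (Nat.cast_ne_zero.2 hn.ne'))
  have hcb : ∀ k ∈ s, ∃ D, ∀ v, ‖coef S₁ K₁ S₂ K₂ (fun n => (n : ℂ) ^ (-z v)) k‖ ≤ D := fun k hk =>
    ⟨_, fun v => norm_coef_le (D := (k : ℝ) ^ |x|) (Real.rpow_nonneg (Nat.cast_nonneg k) _)
      (fun n hn hnk => by
        rw [Complex.norm_natCast_cpow_of_pos hn, Complex.neg_re, hx]
        exact (Real.rpow_le_rpow_of_exponent_le (Nat.one_le_cast.2 hn) (neg_le_abs x)).trans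
          (Real.rpow_le_rpow (Nat.cast_nonneg n) (Nat.cast_le.2 hnk) (abs_nonneg x))) (hs k hk)⟩
  obtain ⟨A, hA⟩ : ∃ A : ℝ → ℝ, A = fun v => K * decay kernelDeg v := ⟨_, rfl⟩
  have hA0 : ∀ v, 0 ≤ A v := fun v => hA ▸ mul_nonneg hK (decay_nonneg _ v)
  have hAc : Continuous A := hA ▸ (continuous_decay _).const_mul K
  have hAi : Integrable A := hA ▸ (integrable_decay two_le_kernelDeg).const_mul K
  have hpow : ∀ k ∈ s, ∀ i : ℕ, Integrable fun v =>
      A v * ‖coef S₁ K₁ S₂ K₂ (fun n => (n : ℂ) ^ (-z v)) k‖ ^ i := fun k hk i => by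
    obtain ⟨D, hD⟩ := hcb k hk
    refine integrable_of_decay two_le_kernelDeg (C := K * D ^ i)
      (hAc.mul ((continuous_coef hcpow (hs k hk)).norm.pow i)) fun v => ?_
    rw [norm_mul, norm_pow, norm_norm, Real.norm_of_nonneg (hA0 v), hA, mul_right_comm]
    exact mul_le_mul_of_nonneg_right (mul_le_mul_of_nonneg_left
      (pow_le_pow_left₀ (norm_nonneg _) (hD v) i) hK) (decay_nonneg _ v)
  have hterm : ∀ k ∈ s, ‖coef S₁ K₁ S₂ K₂ f k‖ ^ 2 ≤
      (∫ v, A v) * ∫ v, A v * ‖coef S₁ K₁ S₂ K₂ (fun n => (n : ℂ) ^ (-z v)) k‖ ^ 2 :=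
    fun k hk => by
    have hg : ∀ n : ℕ, 0 < n → Integrable fun v => G v * (n : ℂ) ^ (-z v) := fun n hn =>
      integrable_of_decay two_le_kernelDeg (C := K * (n : ℝ) ^ (-x)) (hGc.mul (hcpow n hn))
        fun v => by
          rw [norm_mul, Complex.norm_natCast_cpow_of_pos hn, Complex.neg_re, hx, mul_right_comm]
          exact mul_le_mul_of_nonneg_right (hG v) (by positivity)
    obtain ⟨-, hint⟩ := coef_integral (S₁ := S₁) (K₁ := K₁) (S₂ := S₂) (K₂ := K₂)
      (g := fun v n => G v * (n : ℂ) ^ (-z v)) hg hf (hs k hk)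
    rw [hint]
    refine norm_sq_integral_le hA0 (fun v => norm_nonneg _) (fun v => ?_) hAi
      (by simpa using hpow k hk 1) (hpow k hk 2)
    rw [coef_const_mul, norm_mul, hA]
    exact mul_le_mul_of_nonneg_right (hG v) (norm_nonneg _)
  refine (sum_le_sum fun k hk => mul_le_mul_of_nonneg_right (hterm k hk)
    (Real.rpow_nonneg (Nat.cast_nonneg k) _)).trans ?_
  rw [sum_congr rfl fun k _ => mul_assoc _ _ _, ← mul_sum,
    sum_congr rfl fun k _ => (integral_mul_const _ _).symm,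
    ← integral_finsetSum _ fun k hk => (hpow k hk 2).mul_const _]
  refine mul_le_mul (le_of_eq ?_) ?_ (integral_nonneg fun v => sum_nonneg fun k _ =>
    mul_nonneg (mul_nonneg (hA0 v) (sq_nonneg _)) (Real.rpow_nonneg (Nat.cast_nonneg k) _))
    (mul_nonneg hK (integral_nonneg fun v => decay_nonneg _ v))
  · rw [hA, integral_const_mul]
  · rw [← integral_const_mul]
    refine integral_mono (integrable_finsetSum _ fun k hk => (hpow k hk 2).mul_const _)
      ((integrable_decay two_le_kernelDeg_sub_forty).const_mul _) fun v => ?_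
    simp only [mul_assoc (A v)]
    rw [← mul_sum]
    refine (mul_le_mul_of_nonneg_left (hb v) (hA0 v)).trans (le_of_eq ?_)
    rw [hA, ← pow_mul_decay forty_le_kernelDeg v]
    generalize (1 + |v|) ^ 40 = U
    ring

theorem norm_molPoly_mul_eq {f : ℕ → ℂ} (h₁ : ∀ p ∈ S₁, p.Prime) (h₂ : ∀ p ∈ S₂, p.Prime)
    {N M : ℕ} (hf : ∀ n, N < n → f n = 0)
    (hM : ∀ A ∈ smallSets S₁ K₁, ∀ B ∈ smallSets S₂ K₂, N * ((∏ p ∈ A, p) * ∏ p ∈ B, p) ≤ M)
    (σ t : ℝ) :
    (∑ n ∈ Icc 1 N, f n * (n : ℂ) ^ (-((σ : ℂ) + t * Complex.I))) *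
        molPoly S₁ K₁ S₂ K₂ ((σ : ℂ) + t * Complex.I) =
      ∑ k ∈ Icc 1 M, (coef S₁ K₁ S₂ K₂ f k * (k : ℂ) ^ (-(σ : ℂ))) *
        (k : ℂ) ^ (-(Complex.I * (t : ℂ))) := by
  rw [sum_mul_molPoly h₁ h₂ hf hM]
  refine sum_congr rfl fun k hk => ?_
  rw [mul_assoc, ← Complex.cpow_add _ _ (Nat.cast_ne_zero.2
    (show k ≠ 0 by have := (mem_Icc.1 hk).1; omega))]
  ring_nf

/-- The mean square of a Dirichlet polynomial of length at most `T`. -/
theorem integral_sq_poly_le (a : ℕ → ℂ) {M : ℕ} {T : ℝ} (hT : 1 ≤ T) (hM : (M : ℝ) ≤ T) :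
    ∫ t in T..2 * T, ‖∑ n ∈ Icc 1 M, a n * (n : ℂ) ^ (-(Complex.I * (t : ℂ)))‖ ^ 2 ≤
      40 * T * ∑ n ∈ Icc 1 M, ‖a n‖ ^ 2 := by
  have h := (abs_le.1 (FA.MeanValue.mean_value_dirichlet a M T (2 * T))).2
  rw [show 2 * T - T = T by ring] at h
  have h2 : ∑ n ∈ Icc 1 M, ((n : ℝ) + 1 / 2) * ‖a n‖ ^ 2 ≤
      2 * T * ∑ n ∈ Icc 1 M, ‖a n‖ ^ 2 := by
    rw [mul_sum]
    refine sum_le_sum fun n hn => mul_le_mul_of_nonneg_right ?_ (sq_nonneg _)
    have : (n : ℝ) ≤ M := Nat.cast_le.2 (mem_Icc.1 hn).2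
    linarith
  have h3 := mul_le_mul_of_nonneg_left h2 (show 0 ≤ 4 * π by positivity)
  have h4 : 0 ≤ T * ∑ n ∈ Icc 1 M, ‖a n‖ ^ 2 :=
    mul_nonneg (by linarith) (sum_nonneg fun n _ => sq_nonneg _)
  nlinarith [mul_le_mul_of_nonneg_right Real.pi_lt_four.le h4]

theorem norm_sq_coef_mul_cpow (f : ℕ → ℂ) (σ : ℝ) {k : ℕ} (hk : 1 ≤ k) :
    ‖coef S₁ K₁ S₂ K₂ f k * (k : ℂ) ^ (-(σ : ℂ))‖ ^ 2 =
      ‖coef S₁ K₁ S₂ K₂ f k‖ ^ 2 * (k : ℝ) ^ (-(2 * σ)) := by
  rw [norm_mul, mul_pow, Complex.norm_natCast_cpow_of_pos hk, Complex.neg_re, Complex.ofReal_re,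
    ← Real.rpow_natCast ((k : ℝ) ^ _) 2, ← Real.rpow_mul (Nat.cast_nonneg k)]
  ring_nf

theorem eventually_lengths : ∀ᶠ L in atTop, ∀ a ≤ (19 / 20 : ℝ),
    ∃ M : ℕ, (M : ℝ) ≤ Real.exp L ∧ ∀ A ∈ smallSets (blockOne L) (depthOne L),
      ∀ B ∈ smallSets (blockTwo L) (depthTwo L),
        ⌊Real.exp (a * L)⌋₊ * ((∏ p ∈ A, p) * ∏ p ∈ B, p) ≤ M := by
  filter_upwards [eventually_length, eventually_cuts, eventually_scales 1] with L hlen hc hs
  intro a ha
  refine ⟨⌊Real.exp (a * L)⌋₊ * (cutOne L ^ depthOne L * cutTwo L ^ depthTwo L), ?_,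
    fun A hA B hB => Nat.mul_le_mul_left _ (Nat.mul_le_mul
      (prod_le_pow (by omega) (fun p hp => le_cut_of_mem.1 hp) hA)
      (prod_le_pow (by omega) (fun p hp => le_cut_of_mem.2 hp) hB))⟩
  push_cast
  refine (mul_le_mul (Nat.floor_le (Real.exp_pos _).le) hlen.1 (by positivity)
    (Real.exp_pos _).le).trans ?_
  rw [← Real.exp_add]
  refine Real.exp_le_exp.2 ?_
  nlinarith [hs.2.2.1]

theorem continuous_mollifier (L : ℝ) : Continuous (mollifier L) := by
  unfold mollifier molPoly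
  exact (continuous_trunc _ _ fun p hp => Continuous.const_cpow (by fun_prop)
      (Or.inl (Nat.cast_ne_zero.2 (prime_of_mem_blockOne hp).ne_zero))).mul
    (continuous_trunc _ _ fun p hp => Continuous.const_cpow (by fun_prop)
      (Or.inl (Nat.cast_ne_zero.2 (prime_of_mem_blockTwo hp).ne_zero)))

theorem conj_natCast_cpow (n : ℕ) (w : ℂ) : conj ((n : ℂ) ^ w) = (n : ℂ) ^ conj w := by
  rw [Complex.cpow_conj _ _ (by rw [Complex.natCast_arg]; exact Real.pi_ne_zero.symm),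
    map_natCast]

theorem continuous_cutExp (L : ℝ) : Continuous (cutExp L) := by
  unfold cutExp
  fun_prop

theorem continuous_zetaLine' {σ : ℝ} (hσ : σ ≠ 1) :
    Continuous fun t : ℝ => riemannZeta ((σ : ℂ) + t * Complex.I) :=
  continuous_iff_continuousAt.2 fun t => (differentiableAt_riemannZeta fun h => hσ (by
    simpa using congrArg Complex.re h)).continuousAt.comp
      (by fun_prop : ContinuousAt (fun t : ℝ => (σ : ℂ) + t * Complex.I) t)

theorem continuous_mainPoly (L σ : ℝ) :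
    Continuous fun t : ℝ => mainPoly L ((σ : ℂ) + t * Complex.I) := by
  unfold mainPoly
  exact continuous_finsetSum _ fun n hn => continuous_const.mul (Continuous.const_cpow (by fun_prop)
    (Or.inl (Nat.cast_ne_zero.2 (show n ≠ 0 by have := (mem_Icc.1 hn).1; omega))))

/-- **The main series.** -/
theorem exists_main_mean_sq : ∃ η : ℝ → ℝ, Tendsto η atTop (𝓝 0) ∧ ∀ᶠ L in atTop,
    ∫ t in Real.exp L..2 * Real.exp L,
      ‖mainPoly L ((sigmaL L : ℂ) + t * Complex.I) * mollifier L t - 1‖ ^ 2 ≤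
      η L * Real.exp L := by
  obtain ⟨η, hη, hcoef⟩ := exists_coef_main
  obtain ⟨C, hC⟩ : ∃ C, C = 40 * ((4 * kernelConst * ∫ v, decay kernelDeg v) *
      (4 * kernelConst * 3 ^ 40 * ∫ v, decay (kernelDeg - 40) v)) := ⟨_, rfl⟩
  refine ⟨fun L => C * η L, by simpa using hη.const_mul C, ?_⟩
  filter_upwards [hcoef, eventually_lengths, eventually_sigmaL, eventually_scales 1]
    with L hco hlen hσ hs
  obtain ⟨hm, hl, hL, -, -, -⟩ := hs
  obtain ⟨M, hMT, hM⟩ := hlen (3 / 5) (by norm_num)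
  have hL0 : 0 < L := by linarith
  obtain ⟨f, hf⟩ : ∃ f : ℕ → ℂ, f = smooth (1 / 2) L := ⟨_, rfl⟩
  have hf0 : ∀ n, ⌊Real.exp (3 / 5 * L)⌋₊ < n → f n = 0 := fun n hn => by
    rw [hf]
    refine smooth_eq_zero hL0 ?_
    have := Nat.lt_of_floor_lt hn
    norm_num at this ⊢
    exact this
  have hf1 : f 1 = 1 := hf ▸ smooth_eq_one hL0 one_pos (by
    rw [Nat.cast_one]
    exact Real.one_le_exp (by nlinarith))
  have hM1 : 1 ≤ M := by
    refine le_trans ?_ (hM ∅ (mem_smallSets.2 ⟨empty_subset _, Nat.zero_le _⟩) ∅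
      (mem_smallSets.2 ⟨empty_subset _, Nat.zero_le _⟩))
    simp only [prod_empty, mul_one]
    exact Nat.le_floor (by push_cast; exact Real.one_le_exp (by positivity))
  obtain ⟨a, ha⟩ : ∃ a : ℕ → ℂ, a = fun k => if k = 1 then 0 else
      coef (blockOne L) (depthOne L) (blockTwo L) (depthTwo L) f k *
        (k : ℂ) ^ (-(sigmaL L : ℂ)) := ⟨_, rfl⟩
  have hIcc : Icc 1 M = insert 1 (Icc 2 M) := by
    ext k
    simp only [mem_insert, mem_Icc]
    omega
  have hid : ∀ t : ℝ, mainPoly L ((sigmaL L : ℂ) + t * Complex.I) * mollifier L t - 1 =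
      ∑ k ∈ Icc 1 M, a k * (k : ℂ) ^ (-(Complex.I * (t : ℂ))) := fun t => by
    have h := norm_molPoly_mul_eq (fun p hp => prime_of_mem_blockOne hp)
      (fun p hp => prime_of_mem_blockTwo hp) hf0 hM (sigmaL L) t
    rw [mainPoly, mollifier, ← hf, h, hIcc, sum_insert (by simp), sum_insert (by simp),
      coef_one _ (fun p hp => prime_of_mem_blockOne hp) fun p hp => prime_of_mem_blockTwo hp, hf1,
      ha]
    simp only [Nat.cast_one, Complex.one_cpow, mul_one, if_true, zero_add,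
      add_sub_cancel_left]
    refine sum_congr rfl fun k hk => ?_
    rw [if_neg (show k ≠ 1 by have := (mem_Icc.1 hk).1; omega)]
  simp only [hid]
  refine (integral_sq_poly_le a (Real.one_le_exp hL0.le) hMT).trans ?_
  rw [hIcc, sum_insert (by simp)]
  have e : ∀ k ∈ Icc 2 M, ‖a k‖ ^ 2 =
      ‖coef (blockOne L) (depthOne L) (blockTwo L) (depthTwo L) f k‖ ^ 2 *
        (k : ℝ) ^ (-(2 * sigmaL L)) := fun k hk => by
    have h2 := (mem_Icc.1 hk).1
    rw [ha]
    simp only [show k ≠ 1 by omega, if_false]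
    exact norm_sq_coef_mul_cpow f _ (by omega)
  rw [sum_congr rfl e, show ‖a 1‖ ^ 2 = 0 by simp [ha], zero_add]
  have hcut : ∀ v, (cutExp L v).re = 1 / L := fun v => by
    rw [cutExp, Complex.div_ofReal_re]
    simp
  have hb : ∀ v, ∑ k ∈ Icc 2 M, ‖coef (blockOne L) (depthOne L) (blockTwo L) (depthTwo L)
      (fun n => (n : ℂ) ^ (-cutExp L v)) k‖ ^ 2 * (k : ℝ) ^ (-(2 * sigmaL L)) ≤
      (3 ^ 40 * η L) * (1 + |v|) ^ 40 := fun v => by
    have hnorm : ‖cutExp L v‖ * L ≤ 1 + |v| := by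
      rw [cutExp, norm_div, Complex.norm_real, Real.norm_of_nonneg hL0.le,
        div_mul_cancel₀ _ hL0.ne']
      refine (norm_add_le _ _).trans (le_of_eq ?_)
      simp
    refine (hco M (cutExp L v) (1 + |v|) hMT (by rw [hcut]; positivity)
      (by rw [hcut, div_mul_cancel₀ _ hL0.ne']) hnorm).trans ?_
    have hη0 : 0 ≤ η L := by
      have h := (sum_nonneg fun k _ => by positivity).trans
        (hco 0 0 0 (by simp [(Real.exp_pos L).le]) le_rfl (by simp) (by simp))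
      exact nonneg_of_mul_nonneg_left h (by norm_num)
    rw [mul_comm ((3 : ℝ) ^ 40) (η L), mul_assoc, ← mul_pow]
    exact mul_le_mul_of_nonneg_left
      (pow_le_pow_left₀ (by positivity) (by linarith [abs_nonneg v]) 40) hη0
  have key := coef_mean_sq_le (f := f) (G := cutWeight (1 / 2)) (z := cutExp L)
    (S₁ := blockOne L) (K₁ := depthOne L) (S₂ := blockTwo L) (K₂ := depthTwo L)
    ((continuous_kern one_ne_zero _).const_mul _) (continuous_cutExp L)
    (K := 4 * kernelConst) (by linarith [one_le_kernelConst]) (norm_cutWeight_le (by norm_num))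
    hcut (fun n hn => hf ▸ smooth_eq_integral (1 / 2) L hn)
    (s := Icc 2 M) (fun k hk => by have := (mem_Icc.1 hk).1; omega) hb
  refine (mul_le_mul_of_nonneg_left key (by positivity)).trans (le_of_eq ?_)
  rw [hC]
  generalize (3 : ℝ) ^ 40 = X
  generalize Real.exp L = Z
  ring

/-- **The dual series, for each `v`.** -/
theorem exists_dual_mean_sq : ∃ C, 0 ≤ C ∧ ∀ᶠ L in atTop, ∀ v : ℝ,
    ∫ t in Real.exp L..2 * Real.exp L,
      (‖dualPoly L ((1 / 2 : ℂ) + ((t + v / L : ℝ) : ℂ) * Complex.I)‖ * ‖mollifier L t‖) ^ 2 ≤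
      C * Real.exp L * (scaleTwo L ^ 4 * (3 + shiftW L) ^ 40) * (1 + |v|) ^ 40 := by
  obtain ⟨C, hC1, hcoef⟩ := exists_coef_dual
  refine ⟨40 * ((4 * kernelConst * ∫ v, decay kernelDeg v) *
      (4 * kernelConst * C * ∫ v, decay (kernelDeg - 40) v)), ?_, ?_⟩
  · have h1 := zero_le_one.trans one_le_kernelConst
    have h2 : 0 ≤ ∫ v, decay kernelDeg v := integral_nonneg fun v => decay_nonneg _ v
    have h3 : 0 ≤ ∫ v, decay (kernelDeg - 40) v := integral_nonneg fun v => decay_nonneg _ v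
    exact mul_nonneg (by norm_num) (mul_nonneg (mul_nonneg (by linarith) h2)
      (mul_nonneg (mul_nonneg (by linarith) (by linarith)) h3))
  filter_upwards [hcoef, eventually_lengths, eventually_sigmaL, eventually_scales 1]
    with L hco hlen hσ hs
  intro v
  obtain ⟨hm, hl, hL, -, -, -⟩ := hs
  have hL0 : 0 < L := by linarith
  obtain ⟨M, hMT, hM⟩ := hlen (19 / 20) le_rfl
  obtain ⟨δ, hδ⟩ : ∃ δ, δ = sigmaL L - 1 / 2 := ⟨_, rfl⟩
  have hδL : δ * L = shiftW L := hδ ▸ hσ.2.2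
  obtain ⟨e₀, he₀⟩ : ∃ e₀ : ℂ, e₀ = (δ : ℂ) - ((v / L : ℝ) : ℂ) * Complex.I := ⟨_, rfl⟩
  obtain ⟨f, hf⟩ : ∃ f : ℕ → ℂ,
      f = fun n => conj (smooth (17 / 20) L n) * (n : ℂ) ^ e₀ := ⟨_, rfl⟩
  have hf0 : ∀ n, ⌊Real.exp (19 / 20 * L)⌋₊ < n → f n = 0 := fun n hn => by
    rw [hf]
    simp only
    rw [smooth_eq_zero hL0 ?_, map_zero, zero_mul]
    have := Nat.lt_of_floor_lt hn
    norm_num at this ⊢
    exact this
  obtain ⟨a, ha⟩ : ∃ a : ℕ → ℂ, a = fun k =>
      coef (blockOne L) (depthOne L) (blockTwo L) (depthTwo L) f k *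
        (k : ℂ) ^ (-(sigmaL L : ℂ)) := ⟨_, rfl⟩
  have hid : ∀ t : ℝ,
      ‖dualPoly L ((1 / 2 : ℂ) + ((t + v / L : ℝ) : ℂ) * Complex.I)‖ * ‖mollifier L t‖ =
        ‖∑ k ∈ Icc 1 M, a k * (k : ℂ) ^ (-(Complex.I * (t : ℂ)))‖ := fun t => by
    rw [ha]
    rw [← norm_molPoly_mul_eq (fun p hp => prime_of_mem_blockOne hp)
      (fun p hp => prime_of_mem_blockTwo hp) hf0 hM (sigmaL L) t, norm_mul, mollifier]
    congr 1
    rw [← Complex.norm_conj, dualPoly, map_sum]
    refine congrArg norm (sum_congr rfl fun n hn => ?_)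
    have hn0 : (n : ℂ) ≠ 0 := Nat.cast_ne_zero.2 (by have := (mem_Icc.1 hn).1; omega)
    rw [map_mul, hf, mul_assoc, ← Complex.cpow_add _ _ hn0, conj_natCast_cpow]
    congr 2
    rw [he₀, hδ]
    simp [Complex.conj_ofReal, map_ofNat]
    ring
  simp only [hid]
  refine (integral_sq_poly_le a (Real.one_le_exp hL0.le) hMT).trans ?_
  have e : ∀ k ∈ Icc 1 M, ‖a k‖ ^ 2 =
      ‖coef (blockOne L) (depthOne L) (blockTwo L) (depthTwo L) f k‖ ^ 2 *
        (k : ℝ) ^ (-(2 * sigmaL L)) := fun k hk => by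
    rw [ha]
    exact norm_sq_coef_mul_cpow f _ (mem_Icc.1 hk).1
  rw [sum_congr rfl e]
  obtain ⟨z, hz⟩ : ∃ z : ℝ → ℂ, z = fun u => conj (cutExp L u) - e₀ := ⟨_, rfl⟩
  have hzre : ∀ u, (z u).re = 1 / L - δ := fun u => by
    simp [hz, he₀, cutExp, Complex.div_ofReal_re]
  have hW0 : 0 ≤ shiftW L := pow_nonneg (by linarith) 3
  have hb : ∀ u, ∑ k ∈ Icc 1 M, ‖coef (blockOne L) (depthOne L) (blockTwo L) (depthTwo L)
      (fun n => (n : ℂ) ^ (-z u)) k‖ ^ 2 * (k : ℝ) ^ (-(2 * sigmaL L)) ≤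
      (C * scaleTwo L ^ 4 * ((3 + shiftW L) ^ 40 * (1 + |v|) ^ 40)) * (1 + |u|) ^ 40 := fun u => by
    have hnorm : ‖z u‖ * L ≤ (1 + |u|) + shiftW L + |v| := by
      have h1 : ‖cutExp L u‖ * L ≤ 1 + |u| := by
        rw [cutExp, norm_div, Complex.norm_real, Real.norm_of_nonneg hL0.le,
          div_mul_cancel₀ _ hL0.ne']
        refine (norm_add_le _ _).trans (le_of_eq ?_)
        simp
      have h2 : ‖e₀‖ * L ≤ shiftW L + |v| := by
        rw [he₀]
        refine (mul_le_mul_of_nonneg_right (norm_sub_le _ _) hL0.le).trans (le_of_eq ?_)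
        rw [norm_mul, Complex.norm_I, mul_one, Complex.norm_real, Complex.norm_real,
          Real.norm_eq_abs, Real.norm_eq_abs, abs_of_nonneg (by linarith [hσ.1] : (0 : ℝ) ≤ δ),
          abs_div, abs_of_pos hL0, add_mul, hδL, div_mul_cancel₀ _ hL0.ne']
      have h3 := mul_le_mul_of_nonneg_right
        (norm_sub_le (conj (cutExp L u)) e₀) hL0.le
      rw [Complex.norm_conj, add_mul] at h3
      rw [hz]
      simp only
      linarith
    refine (hco M (z u) (sigmaL L) _ hMT ?_ ?_ hnorm).trans ?_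
    · rw [hzre, hδ]
      linarith [div_pos one_pos hL0]
    · rw [hzre, sub_mul, div_mul_cancel₀ _ hL0.ne', hδL]
      linarith
    · rw [mul_assoc (C * scaleTwo L ^ 4), ← mul_pow, ← mul_pow]
      refine mul_le_mul_of_nonneg_left (pow_le_pow_left₀ (by positivity) ?_ 40)
        (mul_nonneg (by linarith) (pow_nonneg (by linarith) 4))
      nlinarith [mul_nonneg (abs_nonneg u) (abs_nonneg v), abs_nonneg u, abs_nonneg v,
        mul_nonneg hW0 (abs_nonneg u), mul_nonneg hW0 (abs_nonneg v),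
        mul_nonneg hW0 (mul_nonneg (abs_nonneg u) (abs_nonneg v))]
  have key := coef_mean_sq_le (f := f) (G := fun u => conj (cutWeight (17 / 20) u)) (z := z)
    (S₁ := blockOne L) (K₁ := depthOne L) (S₂ := blockTwo L) (K₂ := depthTwo L)
    (Complex.continuous_conj.comp ((continuous_kern one_ne_zero _).const_mul _))
    (hz ▸ (Complex.continuous_conj.comp (continuous_cutExp L)).sub continuous_const)
    (K := 4 * kernelConst) (by linarith [one_le_kernelConst])
    (fun u => by rw [Complex.norm_conj]; exact norm_cutWeight_le (by norm_num) u)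
    hzre (fun n hn => ?_) (s := Icc 1 M) (fun k hk => by have := (mem_Icc.1 hk).1; omega) hb
  · refine (mul_le_mul_of_nonneg_left key (by positivity)).trans (le_of_eq ?_)
    generalize (3 + shiftW L) ^ 40 = X
    generalize (1 + |v|) ^ 40 = Y
    generalize Real.exp L = Z
    ring
  · have hn0 : (n : ℂ) ≠ 0 := Nat.cast_ne_zero.2 hn.ne'
    rw [hf]
    simp only
    rw [smooth_eq_integral _ L hn, ← integral_conj, ← integral_mul_const]
    refine integral_congr_ae (Eventually.of_forall fun u => ?_)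
    simp only [hz, map_mul]
    rw [conj_natCast_cpow, map_neg, mul_assoc, ← Complex.cpow_add _ _ hn0]
    ring_nf

/-- **The dual series on average over `v`.** -/
theorem exists_dual_total : ∃ C, 0 ≤ C ∧ ∀ᶠ L in atTop,
    ∫ t in Real.exp L..2 * Real.exp L,
      ((∫ v : ℝ, decay kernelDeg v *
        ‖dualPoly L ((1 / 2 : ℂ) + ((t + v / L : ℝ) : ℂ) * Complex.I)‖) * ‖mollifier L t‖) ^ 2 ≤
      C * Real.exp L * (scaleTwo L ^ 4 * (3 + shiftW L) ^ 40) := by
  obtain ⟨C, hC0, hC⟩ := exists_dual_mean_sq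
  obtain ⟨B, -, hB⟩ := exists_norm_cutoff_le
  refine ⟨(∫ v, decay kernelDeg v) * (C * ∫ v, decay (kernelDeg - 40) v), mul_nonneg
    (integral_nonneg fun v => decay_nonneg _ v)
    (mul_nonneg hC0 (integral_nonneg fun v => decay_nonneg _ v)), ?_⟩
  filter_upwards [hC, eventually_length, eventually_scales 1] with L hCL hlen hs
  obtain ⟨hm, hl, hL, -, -, -⟩ := hs
  obtain ⟨T, hT⟩ : ∃ T, T = Real.exp L := ⟨_, rfl⟩
  rw [← hT] at hCL ⊢
  have hT0 : 0 < T := hT ▸ Real.exp_pos L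
  obtain ⟨P, hP⟩ : ∃ P : ℝ → ℝ → ℝ, P = fun t v =>
      ‖dualPoly L ((1 / 2 : ℂ) + ((t + v / L : ℝ) : ℂ) * Complex.I)‖ * ‖mollifier L t‖ := ⟨_, rfl⟩
  have hP' : ∀ t v : ℝ, ‖dualPoly L ((1 / 2 : ℂ) + ((t + v / L : ℝ) : ℂ) * Complex.I)‖ *
      ‖mollifier L t‖ = P t v := fun t v => by rw [hP]
  simp only [hP'] at hCL
  have hPc : Continuous (Function.uncurry P) := by
    rw [hP]
    exact ((differentiable_dualPoly L).continuous.comp (by fun_prop)).norm.mul
      ((continuous_mollifier L).comp continuous_fst).norm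
  obtain ⟨D, hD⟩ : ∃ D, D = B * ⌊Real.exp (19 / 20 * L)⌋₊ * Real.exp (L / 20) := ⟨_, rfl⟩
  have hB0 : 0 ≤ B := (norm_nonneg _).trans (hB 0)
  have hP0 : ∀ t v, 0 ≤ P t v := fun t v => by rw [hP]; positivity
  have hPD : ∀ t v, P t v ≤ D := fun t v => by
    rw [hP, hD]
    exact mul_le_mul (norm_dualPoly_le hB (by simp; norm_num)) (hlen.2 t) (norm_nonneg _)
      (by positivity)
  have hint : ∀ (t : ℝ) (i : ℕ), Integrable fun v => decay kernelDeg v * P t v ^ i := fun t i => by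
    refine integrable_of_decay two_le_kernelDeg (C := D ^ i) ((continuous_decay _).mul
      ((hPc.comp (Continuous.prodMk continuous_const continuous_id)).pow i)) fun v => ?_
    rw [Real.norm_of_nonneg (mul_nonneg (decay_nonneg _ _) (pow_nonneg (hP0 t v) i)), mul_comm]
    exact mul_le_mul_of_nonneg_right (pow_le_pow_left₀ (hP0 t v) (hPD t v) i) (decay_nonneg _ v)
  have hpt : ∀ t : ℝ, ((∫ v : ℝ, decay kernelDeg v *
      ‖dualPoly L ((1 / 2 : ℂ) + ((t + v / L : ℝ) : ℂ) * Complex.I)‖) * ‖mollifier L t‖) ^ 2 ≤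
      (∫ v, decay kernelDeg v) * ∫ v, decay kernelDeg v * P t v ^ 2 := fun t => by
    rw [← integral_mul_const]
    simp only [mul_assoc, hP']
    have h := norm_sq_integral_le (h := fun v => ((decay kernelDeg v * P t v : ℝ) : ℂ))
      (A := decay kernelDeg) (B := P t) (decay_nonneg _) (hP0 t) (fun v => le_of_eq (by
        rw [Complex.norm_real, Real.norm_of_nonneg (mul_nonneg (decay_nonneg _ _) (hP0 t v))]))
      (integrable_decay two_le_kernelDeg) (by simpa using hint t 1) (hint t 2)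
    rw [integral_complex_ofReal, Complex.norm_real, Real.norm_eq_abs, sq_abs] at h
    exact h
  have hI2 : Integrable (Function.uncurry fun t v => decay kernelDeg v * P t v ^ 2)
      ((volume.restrict (Set.Ioc T (2 * T))).prod volume) := by
    have : IsFiniteMeasure (volume.restrict (Set.Ioc T (2 * T))) :=
      ⟨by rw [Measure.restrict_apply_univ, Real.volume_Ioc]; exact ENNReal.ofReal_lt_top⟩
    refine ((integrable_const (D ^ 2)).mul_prod (integrable_decay two_le_kernelDeg)).mono'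
      (((continuous_decay _).comp continuous_snd).mul (hPc.pow 2)).aestronglyMeasurable
      (Eventually.of_forall fun x => ?_)
    rw [Function.uncurry, Real.norm_of_nonneg (mul_nonneg (decay_nonneg _ _) (sq_nonneg _)),
      mul_comm]
    exact mul_le_mul_of_nonneg_right (pow_le_pow_left₀ (hP0 _ _) (hPD _ _) 2) (decay_nonneg _ _)
  rw [intervalIntegral.integral_of_le (by linarith)]
  refine (integral_mono_of_nonneg (Eventually.of_forall fun t => sq_nonneg _)
    ((hI2.integral_prod_left).const_mul _) (Eventually.of_forall hpt)).trans ?_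
  rw [integral_const_mul, mul_assoc (∫ v, decay kernelDeg v), mul_assoc (∫ v, decay kernelDeg v)]
  refine mul_le_mul_of_nonneg_left ?_ (integral_nonneg fun v => decay_nonneg _ v)
  show ∫ t in Set.Ioc T (2 * T), ∫ v, decay kernelDeg v * P t v ^ 2 ≤ _
  rw [integral_integral_swap hI2]
  have hJ : C * T * (scaleTwo L ^ 4 * (3 + shiftW L) ^ 40) * (∫ v, decay (kernelDeg - 40) v) =
      C * (∫ v, decay (kernelDeg - 40) v) * T * (scaleTwo L ^ 4 * (3 + shiftW L) ^ 40) := by
    generalize (3 + shiftW L) ^ 40 = X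
    ring
  rw [← hJ, ← integral_const_mul]
  refine integral_mono_of_nonneg (Eventually.of_forall fun v => integral_nonneg fun t =>
    mul_nonneg (decay_nonneg _ v) (sq_nonneg _))
    ((integrable_decay two_le_kernelDeg_sub_forty).const_mul _)
    (Eventually.of_forall fun v => ?_)
  simp only
  rw [integral_const_mul, ← intervalIntegral.integral_of_le (by linarith)]
  refine (mul_le_mul_of_nonneg_left (hCL v) (decay_nonneg _ v)).trans (le_of_eq ?_)
  rw [← pow_mul_decay forty_le_kernelDeg v]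
  generalize (3 + shiftW L) ^ 40 = X
  generalize (1 + |v|) ^ 40 = Y
  ring

/-- **The mollified mean square.** -/
theorem tendsto_mollified :
    Tendsto (fun L => (∫ t in Real.exp L..2 * Real.exp L,
      ‖1 - riemannZeta ((sigmaL L : ℂ) + t * Complex.I) * mollifier L t‖ ^ 2) / Real.exp L)
      atTop (𝓝 0) := by
  obtain ⟨C, hC0, hid⟩ := exists_zeta_approx
  obtain ⟨η, hη, hmain⟩ := exists_main_mean_sq
  obtain ⟨D, hD0, hdual⟩ := exists_dual_total
  obtain ⟨R, hR⟩ : ∃ R : ℝ → ℝ, R = fun L => 3 * η L + 3 * C ^ 2 * (D *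
      (Real.exp (-(4 / 5) * shiftW L) * (scaleTwo L ^ 4 * (3 + shiftW L) ^ 40))) +
      3 * C ^ 2 * Real.exp (-(1 / 5) * L) := ⟨_, rfl⟩
  have hlim : Tendsto R atTop (𝓝 0) := by
    have h1 : Tendsto (fun L => Real.exp (-(4 / 5) * shiftW L) *
        (scaleTwo L ^ 4 * (3 + shiftW L) ^ 40)) atTop (𝓝 0) := by
      have h := ((Real.tendsto_pow_mul_exp_neg_atTop_nhds_zero 42).comp
        (tendsto_shiftW.const_mul_atTop (show (0 : ℝ) < 4 / 5 by norm_num))).const_mul
          ((4 : ℝ) ^ 40 * (5 / 4) ^ 42)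
      rw [mul_zero] at h
      refine squeeze_zero' ?_ ?_ h
      · filter_upwards [eventually_scales 1] with L hs
        have hW : 0 ≤ shiftW L := pow_nonneg (by linarith [hs.1]) 3
        exact mul_nonneg (Real.exp_pos _).le
          (mul_nonneg (pow_nonneg (by linarith [hs.1]) 4) (pow_nonneg (by linarith) 40))
      · filter_upwards [eventually_scales 1] with L hs
        have hW1 : 1 ≤ shiftW L := one_le_pow₀ hs.1
        have h4 : scaleTwo L ^ 4 ≤ shiftW L ^ 2 := by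
          rw [shiftW, ← pow_mul]
          exact pow_le_pow_right₀ hs.1 (by norm_num)
        simp only [Function.comp_apply]
        rw [show (4 : ℝ) ^ 40 * (5 / 4) ^ 42 *
            ((4 / 5 * shiftW L) ^ 42 * Real.exp (-(4 / 5 * shiftW L))) =
            Real.exp (-(4 / 5) * shiftW L) * (shiftW L ^ 2 * (4 * shiftW L) ^ 40) by
          rw [neg_mul, mul_pow (4 / 5 : ℝ), mul_pow (4 : ℝ)]
          ring]
        exact mul_le_mul_of_nonneg_left (mul_le_mul h4
          (pow_le_pow_left₀ (by linarith) (by linarith) 40) (by positivity) (sq_nonneg _))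
          (Real.exp_pos _).le
    have h2 : Tendsto (fun L : ℝ => Real.exp (-(1 / 5) * L)) atTop (𝓝 0) :=
      Real.tendsto_exp_atBot.comp (tendsto_id.const_mul_atTop_of_neg (by norm_num))
    rw [hR]
    simpa using ((hη.const_mul 3).add ((h1.const_mul D).const_mul (3 * C ^ 2))).add
      (h2.const_mul (3 * C ^ 2))
  refine squeeze_zero' (Eventually.of_forall fun L => div_nonneg (intervalIntegral.integral_nonneg
    (by linarith [Real.exp_pos L]) fun t _ => sq_nonneg _) (Real.exp_pos L).le) ?_ hlim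
  filter_upwards [hmain, hdual, eventually_sigmaL, eventually_scales 1, eventually_length]
    with L hmL hdL hσ hs hlen
  obtain ⟨hm, hl, hL, -, -, -⟩ := hs
  rw [div_le_iff₀ (Real.exp_pos L)]
  obtain ⟨T, hT⟩ : ∃ T, T = Real.exp L := ⟨_, rfl⟩
  rw [← hT] at hmL hdL ⊢
  have hT0 : 0 < T := hT ▸ Real.exp_pos L
  have hσ1 : sigmaL L ≠ 1 := by linarith [hσ.2.1]
  have hW1 : 1 ≤ shiftW L := one_le_pow₀ hm
  obtain ⟨I, hI⟩ : ∃ I : ℝ → ℝ, I = fun t => ∫ v : ℝ, decay kernelDeg v *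
      ‖dualPoly L ((1 / 2 : ℂ) + ((t + v / L : ℝ) : ℂ) * Complex.I)‖ := ⟨_, rfl⟩
  obtain ⟨B, -, hB⟩ := exists_norm_cutoff_le
  have hIc : Continuous I := by
    rw [hI]
    refine continuous_of_dominated (bound := fun v => B * ⌊Real.exp (19 / 20 * L)⌋₊ *
      decay kernelDeg v) (fun t => ((continuous_decay _).mul
        ((differentiable_dualPoly L).continuous.comp (by fun_prop)).norm).aestronglyMeasurable)
      (fun t => Eventually.of_forall fun v => ?_)
      ((integrable_decay two_le_kernelDeg).const_mul _) (Eventually.of_forall fun v =>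
        continuous_const.mul ((differentiable_dualPoly L).continuous.comp (by fun_prop)).norm)
    rw [Real.norm_of_nonneg (mul_nonneg (decay_nonneg _ _) (norm_nonneg _)), mul_comm]
    exact mul_le_mul_of_nonneg_right (norm_dualPoly_le hB (by simp; norm_num)) (decay_nonneg _ _)
  have hI' : ∀ t : ℝ, (∫ v : ℝ, decay kernelDeg v *
      ‖dualPoly L ((1 / 2 : ℂ) + ((t + v / L : ℝ) : ℂ) * Complex.I)‖) = I t := fun t => by rw [hI]
  simp only [hI'] at hdL
  obtain ⟨F, hF⟩ : ∃ F : ℝ → ℝ,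
      F = fun t : ℝ => ‖mainPoly L ((sigmaL L : ℂ) + t * Complex.I) * mollifier L t - 1‖ := ⟨_, rfl⟩
  have hFc : Continuous F := hF ▸
    (((continuous_mainPoly L (sigmaL L)).mul (continuous_mollifier L)).sub continuous_const).norm
  obtain ⟨G, hG⟩ : ∃ G : ℝ → ℝ, G = fun t => I t * ‖mollifier L t‖ := ⟨_, rfl⟩
  have hGc : Continuous G := hG ▸ hIc.mul (continuous_mollifier L).norm
  obtain ⟨c₁, hc₁⟩ : ∃ c₁, c₁ = C * Real.exp (-(2 / 5) * shiftW L) := ⟨_, rfl⟩
  obtain ⟨c₂, hc₂⟩ : ∃ c₂, c₂ = C * Real.exp (-(1 / 10) * L) := ⟨_, rfl⟩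
  have hpt : ∀ t ∈ Set.Icc T (2 * T),
      ‖1 - riemannZeta ((sigmaL L : ℂ) + t * Complex.I) * mollifier L t‖ ^ 2 ≤
        3 * F t ^ 2 + 3 * c₁ ^ 2 * G t ^ 2 + 3 * c₂ ^ 2 := fun t ht => by
    have h := hid L (sigmaL L) t hL hσ.1 hσ.2.1 (hT ▸ ht.1) (hT ▸ ht.2)
    rw [hσ.2.2, hI' t] at h
    have hI0 : 0 ≤ I t := hI ▸ integral_nonneg fun v =>
      mul_nonneg (decay_nonneg _ _) (norm_nonneg _)
    have hG0 : 0 ≤ G t := hG ▸ mul_nonneg hI0 (norm_nonneg _)
    have hF0 : 0 ≤ F t := by rw [hF]; positivity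
    have key : ‖1 - riemannZeta ((sigmaL L : ℂ) + t * Complex.I) * mollifier L t‖ ≤
        F t + c₁ * G t + c₂ := by
      rw [show 1 - riemannZeta ((sigmaL L : ℂ) + t * Complex.I) * mollifier L t =
        -(mainPoly L ((sigmaL L : ℂ) + t * Complex.I) * mollifier L t - 1) -
          (riemannZeta ((sigmaL L : ℂ) + t * Complex.I) -
            mainPoly L ((sigmaL L : ℂ) + t * Complex.I)) * mollifier L t by ring]
      refine (norm_sub_le _ _).trans ?_
      rw [norm_neg, norm_mul, add_assoc, hF]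
      refine add_le_add le_rfl ((mul_le_mul_of_nonneg_right h (norm_nonneg _)).trans ?_)
      rw [mul_add C, add_mul, hc₁, hc₂, hG]
      refine add_le_add ?_ ?_
      · simp only
        rw [← mul_assoc C, ← mul_div_assoc, mul_assoc]
        exact mul_le_mul_of_nonneg_right (div_le_self (mul_nonneg hC0 (Real.exp_pos _).le) hW1)
          (mul_nonneg hI0 (norm_nonneg _))
      · rw [mul_assoc]
        refine mul_le_mul_of_nonneg_left ?_ hC0
        refine (mul_le_mul_of_nonneg_left (hlen.2 t) (Real.exp_pos _).le).trans_eq ?_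
        rw [← Real.exp_add]
        congr 1
        ring
    refine (pow_le_pow_left₀ (norm_nonneg _) key 2).trans ?_
    nlinarith [sq_nonneg (F t - c₁ * G t), sq_nonneg (F t - c₂), sq_nonneg (c₁ * G t - c₂)]
  have hcont : Continuous fun t : ℝ =>
      ‖1 - riemannZeta ((sigmaL L : ℂ) + t * Complex.I) * mollifier L t‖ ^ 2 :=
    ((continuous_const.sub ((continuous_zetaLine' hσ1).mul (continuous_mollifier L))).norm).pow 2
  have hi1 : IntervalIntegrable (fun t => 3 * F t ^ 2) volume T (2 * T) :=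
    ((hFc.pow 2).const_mul 3).intervalIntegrable _ _
  have hi2 : IntervalIntegrable (fun t => 3 * c₁ ^ 2 * G t ^ 2) volume T (2 * T) :=
    ((hGc.pow 2).const_mul _).intervalIntegrable _ _
  refine (intervalIntegral.integral_mono_on (by linarith) (hcont.intervalIntegrable _ _)
    ((hi1.add hi2).add (intervalIntegrable_const (c := 3 * c₂ ^ 2))) hpt).trans ?_
  rw [intervalIntegral.integral_add (hi1.add hi2) intervalIntegrable_const,
    intervalIntegral.integral_add hi1 hi2, intervalIntegral.integral_const_mul,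
    intervalIntegral.integral_const_mul, intervalIntegral.integral_const, smul_eq_mul, hR]
  have e1 : c₁ ^ 2 = C ^ 2 * Real.exp (-(4 / 5) * shiftW L) := by
    rw [hc₁, mul_pow, ← Real.exp_nat_mul]
    push_cast
    ring_nf
  have e2 : c₂ ^ 2 = C ^ 2 * Real.exp (-(1 / 5) * L) := by
    rw [hc₂, mul_pow, ← Real.exp_nat_mul]
    push_cast
    ring_nf
  have hm' : ∫ t in T..2 * T, F t ^ 2 ≤ η L * T := by
    simp only [hF]
    exact hmL
  have hd' : ∫ t in T..2 * T, G t ^ 2 ≤ D * T * (scaleTwo L ^ 4 * (3 + shiftW L) ^ 40) := by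
    simp only [hG]
    exact hdL
  have h5 := mul_le_mul_of_nonneg_left hd' (show 0 ≤ 3 * c₁ ^ 2 by positivity)
  rw [e1] at h5 ⊢
  rw [e2]
  simp only
  generalize scaleTwo L ^ 4 * (3 + shiftW L) ^ 40 = X at h5 ⊢
  linarith

end FA.SelbergCLT
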