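import Fermat.Agent.DedekindZeroFree.Growth
import Fermat.Agent.ExplicitFormula.Residue
import Mathlib.MeasureTheory.Integral.IntegralEqImproper
import Mathlib.Analysis.SpecialFunctions.ImproperIntegrals
import Mathlib.Analysis.Complex.Convex

/-!
# A smooth cutoff on a logarithmic scale

`g₀` is entire, `g₀ 0 = 1` and `|g₀ w| ≤ K e^(|re w| / 10) / (1 + |im w|) ^ m`; the cutoff
`(2πi)⁻¹ ∫ e^(-b w) g₀ w / w` on `re w = 1` is `1` for `b < -1/10` and `0` for `b > 1/10`.
-/

set_option autoImplicit false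

noncomputable section

namespace FA.SelbergCLT

open Complex Filter MeasureTheory Set
open FA.ExplicitFormula (boxInt boxEdges boxInt_eq_zero boxInt_residue)
open scoped Topology Real

/-- The degree of the decay of `g₀`. -/
def kernelDeg : ℕ := ⌈FA.DedekindZF.growA⌉₊ + 100

/-- `(sinh (w / 10 m) / (w / 10 m)) ^ m`. -/
def g₀ (w : ℂ) : ℂ := dslope Complex.sinh 0 (w / (10 * kernelDeg : ℕ)) ^ kernelDeg

/-- The constant in the bound for `g₀`. -/
def kernelConst : ℝ := (20 * kernelDeg : ℕ) ^ kernelDeg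

/-- `(1 + |v|) ^ (-m)`. -/
def decay (m : ℕ) (v : ℝ) : ℝ := ((1 + |v|) ^ m)⁻¹

theorem kernelDeg_pos : 0 < kernelDeg := Nat.add_pos_right _ (by norm_num)

theorem one_le_kernelConst : 1 ≤ kernelConst :=
  one_le_pow₀ (Nat.one_le_cast.2 (by have := kernelDeg_pos; omega))

theorem differentiable_g₀ : Differentiable ℂ g₀ := by
  have h : Differentiable ℂ (dslope Complex.sinh 0) := differentiableOn_univ.1
    ((differentiableOn_dslope univ_mem).2 Complex.differentiable_sinh.differentiableOn)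
  exact (h.comp (differentiable_id.div_const _)).pow _

theorem g₀_zero : g₀ 0 = 1 := by
  simp [g₀, dslope_same]

theorem norm_cosh_le (z : ℂ) : ‖Complex.cosh z‖ ≤ Real.exp |z.re| := by
  rw [Complex.cosh, norm_div, Complex.norm_two, div_le_iff₀ (by norm_num : (0 : ℝ) < 2)]
  refine (norm_add_le _ _).trans ?_
  rw [Complex.norm_exp, Complex.norm_exp, neg_re]
  linarith [Real.exp_le_exp.2 (le_abs_self z.re), Real.exp_le_exp.2 (neg_le_abs z.re)]

theorem norm_sinh_le (z : ℂ) : ‖Complex.sinh z‖ ≤ Real.exp |z.re| := by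
  rw [Complex.sinh, norm_div, Complex.norm_two, div_le_iff₀ (by norm_num : (0 : ℝ) < 2)]
  refine (norm_sub_le _ _).trans ?_
  rw [Complex.norm_exp, Complex.norm_exp, neg_re]
  linarith [Real.exp_le_exp.2 (le_abs_self z.re), Real.exp_le_exp.2 (neg_le_abs z.re)]

theorem norm_sinh_le_mul (z : ℂ) : ‖Complex.sinh z‖ ≤ Real.exp |z.re| * ‖z‖ := by
  have h0 : (0 : ℂ) ∈ {c : ℂ | c.re ≤ |z.re|} ∩ {c : ℂ | -|z.re| ≤ c.re} := by
    simp only [mem_inter_iff, Set.mem_ofPred_eq, zero_re, abs_nonneg, true_and]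
    linarith [abs_nonneg z.re]
  have hz : z ∈ {c : ℂ | c.re ≤ |z.re|} ∩ {c : ℂ | -|z.re| ≤ c.re} :=
    ⟨le_abs_self z.re, neg_abs_le z.re⟩
  have h := ((convex_halfSpace_re_le |z.re|).inter
    (convex_halfSpace_re_ge (-|z.re|))).norm_image_sub_le_of_norm_hasDerivWithin_le
    (f := Complex.sinh) (f' := Complex.cosh) (C := Real.exp |z.re|)
    (fun x _ => (Complex.hasDerivAt_sinh x).hasDerivWithinAt)
    (fun x hx => (norm_cosh_le x).trans (Real.exp_le_exp.2 (abs_le.2 ⟨hx.2, hx.1⟩))) h0 hz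
  simpa using h

theorem norm_dslope_sinh_mul_le (z : ℂ) :
    ‖dslope Complex.sinh 0 z‖ * (1 + |z.im|) ≤ 2 * Real.exp |z.re| := by
  rcases eq_or_ne z 0 with rfl | hz
  · simp [dslope_same]
  have hn : 0 < ‖z‖ := norm_pos_iff.2 hz
  have hE : 0 < Real.exp |z.re| := Real.exp_pos _
  rw [dslope_of_ne _ hz, slope]
  simp only [Complex.sinh_zero, vsub_eq_sub, sub_zero, smul_eq_mul, norm_mul, norm_inv]
  rw [← div_eq_inv_mul, div_mul_eq_mul_div, div_le_iff₀ hn]
  have h1 := norm_sinh_le z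
  have h2 := norm_sinh_le_mul z
  have h3 := mul_le_mul_of_nonneg_left (abs_im_le_norm z) (norm_nonneg (Complex.sinh z))
  nlinarith [mul_le_mul_of_nonneg_right h1 hn.le]

theorem norm_g₀_le (w : ℂ) :
    ‖g₀ w‖ ≤ kernelConst * Real.exp (|w.re| / 10) * decay kernelDeg w.im := by
  obtain ⟨m, hm⟩ : ∃ m, m = kernelDeg := ⟨_, rfl⟩
  have hm0 : (0 : ℝ) < m := Nat.cast_pos.2 (hm ▸ kernelDeg_pos)
  obtain ⟨z, hz⟩ : ∃ z, z = w / ((10 * m : ℕ) : ℂ) := ⟨_, rfl⟩
  have hre : z.re = w.re / (10 * m) := by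
    rw [hz, div_natCast_re]
    push_cast
    rfl
  have him : z.im = w.im / (10 * m) := by
    rw [hz, div_natCast_im]
    push_cast
    rfl
  rw [decay, ← div_eq_mul_inv, le_div_iff₀ (by positivity), kernelConst, g₀, norm_pow, ← hm, ← hz,
    ← mul_pow, show Real.exp (|w.re| / 10) = Real.exp |z.re| ^ m by
      rw [← Real.exp_nat_mul, hre, abs_div, abs_of_pos (show (0 : ℝ) < 10 * m by positivity)]
      congr 1
      field_simp, ← mul_pow]
  refine pow_le_pow_left₀ (by positivity) ?_ m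
  refine le_trans (mul_le_mul_of_nonneg_left
    (show 1 + |w.im| ≤ 10 * m * (1 + |z.im|) by
      rw [him, abs_div, abs_of_pos (show (0 : ℝ) < 10 * m by positivity), mul_add, mul_one,
        mul_div_cancel₀ _ (show (10 * m : ℝ) ≠ 0 by positivity)]
      have h1 : (1 : ℝ) ≤ m := Nat.one_le_cast.2 (hm ▸ kernelDeg_pos)
      linarith) (norm_nonneg _)) ?_
  rw [mul_left_comm]
  refine (mul_le_mul_of_nonneg_left (norm_dslope_sinh_mul_le z) (by positivity)).trans (le_of_eq ?_)
  push_cast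
  ring

theorem decay_nonneg (m : ℕ) (v : ℝ) : 0 ≤ decay m v := by
  unfold decay
  positivity

theorem decay_le_one (m : ℕ) (v : ℝ) : decay m v ≤ 1 :=
  inv_le_one_of_one_le₀ (one_le_pow₀ (by linarith [abs_nonneg v]))

theorem pow_mul_decay {j m : ℕ} (h : j ≤ m) (v : ℝ) :
    (1 + |v|) ^ j * decay m v = decay (m - j) v := by
  have h0 : (1 + |v|) ^ j ≠ 0 := by positivity
  rw [decay, decay, ← Nat.sub_add_cancel h, pow_add, Nat.add_sub_cancel_right, mul_inv,
    mul_left_comm, mul_inv_cancel₀ h0, mul_one]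

theorem decay_le_of_le {j m : ℕ} (h : j ≤ m) (v : ℝ) : decay m v ≤ decay j v :=
  inv_anti₀ (by positivity) (pow_le_pow_right₀ (by linarith [abs_nonneg v]) h)

theorem continuous_decay (m : ℕ) : Continuous (decay m) := by
  unfold decay
  exact (by fun_prop : Continuous fun v : ℝ => (1 + |v|) ^ m).inv₀ fun v => by positivity

theorem integrable_decay {m : ℕ} (hm : 2 ≤ m) : Integrable (decay m) := by
  refine integrable_inv_one_add_sq.mono' (continuous_decay m).aestronglyMeasurable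
    (Eventually.of_forall fun v => ?_)
  rw [Real.norm_of_nonneg (decay_nonneg m v)]
  refine (decay_le_of_le hm v).trans (inv_anti₀ (by positivity) ?_)
  nlinarith [sq_abs v, abs_nonneg v]

/-- Bounded by the decay. -/
theorem integrable_of_decay {E : Type*} [NormedAddCommGroup E] {f : ℝ → E} {m : ℕ} (hm : 2 ≤ m)
    {C : ℝ} (hf : Continuous f) (h : ∀ v, ‖f v‖ ≤ C * decay m v) : Integrable f :=
  ((integrable_decay hm).const_mul C).mono' hf.aestronglyMeasurable (Eventually.of_forall h)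

/-- A rectangle in the limit. -/
theorem verticals_of_boxInt {F : ℂ → ℂ} {a b : ℝ} {c : ℂ}
    (ha : Integrable fun y : ℝ => F ((a : ℂ) + (y : ℂ) * I))
    (hb : Integrable fun y : ℝ => F ((b : ℂ) + (y : ℂ) * I))
    (hbox : ∀ᶠ R in atTop, boxInt F a b R = c) {e : ℝ → ℝ} (he : Tendsto e atTop (𝓝 0))
    (hh : ∀ᶠ R in atTop, ∀ u ∈ uIcc a b,
      ‖F ((u : ℂ) + ((-R : ℝ) : ℂ) * I)‖ ≤ e R ∧ ‖F ((u : ℂ) + (R : ℂ) * I)‖ ≤ e R) :
    I * ((∫ y : ℝ, F ((b : ℂ) + (y : ℂ) * I)) - ∫ y : ℝ, F ((a : ℂ) + (y : ℂ) * I)) = c := by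
  have hz : Tendsto (fun R : ℝ => (∫ u in a..b, F ((u : ℂ) + ((-R : ℝ) : ℂ) * I)) -
      ∫ u in a..b, F ((u : ℂ) + (R : ℂ) * I)) atTop (𝓝 0) := by
    refine squeeze_zero_norm' ?_ (by simpa using (he.const_mul (2 * |b - a|)))
    filter_upwards [hh] with R hR
    refine (norm_sub_le _ _).trans (le_trans (add_le_add
      (intervalIntegral.norm_integral_le_of_norm_le_const fun u hu =>
        (hR u (uIoc_subset_uIcc hu)).1)
      (intervalIntegral.norm_integral_le_of_norm_le_const fun u hu =>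
        (hR u (uIoc_subset_uIcc hu)).2)) (le_of_eq (by ring)))
  have hv : ∀ {f : ℝ → ℂ}, Integrable f →
      Tendsto (fun R : ℝ => ∫ y in (-R)..R, f y) atTop (𝓝 (∫ y, f y)) := fun hf =>
    intervalIntegral_tendsto_integral hf tendsto_neg_atTop_atBot tendsto_id
  have hlim := ((hz.add ((hv hb).const_mul I)).sub ((hv ha).const_mul I))
  rw [zero_add, ← mul_sub] at hlim
  refine tendsto_nhds_unique (hlim.congr' ?_) tendsto_const_nhds
  filter_upwards [hbox] with R hR
  exact hR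

/-- `e^(-b w) g₀ w / w` on `re w = u`. -/
def kern (u b v : ℝ) : ℂ :=
  cexp (-(b : ℂ) * ((u : ℂ) + (v : ℂ) * I)) * g₀ ((u : ℂ) + (v : ℂ) * I) / ((u : ℂ) + (v : ℂ) * I)

/-- The cutoff. -/
def cutoff (b : ℝ) : ℂ := (2 * π : ℂ)⁻¹ * ∫ v, kern 1 b v

theorem norm_kern_le {u : ℝ} (hu : u ≠ 0) (b v : ℝ) :
    ‖kern u b v‖ ≤ Real.exp (-b * u + |u| / 10) * kernelConst / |u| * decay kernelDeg v := by
  have hw : |u| ≤ ‖(u : ℂ) + (v : ℂ) * I‖ := by
    simpa using abs_re_le_norm ((u : ℂ) + (v : ℂ) * I)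
  have hg := norm_g₀_le ((u : ℂ) + (v : ℂ) * I)
  simp only [add_re, ofReal_re, mul_re, I_re, mul_zero, ofReal_im, I_im, mul_one, sub_self,
    add_zero, add_im, mul_im, zero_add] at hg
  rw [kern, norm_div, norm_mul, Complex.norm_exp]
  simp only [neg_mul, neg_re, mul_re, ofReal_re, add_re, I_re, mul_zero, ofReal_im, I_im, mul_one,
    sub_self, add_zero, zero_mul, sub_zero]
  refine (div_le_div₀ ?_ (mul_le_mul_of_nonneg_left hg (Real.exp_pos _).le) (abs_pos.2 hu) hw).trans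
    (le_of_eq ?_)
  · exact mul_nonneg (Real.exp_pos _).le (mul_nonneg (mul_nonneg
      (zero_le_one.trans one_le_kernelConst) (Real.exp_pos _).le) (decay_nonneg _ _))
  rw [Real.exp_add]
  ring

theorem line_ne_zero {u : ℝ} (hu : u ≠ 0) (v : ℝ) : (u : ℂ) + (v : ℂ) * I ≠ 0 := fun h =>
  hu (by simpa using congrArg Complex.re h)

theorem continuous_kern {u : ℝ} (hu : u ≠ 0) (b : ℝ) : Continuous (kern u b) :=
  ((by fun_prop : Continuous fun v : ℝ => cexp (-(b : ℂ) * ((u : ℂ) + (v : ℂ) * I))).mul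
    (differentiable_g₀.continuous.comp (by fun_prop))).div (by fun_prop) (line_ne_zero hu)

theorem two_le_kernelDeg : 2 ≤ kernelDeg := le_add_left (by norm_num)

theorem integrable_kern {u : ℝ} (hu : u ≠ 0) (b : ℝ) : Integrable (kern u b) :=
  integrable_of_decay two_le_kernelDeg (continuous_kern hu b) (norm_kern_le hu b)

theorem integral_kern_sub {a c : ℝ} (ha : a ≠ 0) (hc : c ≠ 0) (hac : a ≤ c) (b : ℝ) :
    (∫ v, kern c b v) - (∫ v, kern a b v) = if a < 0 ∧ 0 < c then (2 * π : ℂ) else 0 := by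
  obtain ⟨F, hF⟩ : ∃ F : ℂ → ℂ, F = fun w => cexp (-(b : ℂ) * w) * g₀ w / w := ⟨_, rfl⟩
  have hk : ∀ u v : ℝ, kern u b v = F ((u : ℂ) + (v : ℂ) * I) := fun u v => by rw [hF]; rfl
  have hφ : Differentiable ℂ fun w => cexp (-(b : ℂ) * w) * g₀ w :=
    (by fun_prop : Differentiable ℂ fun w : ℂ => cexp (-(b : ℂ) * w)).mul differentiable_g₀
  have hbox : ∀ R : ℝ, 0 < R →
      boxInt F a c R = I * if a < 0 ∧ 0 < c then (2 * π : ℂ) else 0 := fun R hR => by
    rw [hF]
    split_ifs with h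
    · have := boxInt_residue (φ := fun w => cexp (-(b : ℂ) * w) * g₀ w) isOpen_univ
        hφ.differentiableOn (fun s _ _ => mem_univ s) hR.le (ρ := 0) (by simpa using h.1)
        (by simpa using h.2) (by simpa using hR.ne)
      simp only [sub_zero, zero_im, abs_zero, hR, if_true, mul_zero, Complex.exp_zero, g₀_zero,
        mul_one] at this
      rw [this]
      ring
    · rw [mul_zero]
      refine boxInt_eq_zero hac hR.le fun s h1 _ => (hφ s).div differentiableAt_id fun h0 => h ?_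
      rw [h0, zero_re] at h1
      exact ⟨lt_of_le_of_ne h1.1 ha, lt_of_le_of_ne h1.2 hc.symm⟩
  obtain ⟨D, hD⟩ : ∃ D, D = Real.exp ((|b| + 1) * (|a| + |c|)) * kernelConst := ⟨_, rfl⟩
  have he : Tendsto (fun R : ℝ => D / R) atTop (𝓝 0) := tendsto_const_nhds.div_atTop tendsto_id
  have hh : ∀ᶠ R in atTop, ∀ u ∈ uIcc a c,
      ‖F ((u : ℂ) + ((-R : ℝ) : ℂ) * I)‖ ≤ D / R ∧ ‖F ((u : ℂ) + (R : ℂ) * I)‖ ≤ D / R := by
    filter_upwards [eventually_gt_atTop 0] with R hR u hu
    have hbd : ∀ v : ℝ, |v| = R → ‖F ((u : ℂ) + (v : ℂ) * I)‖ ≤ D / R := fun v hv => by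
      have hw : R ≤ ‖(u : ℂ) + (v : ℂ) * I‖ := by
        simpa [hv] using abs_im_le_norm ((u : ℂ) + (v : ℂ) * I)
      have hg := norm_g₀_le ((u : ℂ) + (v : ℂ) * I)
      simp only [add_re, ofReal_re, mul_re, I_re, mul_zero, ofReal_im, I_im, mul_one, sub_self,
        add_zero, add_im, mul_im, zero_add] at hg
      rw [hF, norm_div, norm_mul, Complex.norm_exp]
      simp only [neg_mul, neg_re, mul_re, ofReal_re, add_re, I_re, mul_zero, ofReal_im, I_im,
        mul_one, sub_self, add_zero, zero_mul, sub_zero]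
      refine div_le_div₀
        (hD ▸ mul_nonneg (Real.exp_pos _).le (zero_le_one.trans one_le_kernelConst))
        ((mul_le_mul_of_nonneg_left
          (hg.trans (mul_le_of_le_one_right (mul_nonneg
          (zero_le_one.trans one_le_kernelConst) (Real.exp_pos _).le) (decay_le_one _ _)))
          (Real.exp_pos _).le).trans ?_) hR hw
      rw [hD, mul_left_comm, mul_comm _ kernelConst, ← Real.exp_add]
      refine mul_le_mul_of_nonneg_left (Real.exp_le_exp.2 ?_)
        (zero_le_one.trans one_le_kernelConst)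
      rw [uIcc_of_le hac] at hu
      have hu1 : |u| ≤ |a| + |c| :=
        (abs_le_max_abs_abs hu.1 hu.2).trans (max_le_add_of_nonneg (abs_nonneg _) (abs_nonneg _))
      have h1 := neg_le_abs (b * u)
      rw [abs_mul] at h1
      nlinarith [mul_le_mul_of_nonneg_left hu1 (abs_nonneg b), abs_nonneg u]
    exact ⟨hbd _ (by rw [abs_neg, abs_of_pos hR]), hbd _ (abs_of_pos hR)⟩
  have h := verticals_of_boxInt (F := F) (by simpa only [← hk] using integrable_kern ha b)
    (by simpa only [← hk] using integrable_kern hc b)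
    ((eventually_gt_atTop 0).mono hbox) he hh
  simp only [← hk] at h
  exact mul_left_cancel₀ I_ne_zero h

/-- The cutoff may be taken on any line to the right. -/
theorem cutoff_eq {u : ℝ} (hu : 0 < u) (b : ℝ) :
    cutoff b = (2 * π : ℂ)⁻¹ * ∫ v, kern u b v := by
  rw [cutoff]
  congr 1
  rcases le_total u 1 with h | h
  · have := integral_kern_sub hu.ne' one_ne_zero h b
    rwa [if_neg (fun hc => absurd hc.1 (by linarith)), sub_eq_zero] at this
  · have := integral_kern_sub one_ne_zero hu.ne' h b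
    rw [if_neg (fun hc => absurd hc.1 (by norm_num)), sub_eq_zero] at this
    exact this.symm

theorem norm_integral_kern_le {u : ℝ} (hu : u ≠ 0) (b : ℝ) :
    ‖∫ v, kern u b v‖ ≤
      Real.exp (-b * u + |u| / 10) * kernelConst / |u| * ∫ v, decay kernelDeg v := by
  rw [← integral_const_mul]
  exact norm_integral_le_of_norm_le ((integrable_decay two_le_kernelDeg).const_mul _)
    (Eventually.of_forall (norm_kern_le hu b))

theorem norm_integral_kern_le_div {u b : ℝ} (hu : u ≠ 0) (h : -b * u + |u| / 10 ≤ 0) :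
    ‖∫ v, kern u b v‖ ≤ kernelConst * (∫ v, decay kernelDeg v) / |u| := by
  refine (norm_integral_kern_le hu b).trans ?_
  rw [div_mul_eq_mul_div, mul_assoc]
  refine div_le_div_of_nonneg_right (mul_le_of_le_one_left (mul_nonneg
    (zero_le_one.trans one_le_kernelConst) (integral_nonneg fun v => decay_nonneg _ v))
    (Real.exp_le_one_iff.2 h)) (abs_nonneg u)

theorem eq_zero_of_norm_le_div {x : ℂ} {C : ℝ} (hC : ∀ u : ℝ, 1 ≤ u → ‖x‖ ≤ C / u) : x = 0 := by
  by_contra h
  have hp : 0 < ‖x‖ := norm_pos_iff.2 h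
  have hb := hC (max 1 (C / ‖x‖ + 1)) (le_max_left _ _)
  rw [le_div_iff₀ (lt_of_lt_of_le one_pos (le_max_left _ _))] at hb
  have h2 := mul_le_mul_of_nonneg_left (le_max_right 1 (C / ‖x‖ + 1)) hp.le
  rw [mul_add, mul_div_cancel₀ _ hp.ne', mul_one] at h2
  linarith

theorem cutoff_eq_zero {b : ℝ} (hb : 1 / 10 ≤ b) : cutoff b = 0 := by
  suffices h : (∫ v, kern 1 b v) = 0 by rw [cutoff, h, mul_zero]
  refine eq_zero_of_norm_le_div (C := kernelConst * ∫ v, decay kernelDeg v) fun u hu => ?_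
  have hu0 : (0 : ℝ) < u := by linarith
  have e := integral_kern_sub one_ne_zero hu0.ne' hu b
  rw [if_neg (fun hc => absurd hc.1 (by norm_num)), sub_eq_zero] at e
  rw [← e]
  refine (norm_integral_kern_le_div hu0.ne' ?_).trans (le_of_eq (by rw [abs_of_pos hu0]))
  rw [abs_of_pos hu0]
  nlinarith

theorem cutoff_eq_one {b : ℝ} (hb : b ≤ -(1 / 10)) : cutoff b = 1 := by
  suffices h : (∫ v, kern 1 b v) - (2 * π : ℂ) = 0 by
    rw [cutoff, sub_eq_zero.1 h, inv_mul_cancel₀
      (mul_ne_zero two_ne_zero (ofReal_ne_zero.2 Real.pi_ne_zero))]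
  refine eq_zero_of_norm_le_div (C := kernelConst * ∫ v, decay kernelDeg v) fun u hu => ?_
  have hu0 : -u < (0 : ℝ) := by linarith
  have e := integral_kern_sub hu0.ne one_ne_zero (by linarith) b
  rw [if_pos ⟨hu0, one_pos⟩] at e
  rw [← e, sub_sub_cancel]
  have hau : |(-u)| = u := by rw [abs_neg, abs_of_pos (by linarith)]
  refine (norm_integral_kern_le_div hu0.ne ?_).trans (le_of_eq (by rw [hau]))
  rw [hau]
  nlinarith

theorem exists_norm_cutoff_le : ∃ B, 1 ≤ B ∧ ∀ b, ‖cutoff b‖ ≤ B := by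
  obtain ⟨J, hJ⟩ : ∃ J, J = ∫ v, decay kernelDeg v := ⟨_, rfl⟩
  have hJ0 : 0 ≤ J := hJ ▸ integral_nonneg fun v => decay_nonneg _ v
  have hK := zero_le_one.trans one_le_kernelConst
  refine ⟨1 + (2 * π)⁻¹ * (Real.exp (1 / 5) * kernelConst * J), le_add_of_nonneg_right
    (by positivity), fun b => ?_⟩
  rcases le_or_gt (1 / 10) b with h | h
  · rw [cutoff_eq_zero h, norm_zero]
    positivity
  rcases le_or_gt b (-(1 / 10)) with h' | h'
  · rw [cutoff_eq_one h', norm_one]
    exact le_add_of_nonneg_right (by positivity)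
  refine le_trans ?_ (le_add_of_nonneg_left zero_le_one)
  rw [cutoff, norm_mul, norm_inv, norm_mul, Complex.norm_two, norm_real,
    Real.norm_of_nonneg Real.pi_pos.le]
  refine mul_le_mul_of_nonneg_left ((norm_integral_kern_le one_ne_zero b).trans ?_) (by positivity)
  rw [abs_one, div_one, ← hJ]
  refine mul_le_mul_of_nonneg_right (mul_le_mul_of_nonneg_right (Real.exp_le_exp.2 ?_) hK) hJ0
  linarith

end FA.SelbergCLT
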