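import Fermat.Agent.SelbergCLT.Growth
import Fermat.Agent.ExplicitFormula.Contour
import Mathlib.Analysis.SpecialFunctions.JapaneseBracket
import Mathlib.MeasureTheory.Measure.Haar.NormedSpace

/-!
# A smooth approximate functional equation

For `1/2 < σ ≤ 3/4`, `L = log T`, `T ≤ t ≤ 2T`, `ζ (σ + it)` is a smooth Dirichlet polynomial of
length `T ^ (3/5)`, up to `T ^ (-3/20)` and `e ^ (-2W/5)` times a mean of a polynomial of length
`T ^ (19/20)` on the critical line, `W = (σ - 1/2) L`.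
-/

set_option autoImplicit false

noncomputable section

namespace FA.SelbergCLT

open Complex Filter MeasureTheory Set
open FA.ExplicitFormula (boxInt boxEdges boxInt_congr boxInt_eq_zero boxInt_residue boxInt_sub
  boxInt_const_mul interior_not_edge)
open scoped Topology Real

/-- The cutoff at `n = e^(a L)`. -/
def smooth (a L : ℝ) (n : ℕ) : ℂ := cutoff (Real.log n / L - a)

/-- `∑ f n n^(-s)`. -/
def mainPoly (L : ℝ) (s : ℂ) : ℂ :=
  ∑ n ∈ Finset.Icc 1 ⌊Real.exp (3 / 5 * L)⌋₊, smooth (1 / 2) L n * (n : ℂ) ^ (-s)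

/-- `∑ φ n n^(z - 1)`. -/
def dualPoly (L : ℝ) (z : ℂ) : ℂ :=
  ∑ n ∈ Finset.Icc 1 ⌊Real.exp (19 / 20 * L)⌋₊, smooth (17 / 20) L n * (n : ℂ) ^ (z - 1)

theorem smooth_eq_zero {a L : ℝ} (hL : 0 < L) {n : ℕ} (h : Real.exp ((a + 1 / 10) * L) < n) :
    smooth a L n = 0 := by
  refine cutoff_eq_zero ?_
  have h1 := Real.log_le_log (Real.exp_pos _) h.le
  rw [Real.log_exp, ← le_div_iff₀ hL] at h1
  linarith

theorem smooth_eq_one {a L : ℝ} (hL : 0 < L) {n : ℕ} (hn : 0 < n)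
    (h : (n : ℝ) ≤ Real.exp ((a - 1 / 10) * L)) : smooth a L n = 1 := by
  refine cutoff_eq_one ?_
  have h1 := Real.log_le_log (Nat.cast_pos.2 hn) h
  rw [Real.log_exp, ← div_le_iff₀ hL] at h1
  linarith

/-- The weight `e^(L w / 2) g₀ (L w) / w`. -/
def weight (L : ℝ) (w : ℂ) : ℂ := cexp ((L : ℂ) / 2 * w) * g₀ ((L : ℂ) * w) / w

theorem differentiableAt_weight (L : ℝ) {w : ℂ} (hw : w ≠ 0) :
    DifferentiableAt ℂ (weight L) w :=
  ((by fun_prop : DifferentiableAt ℂ (fun w : ℂ => cexp ((L : ℂ) / 2 * w)) w).mul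
    ((differentiable_g₀ _).comp w (differentiableAt_id.const_mul (L : ℂ)))).div
    differentiableAt_id hw

theorem norm_weight_le {L : ℝ} (hL : 0 ≤ L) (w : ℂ) :
    ‖weight L w‖ ≤
      kernelConst * Real.exp (L * w.re / 2 + L * |w.re| / 10) * decay kernelDeg (L * w.im) /
        ‖w‖ := by
  rw [weight, norm_div, norm_mul, Complex.norm_exp]
  refine div_le_div_of_nonneg_right ?_ (norm_nonneg _)
  have hg := norm_g₀_le ((L : ℂ) * w)
  rw [re_ofReal_mul, im_ofReal_mul, abs_mul, abs_of_nonneg hL] at hg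
  rw [show ((L : ℂ) / 2 * w).re = L * w.re / 2 by simp; ring, Real.exp_add]
  refine (mul_le_mul_of_nonneg_left hg (Real.exp_pos _).le).trans (le_of_eq ?_)
  ring

theorem decay_mul_le {L : ℝ} (hL : 1 ≤ L) (m : ℕ) (v : ℝ) : decay m (L * v) ≤ decay m v := by
  refine inv_anti₀ (by positivity) (pow_le_pow_left₀ (by positivity) ?_ m)
  rw [abs_mul, abs_of_nonneg (by linarith : (0 : ℝ) ≤ L)]
  nlinarith [abs_nonneg v]

theorem natCast_cpow_eq_exp {n : ℕ} (hn : 0 < n) (z : ℂ) :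
    (n : ℂ) ^ z = cexp ((Real.log n : ℂ) * z) := by
  rw [cpow_def_of_ne_zero (Nat.cast_ne_zero.2 hn.ne'), natCast_log]

theorem integral_right_term {L : ℝ} (hL : 0 < L) {n : ℕ} (hn : 0 < n) (s : ℂ) :
    ∫ v : ℝ, (n : ℂ) ^ (-(s + (1 + (v : ℂ) * I))) * weight L (1 + (v : ℂ) * I) =
      (2 * π : ℂ) * (smooth (1 / 2) L n * (n : ℂ) ^ (-s)) := by
  obtain ⟨b, hb⟩ : ∃ b, b = Real.log n / L - 1 / 2 := ⟨_, rfl⟩
  have hbL : (b : ℂ) * L = Real.log n - (L : ℂ) / 2 := by
    rw [hb, ← ofReal_mul, sub_mul, div_mul_cancel₀ _ hL.ne']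
    push_cast
    ring
  have hLne : (L : ℂ) ≠ 0 := ofReal_ne_zero.2 hL.ne'
  have e : ∀ v : ℝ, (n : ℂ) ^ (-(s + (1 + (v : ℂ) * I))) * weight L (1 + (v : ℂ) * I) =
      ((n : ℂ) ^ (-s) * L) * kern L b (L * v) := fun v => by
    have hw : (1 : ℂ) + (v : ℂ) * I ≠ 0 := by
      simpa using line_ne_zero one_ne_zero v
    rw [kern, weight, natCast_cpow_eq_exp hn, natCast_cpow_eq_exp hn,
      show (L : ℂ) + ((L * v : ℝ) : ℂ) * I = L * (1 + (v : ℂ) * I) by push_cast; ring,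
      show (Real.log n : ℂ) * -(s + (1 + (v : ℂ) * I)) = Real.log n * (-s) +
        (-(b : ℂ) * (L * (1 + (v : ℂ) * I)) - (L : ℂ) / 2 * (1 + (v : ℂ) * I)) by
          linear_combination (1 + (v : ℂ) * I) * hbL,
      Complex.exp_add, Complex.exp_sub]
    field_simp
  simp only [e]
  rw [integral_const_mul, Measure.integral_comp_mul_left (fun v : ℝ => kern L b v) L,
    smooth, ← hb, cutoff_eq hL, abs_of_pos (inv_pos.2 hL), Complex.real_smul, ofReal_inv]
  field_simp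

/-- The sum `∑ (n + 1)^(-σ)`. -/
def powSum (σ : ℝ) : ℝ := ∑' n : ℕ, ((n : ℝ) + 1) ^ (-σ)

theorem summable_powSum {σ : ℝ} (hσ : 1 < σ) : Summable fun n : ℕ => ((n : ℝ) + 1) ^ (-σ) := by
  have h := (summable_nat_add_iff 1).2 (Real.summable_nat_rpow.2 (show -σ < -1 by linarith))
  simpa using h

theorem norm_add_one_cpow (n : ℕ) (z : ℂ) : ‖(n + 1 : ℂ) ^ z‖ = ((n : ℝ) + 1) ^ z.re := by
  rw [show ((n : ℂ) + 1) = (((n : ℝ) + 1 : ℝ) : ℂ) by push_cast; rfl,
    norm_cpow_eq_rpow_re_of_pos (by positivity)]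

theorem integral_right {L : ℝ} (hL : 1 ≤ L) {s : ℂ} (hs : 1 / 2 < s.re) :
    ∫ v : ℝ, riemannZeta (s + (1 + (v : ℂ) * I)) * weight L (1 + (v : ℂ) * I) =
      (2 * π : ℂ) * mainPoly L s := by
  have hL0 : 0 < L := by linarith
  obtain ⟨F, hF⟩ : ∃ F : ℕ → ℝ → ℂ, F = fun (n : ℕ) (v : ℝ) => ((n + 1 : ℕ) : ℂ) ^
      (-(s + (1 + (v : ℂ) * I))) * weight L (1 + (v : ℂ) * I) := ⟨_, rfl⟩
  obtain ⟨D, hD⟩ : ∃ D, D = kernelConst * Real.exp (L / 2 + L / 10) := ⟨_, rfl⟩
  have hbound : ∀ (n : ℕ) (v : ℝ),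
      ‖F n v‖ ≤ ((n : ℝ) + 1) ^ (-(s.re + 1)) * D * decay kernelDeg v := fun n v => by
    rw [hF, norm_mul, Nat.cast_add, Nat.cast_one, norm_add_one_cpow, mul_assoc]
    refine mul_le_mul (le_of_eq (by simp)) ?_ (norm_nonneg _) (Real.rpow_nonneg (by positivity) _)
    refine (norm_weight_le hL0.le _).trans ?_
    simp only [add_re, one_re, mul_re, ofReal_re, I_re, mul_zero, ofReal_im, I_im, mul_one,
      sub_self, add_zero, abs_one, add_im, one_im, mul_im, zero_add]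
    refine (div_le_self (mul_nonneg (mul_nonneg (zero_le_one.trans one_le_kernelConst)
      (Real.exp_pos _).le) (decay_nonneg _ _)) ?_).trans ?_
    · simpa using abs_re_le_norm (1 + (v : ℂ) * I)
    · rw [hD]
      exact mul_le_mul_of_nonneg_left (decay_mul_le hL _ v)
        (mul_nonneg (zero_le_one.trans one_le_kernelConst) (Real.exp_pos _).le)
  have hcont : ∀ n, Continuous (F n) := fun n => by
    rw [hF]
    refine Continuous.mul (Continuous.const_cpow (by fun_prop) (Or.inl (Nat.cast_ne_zero.2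
      (Nat.succ_ne_zero n)))) (continuous_iff_continuousAt.2 fun v => ?_)
    exact (differentiableAt_weight L (by simpa using line_ne_zero one_ne_zero v)).continuousAt.comp'
      (by fun_prop)
  have hint : ∀ n, Integrable (F n) := fun n =>
    integrable_of_decay two_le_kernelDeg (hcont n) (hbound n)
  have hsum : Summable fun n => ∫ v, ‖F n v‖ := by
    refine Summable.of_nonneg_of_le (fun n => integral_nonneg fun v => norm_nonneg _)
      (fun n => integral_mono (hint n).norm ((integrable_decay two_le_kernelDeg).const_mul _)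
        (hbound n)) ?_
    simp only [integral_const_mul]
    exact ((summable_powSum (by linarith)).mul_right _).mul_right _
  have e : ∀ v : ℝ, riemannZeta (s + (1 + (v : ℂ) * I)) * weight L (1 + (v : ℂ) * I) =
      ∑' n, F n v := fun v => by
    rw [zeta_eq_tsum_one_div_nat_add_one_cpow (by simp; linarith), ← tsum_mul_right, hF]
    refine tsum_congr fun n => ?_
    simp only [one_div, ← cpow_neg, Nat.cast_add, Nat.cast_one]
  simp only [e]
  rw [← integral_tsum_of_summable_integral_norm hint hsum, hF]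
  simp only [fun n : ℕ => integral_right_term hL0 (Nat.succ_pos n) s]
  rw [tsum_mul_left, mainPoly]
  congr 1
  rw [tsum_eq_sum (s := Finset.range ⌊Real.exp (3 / 5 * L)⌋₊) fun n hn => ?_]
  · refine Finset.sum_nbij' (fun n => n + 1) (fun n => n - 1) ?_ ?_ ?_ ?_ ?_
    · intro n hn
      simp only [Finset.mem_range, Finset.mem_Icc] at hn ⊢
      omega
    · intro n hn
      simp only [Finset.mem_range, Finset.mem_Icc] at hn ⊢
      omega
    · intro n _
      simp
    · intro n hn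
      simp only [Finset.mem_Icc] at hn
      omega
    · intro n _
      rfl
  · rw [Finset.mem_range, not_lt] at hn
    have h1 := Nat.lt_of_floor_lt (Nat.lt_succ_of_le hn)
    rw [smooth_eq_zero hL0 (show Real.exp ((1 / 2 + 1 / 10) * L) < ((n.succ : ℕ) : ℝ) by
      norm_num at h1 ⊢
      exact h1), zero_mul]

/-- The integrand. -/
def zetaWeight (L : ℝ) (s w : ℂ) : ℂ := riemannZeta (s + w) * weight L w

theorem continuousAt_zetaWeight (L : ℝ) {s w : ℂ} (hw : w ≠ 0) (h1 : s + w ≠ 1) :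
    ContinuousAt (zetaWeight L s) w :=
  (((differentiableAt_riemannZeta h1).comp w (differentiableAt_id.const_add s)).mul
    (differentiableAt_weight L hw)).continuousAt

theorem norm_zetaWeight_le {L : ℝ} (hL : 1 ≤ L) {s w : ℂ} (hz : (s + w).re ∈ Icc (-4) 5)
    (hu : |w.re| ≤ 5) (hw : 1 ≤ ‖w‖) (h1 : 1 / 2 ≤ ‖s + w - 1‖) :
    ‖zetaWeight L s w‖ ≤ 2 * Real.exp growDeg * (|s.im| + 3) ^ growDeg *
      (kernelConst * Real.exp (4 * L)) * decay (kernelDeg - growDeg) w.im := by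
  have hne : s + w ≠ 1 := fun h => by
    rw [h, sub_self, norm_zero] at h1
    norm_num at h1
  rw [zetaWeight, norm_mul, riemannZeta_eq_of_ne_one hne, norm_div]
  have hK := zero_le_one.trans one_le_kernelConst
  have hpow : (|(s + w).im| + 3) ^ growDeg ≤
      (|s.im| + 3) ^ growDeg * (1 + |w.im|) ^ growDeg := by
    rw [← mul_pow]
    refine pow_le_pow_left₀ (by positivity) ?_ _
    rw [add_im]
    nlinarith [abs_add_le s.im w.im, abs_nonneg s.im, abs_nonneg w.im]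
  have hz1 : ‖riemannZeta₁ (s + w)‖ / ‖s + w - 1‖ ≤
      2 * Real.exp growDeg * (|s.im| + 3) ^ growDeg * (1 + |w.im|) ^ growDeg := by
    rw [div_le_iff₀ (lt_of_lt_of_le (by norm_num) h1)]
    refine (norm_riemannZeta₁_le hz).trans ((mul_le_mul_of_nonneg_left hpow
      (Real.exp_pos _).le).trans (le_trans (le_of_eq ?_) (mul_le_mul_of_nonneg_left h1
        (by positivity))))
    ring
  have hwt : ‖weight L w‖ ≤ kernelConst * Real.exp (4 * L) * decay kernelDeg w.im := by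
    refine (norm_weight_le (by linarith) w).trans ((div_le_self ?_ hw).trans ?_)
    · exact mul_nonneg (mul_nonneg hK (Real.exp_pos _).le) (decay_nonneg _ _)
    refine mul_le_mul (mul_le_mul_of_nonneg_left (Real.exp_le_exp.2 ?_) hK) (decay_mul_le hL _ _)
      (decay_nonneg _ _) (mul_nonneg hK (Real.exp_pos _).le)
    nlinarith [le_abs_self w.re, abs_nonneg w.re]
  refine (mul_le_mul hz1 hwt (norm_nonneg _) (by positivity)).trans (le_of_eq ?_)
  rw [← pow_mul_decay (le_trans (Nat.le_add_right _ 100) growDeg_add_le) w.im]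
  ring

theorem four_le_kernelDeg_sub : 4 + 2 ≤ kernelDeg - growDeg := by
  have := growDeg_add_le
  omega

theorem tendsto_decay {m : ℕ} (hm : 1 ≤ m) : Tendsto (decay m) atTop (𝓝 0) := by
  refine squeeze_zero' (Eventually.of_forall (decay_nonneg m)) ?_ tendsto_inv_atTop_zero
  filter_upwards [eventually_gt_atTop 0] with R hR
  refine inv_anti₀ hR (le_trans ?_ (le_self_pow₀ (by linarith [abs_nonneg R]) (by omega)))
  linarith [le_abs_self R]

theorem decay_neg (m : ℕ) (v : ℝ) : decay m (-v) = decay m v := by rw [decay, decay, abs_neg]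

theorem continuous_line {F : ℂ → ℂ} {a : ℝ}
    (h : ∀ v : ℝ, ContinuousAt F ((a : ℂ) + (v : ℂ) * I)) :
    Continuous fun v : ℝ => F ((a : ℂ) + (v : ℂ) * I) :=
  continuous_iff_continuousAt.2 fun v =>
    (h v).comp' (f := fun y : ℝ => (a : ℂ) + (y : ℂ) * I) (by fun_prop)

/-- The residue at `w = 1 - s`. -/
def poleTerm (L : ℝ) (s : ℂ) : ℂ := weight L (1 - s)

/-- **The contour.** -/
theorem zeta_contour {L σ t : ℝ} (hL : 1 ≤ L) (hσ : 1 / 2 < σ) (hσ' : σ ≤ 3 / 4) (ht : t ≠ 0) :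
    Integrable (fun v : ℝ => zetaWeight L ((σ : ℂ) + t * I)
        (((-7 / 2 - σ : ℝ) : ℂ) + (v : ℂ) * I)) ∧
    riemannZeta ((σ : ℂ) + t * I) = mainPoly L ((σ : ℂ) + t * I) -
      (2 * π : ℂ)⁻¹ * (∫ v : ℝ, zetaWeight L ((σ : ℂ) + t * I)
        (((-7 / 2 - σ : ℝ) : ℂ) + (v : ℂ) * I)) - poleTerm L ((σ : ℂ) + t * I) := by
  obtain ⟨s, hs⟩ : ∃ s : ℂ, s = (σ : ℂ) + t * I := ⟨_, rfl⟩
  have hsre : s.re = σ := by simp [hs]
  have hsim : s.im = t := by simp [hs]
  rw [← hs]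
  obtain ⟨α, hα⟩ : ∃ α : ℝ, α = -7 / 2 - σ := ⟨_, rfl⟩
  rw [← hα]
  obtain ⟨C, hC⟩ : ∃ C, C = 2 * Real.exp growDeg * (|t| + 3) ^ growDeg *
      (kernelConst * Real.exp (4 * L)) := ⟨_, rfl⟩
  have hm2 : 2 ≤ kernelDeg - growDeg := le_trans (by norm_num) four_le_kernelDeg_sub
  have hbd : ∀ u v : ℝ, u ∈ Icc α 1 → 1 ≤ ‖(u : ℂ) + (v : ℂ) * I‖ →
      1 / 2 ≤ ‖s + ((u : ℂ) + (v : ℂ) * I) - 1‖ →
      ‖zetaWeight L s ((u : ℂ) + (v : ℂ) * I)‖ ≤ C * decay (kernelDeg - growDeg) v := by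
    intro u v hu hw h1
    have h := norm_zetaWeight_le hL (s := s) (w := (u : ℂ) + (v : ℂ) * I)
      (by simp [hsre]; constructor <;> linarith [hu.1, hu.2])
      (by simp; rw [abs_le]; constructor <;> linarith [hu.1, hu.2]) hw h1
    simpa [hC, hsim] using h
  have hedge : ∀ u : ℝ, (u = α ∨ u = 1) → ∀ v : ℝ, 1 ≤ ‖(u : ℂ) + (v : ℂ) * I‖ ∧
      1 / 2 ≤ ‖s + ((u : ℂ) + (v : ℂ) * I) - 1‖ := fun u hu v => by
    have h1 := abs_re_le_norm ((u : ℂ) + (v : ℂ) * I)
    have h2 := abs_re_le_norm (s + ((u : ℂ) + (v : ℂ) * I) - 1)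
    simp only [sub_re, add_re, ofReal_re, mul_re, I_re, mul_zero, ofReal_im, I_im, mul_one,
      sub_self, add_zero, one_re, hsre] at h1 h2
    rcases hu with h | h
    · rw [h] at h1 h2 ⊢
      rw [abs_of_nonpos (by linarith : α ≤ 0)] at h1
      rw [abs_of_nonpos (by linarith : σ + α - 1 ≤ 0)] at h2
      constructor <;> linarith
    · rw [h] at h1 h2 ⊢
      rw [abs_one] at h1
      rw [abs_of_nonneg (by linarith : 0 ≤ σ + 1 - 1)] at h2
      constructor <;> linarith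
  have hint : ∀ u : ℝ, u ∈ Icc α 1 → (u = α ∨ u = 1) →
      Integrable fun v : ℝ => zetaWeight L s ((u : ℂ) + (v : ℂ) * I) := fun u hu hu' => by
    refine integrable_of_decay hm2 (continuous_line fun v => ?_)
      fun v => hbd u v hu (hedge u hu' v).1 (hedge u hu' v).2
    refine continuousAt_zetaWeight L (fun h => ?_) fun h => ?_
    · have := (hedge u hu' v).1
      rw [h, norm_zero] at this
      norm_num at this
    · have := (hedge u hu' v).2
      rw [h, sub_self, norm_zero] at this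
      norm_num at this
  refine ⟨hint α ⟨le_rfl, by linarith⟩ (Or.inl rfl), ?_⟩
  obtain ⟨ρ, hρ⟩ : ∃ ρ : ℂ, ρ = 1 - s := ⟨_, rfl⟩
  have hρim : ρ.im = -t := by simp [hρ, hsim]
  have hρre : ρ.re = 1 - σ := by simp [hρ, hsre]
  have hρ0 : ρ ≠ 0 := fun h => ht (by simpa [h] using hρim.symm)
  obtain ⟨ψ, hψ⟩ : ∃ ψ : ℂ → ℂ, ψ = fun w =>
      riemannZeta₁ (s + w) * (cexp ((L : ℂ) / 2 * w) * g₀ ((L : ℂ) * w)) := ⟨_, rfl⟩
  have hψd : Differentiable ℂ ψ := by
    rw [hψ]
    exact (differentiable_riemannZeta₁.comp (differentiable_id.const_add s)).mul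
      ((by fun_prop : Differentiable ℂ fun w : ℂ => cexp ((L : ℂ) / 2 * w)).mul
        (differentiable_g₀.comp (differentiable_id.const_mul (L : ℂ))))
  obtain ⟨c, hc⟩ : ∃ c : ℂ, c = ρ⁻¹ * (2 * π * I * ψ ρ - 2 * π * I * ψ 0) := ⟨_, rfl⟩
  have hbox : ∀ R : ℝ, |t| < R → boxInt (zetaWeight L s) α 1 R = c := fun R hR => by
    have hR0 : 0 < R := lt_of_le_of_lt (abs_nonneg t) hR
    have hρR : |ρ.im| ≠ R := by rw [hρim, abs_neg]; exact hR.ne
    have h0R : |(0 : ℂ).im| ≠ R := by simpa using hR0.ne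
    have hpc : ∀ x : ℂ, α < x.re → x.re < 1 → |x.im| ≠ R → ∀ w ∈ boxEdges α 1 R,
        ContinuousAt (fun w => ψ w / (w - x)) w := fun x hx1 hx2 hx3 w hw =>
      ((hψd w).continuousAt).div (continuousAt_id.sub continuousAt_const)
        (sub_ne_zero.2 (interior_not_edge hx1 hx2 hx3 hR0.le hw))
    rw [boxInt_congr (G := fun w => ρ⁻¹ * (ψ w / (w - ρ) - ψ w / (w - 0))) fun w hw => ?_,
      boxInt_const_mul, boxInt_sub (hpc ρ (by linarith) (by linarith) hρR)
        (hpc 0 (by simp; linarith) (by simp) h0R),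
      boxInt_residue isOpen_univ hψd.differentiableOn (fun x _ _ => mem_univ x) hR0.le
        (by linarith) (by linarith) hρR,
      boxInt_residue isOpen_univ hψd.differentiableOn (fun x _ _ => mem_univ x) hR0.le
        (by simp; linarith) (by simp) h0R,
      if_pos (by rw [hρim, abs_neg]; exact hR), if_pos (by simpa using hR0), hc]
    have h1 := sub_ne_zero.2 (interior_not_edge (a := α) (b := 1) (T := R) (ρ := ρ)
      (by linarith) (by linarith) hρR hR0.le hw)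
    have h2 : w ≠ 0 := interior_not_edge (a := α) (b := 1) (T := R) (ρ := 0)
      (by simp; linarith) (by simp) h0R hR0.le hw
    have h3 : s + w ≠ 1 := fun h => h1 (by rw [hρ]; linear_combination h)
    rw [zetaWeight, riemannZeta_eq_of_ne_one h3, weight, hψ,
      show s + w - 1 = w - ρ by rw [hρ]; ring]
    simp only [sub_zero]
    field_simp
    ring
  have hh : ∀ᶠ R in atTop, ∀ u ∈ uIcc α 1,
      ‖zetaWeight L s ((u : ℂ) + ((-R : ℝ) : ℂ) * I)‖ ≤ C * decay (kernelDeg - growDeg) R ∧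
      ‖zetaWeight L s ((u : ℂ) + (R : ℂ) * I)‖ ≤ C * decay (kernelDeg - growDeg) R := by
    filter_upwards [eventually_ge_atTop (|t| + 1)] with R hR u hu
    rw [uIcc_of_le (by linarith)] at hu
    have hv : ∀ v : ℝ, |v| = R →
        ‖zetaWeight L s ((u : ℂ) + (v : ℂ) * I)‖ ≤ C * decay (kernelDeg - growDeg) v :=
      fun v hv => by
      refine hbd u v hu (le_trans (show (1 : ℝ) ≤ |v| by linarith [abs_nonneg t])
        (by simpa using abs_im_le_norm ((u : ℂ) + (v : ℂ) * I))) (le_trans ?_ (abs_im_le_norm _))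
      simp only [sub_im, add_im, ofReal_im, mul_im, ofReal_re, I_im, mul_one, I_re, mul_zero,
        add_zero, zero_add, one_im, sub_zero, hsim]
      have := abs_sub_abs_le_abs_sub v (-t)
      rw [abs_neg, sub_neg_eq_add, add_comm v t] at this
      linarith
    have hR0 : (0 : ℝ) ≤ R := by linarith [abs_nonneg t]
    exact ⟨(hv (-R) (by rw [abs_neg, abs_of_nonneg hR0])).trans_eq (by rw [decay_neg]),
      hv R (abs_of_nonneg hR0)⟩
  have hvert := verticals_of_boxInt (F := zetaWeight L s)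
    (hint α ⟨le_rfl, by linarith⟩ (Or.inl rfl)) (hint 1 ⟨by linarith, le_rfl⟩ (Or.inr rfl))
    ((eventually_gt_atTop |t|).mono hbox)
    (by simpa using ((tendsto_decay (le_trans one_le_two hm2)).const_mul C)) hh
  have e1 : ∫ v : ℝ, zetaWeight L s (((1 : ℝ) : ℂ) + (v : ℂ) * I) =
      (2 * π : ℂ) * mainPoly L s := by
    rw [ofReal_one]
    exact integral_right hL (hsre ▸ hσ)
  rw [e1, hc] at hvert
  have hψρ : ψ ρ = ρ * poleTerm L s := by
    rw [hψ, poleTerm, weight, ← hρ]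
    simp only
    rw [show s + ρ = 1 by rw [hρ]; ring, riemannZeta₁_one]
    field_simp
  have hψ0 : ψ 0 = -ρ * riemannZeta s := by
    have hs1 : s ≠ 1 := fun h => hρ0 (by rw [hρ, h, sub_self])
    rw [hψ]
    simp only [add_zero, mul_zero, Complex.exp_zero, g₀_zero, mul_one]
    rw [riemannZeta_eq_of_ne_one hs1, show -ρ = s - 1 by rw [hρ]; ring,
      mul_div_cancel₀ _ (sub_ne_zero.2 hs1)]
  rw [hψρ, hψ0] at hvert
  have h2π : (2 * π : ℂ) ≠ 0 := mul_ne_zero two_ne_zero (ofReal_ne_zero.2 Real.pi_ne_zero)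
  have hI := I_ne_zero
  field_simp at hvert ⊢
  linear_combination -hvert

theorem norm_poleTerm_le {L σ t : ℝ} (hL : 0 ≤ L) (hσ : 1 / 2 < σ) (hσ' : σ ≤ 3 / 4)
    (ht : Real.exp L ≤ t) :
    ‖poleTerm L ((σ : ℂ) + t * I)‖ ≤ kernelConst * Real.exp (-(3 / 20) * L) := by
  have ht0 : 0 < t := lt_of_lt_of_le (Real.exp_pos _) ht
  refine (norm_weight_le hL _).trans ?_
  have him : t ≤ ‖(1 : ℂ) - ((σ : ℂ) + t * I)‖ := by
    have := abs_im_le_norm ((1 : ℂ) - ((σ : ℂ) + t * I))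
    simpa [abs_of_pos ht0] using this
  simp only [sub_re, one_re, add_re, ofReal_re, mul_re, I_re, mul_zero, ofReal_im, I_im, mul_one,
    sub_self, add_zero]
  refine (div_le_div₀ (mul_nonneg (zero_le_one.trans one_le_kernelConst) (Real.exp_pos _).le)
    (mul_le_of_le_one_right (mul_nonneg (zero_le_one.trans one_le_kernelConst)
      (Real.exp_pos _).le) (decay_le_one _ _)) (Real.exp_pos L) (ht.trans him)).trans ?_
  rw [mul_div_assoc, ← Real.exp_sub]
  refine mul_le_mul_of_nonneg_left (Real.exp_le_exp.2 ?_) (zero_le_one.trans one_le_kernelConst)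
  rw [abs_of_nonneg (by linarith : 0 ≤ 1 - σ)]
  nlinarith

theorem norm_dual_tail_le {L : ℝ} (hL : 0 < L) {B : ℝ} (hB : ∀ b, ‖cutoff b‖ ≤ B) {z : ℂ}
    (hz : z.re = -7 / 2) :
    ‖riemannZeta (1 - z) - dualPoly L z‖ ≤
      (B + 1) * Real.exp (-(51 / 20) * L) * powSum (11 / 10) := by
  have hB0 : 0 ≤ B := le_trans (norm_nonneg _) (hB 0)
  have hfin : HasSum (fun n : ℕ => smooth (17 / 20) L (n + 1) * ((n + 1 : ℕ) : ℂ) ^ (z - 1))
      (dualPoly L z) := by
    have h : HasSum (fun n : ℕ => if n = 0 then 0 else smooth (17 / 20) L n * (n : ℂ) ^ (z - 1))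
        (dualPoly L z) := by
      rw [show dualPoly L z = ∑ n ∈ Finset.Icc 1 ⌊Real.exp (19 / 20 * L)⌋₊,
          (if n = 0 then 0 else smooth (17 / 20) L n * (n : ℂ) ^ (z - 1)) from
        Finset.sum_congr rfl fun n hn => by
          rw [if_neg (show n ≠ 0 by have := (Finset.mem_Icc.1 hn).1; omega)]]
      refine hasSum_sum_of_ne_finset_zero fun n hn => ?_
      rcases Nat.eq_zero_or_pos n with rfl | hn0
      · rw [if_pos rfl]
      rw [if_neg hn0.ne', smooth_eq_zero hL, zero_mul]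
      rw [Finset.mem_Icc, not_and, not_le] at hn
      have h1 := Nat.lt_of_floor_lt (hn hn0)
      norm_num at h1 ⊢
      exact h1
    have h' := (hasSum_nat_add_iff' 1).2 h
    simpa using h'
  have hzsum : Summable fun n : ℕ => 1 / ((n + 1 : ℕ) : ℂ) ^ (1 - z) :=
    (summable_nat_add_iff 1).2 (Complex.summable_one_div_nat_cpow.2 (by simp [hz]; norm_num))
  have hzeta : HasSum (fun n : ℕ => 1 / ((n + 1 : ℕ) : ℂ) ^ (1 - z)) (riemannZeta (1 - z)) := by
    rw [zeta_eq_tsum_one_div_nat_add_one_cpow (by simp [hz]; norm_num)]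
    simpa using hzsum.hasSum
  refine le_trans (le_of_eq ?_) (tsum_of_norm_bounded
    (f := fun n : ℕ => 1 / ((n + 1 : ℕ) : ℂ) ^ (1 - z) -
      smooth (17 / 20) L (n + 1) * ((n + 1 : ℕ) : ℂ) ^ (z - 1))
    ((summable_powSum (show (1 : ℝ) < 11 / 10 by norm_num)).hasSum.mul_left
      ((B + 1) * Real.exp (-(51 / 20) * L))) fun n => ?_)
  · rw [(hzeta.sub hfin).tsum_eq]
  · rw [one_div, ← cpow_neg, neg_sub, ← one_sub_mul, norm_mul, Nat.cast_add, Nat.cast_one,
      norm_add_one_cpow, sub_re, one_re, hz, mul_assoc]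
    rcases le_or_gt ((n + 1 : ℕ) : ℝ) (Real.exp ((17 / 20 - 1 / 10) * L)) with h | h
    · rw [smooth_eq_one hL (Nat.succ_pos n) h, sub_self, norm_zero, zero_mul]
      positivity
    refine mul_le_mul ((norm_sub_le _ _).trans ?_) ?_ (by positivity) (by positivity)
    · rw [norm_one, add_comm B]
      exact add_le_add le_rfl (hB _)
    have hn : (0 : ℝ) < (n : ℝ) + 1 := by positivity
    rw [show (-7 / 2 - 1 : ℝ) = -(17 / 5) + -(11 / 10) by norm_num, Real.rpow_add hn]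
    refine mul_le_mul_of_nonneg_right ?_ (Real.rpow_nonneg hn.le _)
    rw [show -(51 / 20) * L = ((17 / 20 - 1 / 10) * L) * (-(17 / 5) : ℝ) by ring,
      Real.exp_mul]
    push_cast at h
    exact Real.rpow_le_rpow_of_nonpos (Real.exp_pos _) h.le (by norm_num)

/-- The head integrand. -/
def headWeight (L : ℝ) (s w : ℂ) : ℂ := chiFac (s + w) * dualPoly L (s + w) * weight L w

theorem differentiable_dualPoly (L : ℝ) : Differentiable ℂ (dualPoly L) := by
  unfold dualPoly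
  exact Differentiable.fun_sum fun n hn => ((differentiable_id.sub_const 1).const_cpow
    (Or.inl (Nat.cast_ne_zero.2 (show n ≠ 0 by have := (Finset.mem_Icc.1 hn).1; omega)))).const_mul
      _

theorem norm_dualPoly_le {L : ℝ} {B : ℝ} (hB : ∀ b, ‖cutoff b‖ ≤ B) {z : ℂ} (hz : z.re ≤ 1) :
    ‖dualPoly L z‖ ≤ B * ⌊Real.exp (19 / 20 * L)⌋₊ := by
  refine (norm_sum_le_of_le _ (n := fun _ => B) fun n hn => ?_).trans (le_of_eq ?_)
  · have hn0 : 1 ≤ n := (Finset.mem_Icc.1 hn).1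
    rw [norm_mul, norm_natCast_cpow_of_pos hn0, sub_re, one_re]
    refine (mul_le_mul (hB _) (Real.rpow_le_one_of_one_le_of_nonpos (Nat.one_le_cast.2 hn0)
      (by linarith)) (Real.rpow_nonneg (Nat.cast_nonneg n) _) ((norm_nonneg _).trans (hB 0))).trans
      (le_of_eq (mul_one B))
  · simp [mul_comm]

theorem two_le_kernelDeg_sub_four : 2 ≤ kernelDeg - 4 := by
  have := four_le_kernelDeg_sub
  omega

theorem four_le_kernelDeg : 4 ≤ kernelDeg := by
  have := four_le_kernelDeg_sub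
  omega

theorem head_shift {L σ t : ℝ} (hL : 1 ≤ L) (hσ : 1 / 2 < σ) (hσ' : σ ≤ 3 / 4) :
    Integrable (fun v : ℝ => headWeight L ((σ : ℂ) + t * I)
        (((-7 / 2 - σ : ℝ) : ℂ) + (v : ℂ) * I)) ∧
    ∫ v : ℝ, headWeight L ((σ : ℂ) + t * I) (((-7 / 2 - σ : ℝ) : ℂ) + (v : ℂ) * I) =
      ∫ v : ℝ, headWeight L ((σ : ℂ) + t * I) (((1 / 2 - σ : ℝ) : ℂ) + (v : ℂ) * I) := by
  obtain ⟨s, hs⟩ : ∃ s : ℂ, s = (σ : ℂ) + t * I := ⟨_, rfl⟩
  have hsre : s.re = σ := by simp [hs]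
  have hsim : s.im = t := by simp [hs]
  rw [← hs]
  obtain ⟨α, hα⟩ : ∃ α : ℝ, α = -7 / 2 - σ := ⟨_, rfl⟩
  obtain ⟨β, hβ⟩ : ∃ β : ℝ, β = 1 / 2 - σ := ⟨_, rfl⟩
  rw [← hα, ← hβ]
  obtain ⟨B, hB1, hB⟩ := exists_norm_cutoff_le
  obtain ⟨C, hC1, hC⟩ := exists_chiFac_le
  obtain ⟨D, hD⟩ : ∃ D, D = C * (|t| + 4) ^ 4 * (B * ⌊Real.exp (19 / 20 * L)⌋₊) *
      (kernelConst * Real.exp (4 * L) / (σ - 1 / 2)) := ⟨_, rfl⟩
  have hK := zero_le_one.trans one_le_kernelConst
  have hdiff : ∀ w : ℂ, w.re ≤ β → DifferentiableAt ℂ (headWeight L s) w := fun w hw => by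
    refine (((differentiableAt_chiFac ?_).comp w (differentiableAt_id.const_add s)).mul
      ((differentiable_dualPoly L _).comp w (differentiableAt_id.const_add s))).mul
      (differentiableAt_weight L fun h => ?_)
    · simp [hsre]
      linarith
    · rw [h, zero_re] at hw
      linarith
  have hbd : ∀ u v : ℝ, u ∈ Icc α β →
      ‖headWeight L s ((u : ℂ) + (v : ℂ) * I)‖ ≤ D * decay (kernelDeg - 4) v := fun u v hu => by
    have hz1 : (s + ((u : ℂ) + (v : ℂ) * I)).re = σ + u := by simp [hsre]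
    have hz2 : (s + ((u : ℂ) + (v : ℂ) * I)).im = t + v := by simp [hsim]
    have h1 := hC (s + ((u : ℂ) + (v : ℂ) * I))
      (by rw [hz1]; constructor <;> linarith [hu.1, hu.2])
    rw [hz2] at h1
    have h2 := norm_dualPoly_le (L := L) hB (z := s + ((u : ℂ) + (v : ℂ) * I))
      (by rw [hz1]; linarith [hu.2])
    have h3 : ‖weight L ((u : ℂ) + (v : ℂ) * I)‖ ≤
        kernelConst * Real.exp (4 * L) / (σ - 1 / 2) * decay kernelDeg v := by
      refine (norm_weight_le (by linarith) _).trans ?_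
      simp only [add_re, ofReal_re, mul_re, I_re, mul_zero, ofReal_im, I_im, mul_one, sub_self,
        add_zero, add_im, mul_im, zero_add]
      rw [div_mul_eq_mul_div]
      refine div_le_div₀ (mul_nonneg (mul_nonneg hK (Real.exp_pos _).le) (decay_nonneg _ _))
        (mul_le_mul (mul_le_mul_of_nonneg_left (Real.exp_le_exp.2 ?_) hK) (decay_mul_le hL _ _)
          (decay_nonneg _ _) (mul_nonneg hK (Real.exp_pos _).le)) (by linarith) ?_
      · rw [abs_of_nonpos (by linarith [hu.2] : u ≤ 0)]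
        nlinarith [hu.1, hu.2]
      · have := abs_re_le_norm ((u : ℂ) + (v : ℂ) * I)
        simp only [add_re, ofReal_re, mul_re, I_re, mul_zero, ofReal_im, I_im, mul_one, sub_self,
          add_zero] at this
        linarith [neg_le_abs u, hu.2]
    have h4 : (|t + v| + 4) ^ 4 ≤ (|t| + 4) ^ 4 * (1 + |v|) ^ 4 := by
      rw [← mul_pow]
      refine pow_le_pow_left₀ (by positivity) ?_ 4
      nlinarith [abs_add_le t v, abs_nonneg t, abs_nonneg v]
    rw [headWeight, norm_mul, norm_mul, hD, ← pow_mul_decay four_le_kernelDeg v]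
    refine (mul_le_mul (mul_le_mul (h1.trans (mul_le_mul_of_nonneg_left h4 (by linarith))) h2
      (norm_nonneg _) (by positivity)) h3 (norm_nonneg _) (by positivity)).trans (le_of_eq ?_)
    ring
  have hint : ∀ u : ℝ, u ∈ Icc α β →
      Integrable fun v : ℝ => headWeight L s ((u : ℂ) + (v : ℂ) * I) := fun u hu =>
    integrable_of_decay two_le_kernelDeg_sub_four
      (continuous_line fun v => (hdiff _ (by simpa using hu.2)).continuousAt)
      fun v => hbd u v hu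
  refine ⟨hint α ⟨le_rfl, by linarith⟩, ?_⟩
  have h := verticals_of_boxInt (F := headWeight L s) (hint α ⟨le_rfl, by linarith⟩)
    (hint β ⟨by linarith, le_rfl⟩) (c := 0)
    ((eventually_ge_atTop (0 : ℝ)).mono fun R hR =>
      boxInt_eq_zero (by linarith) hR fun w hw _ => hdiff w hw.2)
    (e := fun R => D * decay (kernelDeg - 4) R)
    (by simpa using (tendsto_decay (le_trans one_le_two two_le_kernelDeg_sub_four)).const_mul D)
    (Eventually.of_forall fun R u hu => by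
      rw [uIcc_of_le (by linarith)] at hu
      exact ⟨(hbd u (-R) hu).trans_eq (by rw [decay_neg]), hbd u R hu⟩)
  exact (sub_eq_zero.1 ((mul_eq_zero.1 h).resolve_left I_ne_zero)).symm

theorem integral_comp_scale {L : ℝ} (hL : 0 < L) (f : ℝ → ℝ) :
    ∫ v : ℝ, f (L * v) = L⁻¹ * ∫ v : ℝ, f v := by
  rw [Measure.integral_comp_mul_left, abs_of_pos (inv_pos.2 hL), smul_eq_mul]

theorem norm_head_le {L σ t : ℝ} (hL : 1 ≤ L) (hσ : 1 / 2 < σ) (hσ' : σ ≤ 3 / 4) :
    ‖∫ v : ℝ, headWeight L ((σ : ℂ) + t * I) (((1 / 2 - σ : ℝ) : ℂ) + (v : ℂ) * I)‖ ≤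
      kernelConst * Real.exp (-(2 / 5) * ((σ - 1 / 2) * L)) / ((σ - 1 / 2) * L) *
        ∫ v : ℝ, decay kernelDeg v * ‖dualPoly L ((1 / 2 : ℂ) + ((t + v / L : ℝ) : ℂ) * I)‖ := by
  obtain ⟨f, hf⟩ : ∃ f : ℝ → ℝ, f = fun v => decay kernelDeg v *
      ‖dualPoly L ((1 / 2 : ℂ) + ((t + v / L : ℝ) : ℂ) * I)‖ := ⟨_, rfl⟩
  obtain ⟨B, -, hB⟩ := exists_norm_cutoff_le
  have hL0 : 0 < L := by linarith
  have hcf : Continuous f := by
    rw [hf]
    exact (continuous_decay _).mul ((differentiable_dualPoly L).continuous.comp (by fun_prop)).norm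
  have hfint : Integrable f := integrable_of_decay two_le_kernelDeg hcf fun v => by
    rw [hf, Real.norm_of_nonneg (mul_nonneg (decay_nonneg _ _) (norm_nonneg _)), mul_comm]
    exact mul_le_mul_of_nonneg_right (norm_dualPoly_le hB (by simp; norm_num)) (decay_nonneg _ _)
  rw [show (fun v : ℝ => decay kernelDeg v * ‖dualPoly L ((1 / 2 : ℂ) +
      ((t + v / L : ℝ) : ℂ) * I)‖) = f from hf.symm]
  obtain ⟨E, hE⟩ : ∃ E, E = kernelConst * Real.exp (-(2 / 5) * ((σ - 1 / 2) * L)) / (σ - 1 / 2) :=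
    ⟨_, rfl⟩
  refine (norm_integral_le_of_norm_le (((hfint.comp_mul_left' hL0.ne')).const_mul E)
    (Eventually.of_forall fun v => ?_)).trans (le_of_eq ?_)
  · have hz : (σ : ℂ) + t * I + (((1 / 2 - σ : ℝ) : ℂ) + (v : ℂ) * I) =
        (1 / 2 : ℂ) + ((t + v : ℝ) : ℂ) * I := by push_cast; ring
    rw [headWeight, hz, norm_mul, norm_mul, norm_chiFac_half (by simp), one_mul]
    simp only [hf, mul_div_cancel_left₀ v hL0.ne']
    rw [mul_comm ‖dualPoly L _‖, ← mul_assoc]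
    refine mul_le_mul_of_nonneg_right ((norm_weight_le hL0.le _).trans ?_) (norm_nonneg _)
    simp only [add_re, ofReal_re, mul_re, I_re, mul_zero, ofReal_im, I_im, mul_one, sub_self,
      add_zero, add_im, mul_im, zero_add]
    rw [hE, div_mul_eq_mul_div, abs_of_nonpos (by linarith : 1 / 2 - σ ≤ 0)]
    refine div_le_div₀ (mul_nonneg (mul_nonneg (zero_le_one.trans one_le_kernelConst)
      (Real.exp_pos _).le) (decay_nonneg _ _)) (le_of_eq ?_) (by linarith) ?_
    · congr 3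
      ring
    · have := abs_re_le_norm (((1 / 2 - σ : ℝ) : ℂ) + (v : ℂ) * I)
      simp only [add_re, ofReal_re, mul_re, I_re, mul_zero, ofReal_im, I_im, mul_one, sub_self,
        add_zero] at this
      linarith [neg_le_abs (1 / 2 - σ)]
  · rw [integral_const_mul, integral_comp_scale hL0, hE]
    field_simp

/-- **The approximate functional equation.** -/
theorem exists_zeta_approx : ∃ C, 0 ≤ C ∧ ∀ L σ t : ℝ, 1 ≤ L → 1 / 2 < σ → σ ≤ 3 / 4 →
    Real.exp L ≤ t → t ≤ 2 * Real.exp L →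
    ‖riemannZeta ((σ : ℂ) + t * I) - mainPoly L ((σ : ℂ) + t * I)‖ ≤
      C * (Real.exp (-(2 / 5) * ((σ - 1 / 2) * L)) / ((σ - 1 / 2) * L) *
        (∫ v : ℝ, decay kernelDeg v * ‖dualPoly L ((1 / 2 : ℂ) + ((t + v / L : ℝ) : ℂ) * I)‖) +
        Real.exp (-(3 / 20) * L)) := by
  obtain ⟨B, hB1, hB⟩ := exists_norm_cutoff_le
  obtain ⟨J, hJ⟩ : ∃ J, J = ∫ v, decay (kernelDeg - 4) v := ⟨_, rfl⟩
  have hJ0 : 0 ≤ J := hJ ▸ integral_nonneg fun v => decay_nonneg _ v
  have hP : 0 ≤ powSum (11 / 10) := tsum_nonneg fun n => Real.rpow_nonneg (by positivity) _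
  have hK := zero_le_one.trans one_le_kernelConst
  refine ⟨2 * kernelConst + 6 ^ 4 * ((B + 1) * powSum (11 / 10)) * kernelConst * J,
    by positivity, fun L σ t hL hσ hσ' ht ht' => ?_⟩
  have hL0 : 0 < L := by linarith
  have hT1 : 1 ≤ Real.exp L := Real.one_le_exp hL0.le
  have ht0 : t ≠ 0 := by linarith
  obtain ⟨hint, hid⟩ := zeta_contour hL hσ hσ' ht0
  obtain ⟨hhint, hhead⟩ := head_shift (t := t) hL hσ hσ'
  obtain ⟨s, hs⟩ : ∃ s : ℂ, s = (σ : ℂ) + t * I := ⟨_, rfl⟩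
  have hsre : s.re = σ := by simp [hs]
  have hsim : s.im = t := by simp [hs]
  obtain ⟨Z, hZ⟩ : ∃ Z : ℝ → ℂ, Z = fun v : ℝ => zetaWeight L s
      (((-7 / 2 - σ : ℝ) : ℂ) + (v : ℂ) * I) - headWeight L s
      (((-7 / 2 - σ : ℝ) : ℂ) + (v : ℂ) * I) := ⟨_, rfl⟩
  obtain ⟨E, hE⟩ : ∃ E, E = 6 ^ 4 * ((B + 1) * powSum (11 / 10)) * kernelConst *
      Real.exp (-(3 / 20) * L) := ⟨_, rfl⟩
  have hZb : ∀ v, ‖Z v‖ ≤ E * decay (kernelDeg - 4) v := fun v => by
    obtain ⟨w, hw⟩ : ∃ w : ℂ, w = ((-7 / 2 - σ : ℝ) : ℂ) + (v : ℂ) * I := ⟨_, rfl⟩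
    have hwre : w.re = -7 / 2 - σ := by simp [hw]
    have hwim : w.im = v := by simp [hw]
    have hzre : (s + w).re = -7 / 2 := by rw [add_re, hsre, hwre]; ring
    have hz0 : s + w ≠ 0 := fun h => by rw [h, zero_re] at hzre; norm_num at hzre
    rw [hZ]
    simp only
    rw [← hw, zetaWeight, headWeight, riemannZeta_eq_chiFac_mul hz0 (by rw [hzre]; norm_num),
      ← sub_mul, ← mul_sub, norm_mul, norm_mul]
    have h1 := norm_chiFac_left hzre
    have h2 := norm_dual_tail_le hL0 hB hzre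
    have h3 : ‖weight L w‖ ≤ kernelConst * Real.exp (-(8 / 5) * L) * decay kernelDeg v := by
      refine (norm_weight_le hL0.le w).trans ((div_le_self (mul_nonneg (mul_nonneg hK
        (Real.exp_pos _).le) (decay_nonneg _ _)) ?_).trans ?_)
      · have := abs_re_le_norm w
        rw [hwre, abs_of_nonpos (by linarith)] at this
        linarith
      · rw [hwim]
        refine mul_le_mul (mul_le_mul_of_nonneg_left (Real.exp_le_exp.2 ?_) hK)
          (decay_mul_le hL _ _) (decay_nonneg _ _) (mul_nonneg hK (Real.exp_pos _).le)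
        rw [hwre, abs_of_nonpos (by linarith : -7 / 2 - σ ≤ 0)]
        nlinarith
    have h4 : (|(s + w).im| + 4) ^ 4 ≤ 6 ^ 4 * Real.exp (4 * L) * (1 + |v|) ^ 4 := by
      rw [show Real.exp (4 * L) = Real.exp L ^ 4 by rw [← Real.exp_nat_mul]; norm_num, ← mul_pow,
        ← mul_pow]
      refine pow_le_pow_left₀ (by positivity) ?_ 4
      rw [add_im, hsim, hwim]
      nlinarith [abs_add_le t v, abs_of_nonneg (show (0 : ℝ) ≤ t by linarith), abs_nonneg v,
        mul_nonneg (abs_nonneg v) (show 0 ≤ Real.exp L - 1 by linarith)]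
    refine (mul_le_mul (mul_le_mul (h1.trans h4) h2 (norm_nonneg _) (by positivity)) h3
      (norm_nonneg _) (by positivity)).trans (le_of_eq ?_)
    rw [hE, ← pow_mul_decay four_le_kernelDeg v,
      show Real.exp (-(3 / 20) * L) = Real.exp (4 * L) * Real.exp (-(51 / 20) * L) *
        Real.exp (-(8 / 5) * L) * Real.exp (-(0 : ℝ)) by
          rw [← Real.exp_add, ← Real.exp_add, ← Real.exp_add]; ring_nf]
    simp only [neg_zero, Real.exp_zero, mul_one]
    ring
  have hsplit : ∫ v : ℝ, zetaWeight L s (((-7 / 2 - σ : ℝ) : ℂ) + (v : ℂ) * I) =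
      (∫ v : ℝ, headWeight L s (((-7 / 2 - σ : ℝ) : ℂ) + (v : ℂ) * I)) + ∫ v, Z v := by
    rw [hZ, integral_sub (hs ▸ hint) (hs ▸ hhint)]
    ring
  rw [← hs] at hid hhead ⊢
  have hH := norm_head_le (t := t) hL hσ hσ'
  rw [← hs, ← hhead] at hH
  have hZi : ‖∫ v, Z v‖ ≤ E * J := by
    rw [hJ, ← integral_const_mul]
    exact norm_integral_le_of_norm_le ((integrable_decay two_le_kernelDeg_sub_four).const_mul E)
      (Eventually.of_forall hZb)
  have hpole : ‖poleTerm L s‖ ≤ kernelConst * Real.exp (-(3 / 20) * L) :=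
    hs ▸ norm_poleTerm_le hL0.le hσ hσ' ht
  rw [hid, hsplit, show ∀ a b c : ℂ, a - b - c - a = -(b + c) from fun a b c => by ring, norm_neg]
  refine (norm_add_le _ _).trans (((add_le_add (b := kernelConst *
    Real.exp (-(2 / 5) * ((σ - 1 / 2) * L)) / ((σ - 1 / 2) * L) *
      (∫ v : ℝ, decay kernelDeg v * ‖dualPoly L ((1 / 2 : ℂ) + ((t + v / L : ℝ) : ℂ) * I)‖) +
        E * J) ?_ hpole)).trans ?_)
  · rw [norm_mul, norm_inv, norm_mul, Complex.norm_two, norm_real,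
      Real.norm_of_nonneg Real.pi_pos.le]
    refine (mul_le_of_le_one_left (norm_nonneg _) (inv_le_one_of_one_le₀
      (by linarith [Real.pi_gt_three]))).trans ((norm_add_le _ _).trans (add_le_add hH hZi))
  · have hI0 : 0 ≤ Real.exp (-(2 / 5) * ((σ - 1 / 2) * L)) / ((σ - 1 / 2) * L) *
        ∫ v : ℝ, decay kernelDeg v * ‖dualPoly L ((1 / 2 : ℂ) + ((t + v / L : ℝ) : ℂ) * I)‖ :=
      mul_nonneg (div_nonneg (Real.exp_pos _).le (by nlinarith))
        (integral_nonneg fun v => mul_nonneg (decay_nonneg _ _) (norm_nonneg _))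
    rw [hE, mul_div_assoc kernelConst, mul_assoc kernelConst]
    obtain ⟨P, hPdef⟩ : ∃ P, P = 6 ^ 4 * ((B + 1) * powSum (11 / 10)) * kernelConst := ⟨_, rfl⟩
    have hP0 : 0 ≤ P := by rw [hPdef]; exact mul_nonneg (mul_nonneg (by norm_num) (mul_nonneg (by linarith) hP)) hK
    rw [← hPdef]
    obtain ⟨X, hX⟩ : ∃ X, X = Real.exp (-(2 / 5) * ((σ - 1 / 2) * L)) / ((σ - 1 / 2) * L) *
        ∫ v : ℝ, decay kernelDeg v * ‖dualPoly L ((1 / 2 : ℂ) + ((t + v / L : ℝ) : ℂ) * I)‖ :=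
      ⟨_, rfl⟩
    rw [← hX] at hI0 ⊢
    obtain ⟨Y, hY⟩ : ∃ Y, Y = Real.exp (-(3 / 20) * L) := ⟨_, rfl⟩
    have hY0 : 0 ≤ Y := hY ▸ (Real.exp_pos _).le
    rw [← hY]
    have h1 := mul_nonneg hK hI0
    have h2 := mul_nonneg (mul_nonneg hP0 hJ0) hI0
    have h3 := mul_nonneg hK hY0
    linarith

end FA.SelbergCLT
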