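import Fermat.Agent.Resonance.Inequality
import Mathlib.Analysis.SpecialFunctions.Integrals.Basic
import Mathlib.Data.Nat.Factors
import Mathlib.Analysis.Calculus.MeanValue

/-!
# The moments of a sum over primes

For primes `≤ B` and coefficients in `[0, 1]` the moments over `[T, 2T]` of the real part of
`∑ r p p^(-it)` are those of a Gaussian, up to an error of size `B^(2k) / T`.
-/

set_option autoImplicit false

noncomputable section

namespace FA.SelbergCLT

open Finset MeasureTheory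
open FA.Resonance (wave norm_wave wave_add conj_wave continuous_wave inv_le_abs_log_sub)
open scoped Real Nat ComplexConjugate

variable {P : Finset ℕ} {r : ℕ → ℝ}

/-- `∑ r p p^(-it)`. -/
def primePoly (P : Finset ℕ) (r : ℕ → ℝ) (t : ℝ) : ℂ :=
  ∑ p ∈ P, (r p : ℂ) * wave (-Real.log p) t

/-- `∑ r p²`. -/
def sqMass (P : Finset ℕ) (r : ℕ → ℝ) : ℝ := ∑ p ∈ P, r p ^ 2

/-- `∏ r (f i)`. -/
def tupleWeight (r : ℕ → ℝ) {m : ℕ} (f : Fin m → ℕ) : ℝ := ∏ i, r (f i)

/-- The tuples of `m` elements of `P`. -/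
def tuples (P : Finset ℕ) (m : ℕ) : Finset (Fin m → ℕ) := Fintype.piFinset fun _ => P

/-- The sum over pairs of tuples with the same product. -/
def diagPairs (P : Finset ℕ) (r : ℕ → ℝ) (a b : ℕ) : ℝ :=
  ∑ f ∈ tuples P a, ∑ g ∈ tuples P b,
    if ∏ i, f i = ∏ j, g j then tupleWeight r f * tupleWeight r g else 0

theorem mem_tuples {m : ℕ} {f : Fin m → ℕ} : f ∈ tuples P m ↔ ∀ i, f i ∈ P :=
  Fintype.mem_piFinset

theorem continuous_primePoly (P : Finset ℕ) (r : ℕ → ℝ) : Continuous (primePoly P r) :=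
  continuous_finsetSum _ fun _ _ => continuous_const.mul (continuous_wave _)

theorem norm_integral_wave_le {l : ℝ} (hl : l ≠ 0) (u v : ℝ) :
    ‖∫ t in u..v, wave l t‖ ≤ 2 / |l| := by
  have hc : (l : ℂ) * Complex.I ≠ 0 := mul_ne_zero (Complex.ofReal_ne_zero.2 hl) Complex.I_ne_zero
  have e : ∀ t : ℝ, wave l t = Complex.exp ((l : ℂ) * Complex.I * t) := fun t => by
    rw [wave, mul_right_comm]
  simp only [e, integral_exp_mul_complex hc, norm_div, norm_mul, Complex.norm_I, mul_one,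
    Complex.norm_real, Real.norm_eq_abs]
  refine div_le_div_of_nonneg_right ((norm_sub_le _ _).trans (le_of_eq ?_)) (abs_nonneg l)
  rw [← e, ← e, norm_wave, norm_wave]
  norm_num

theorem wave_zero (t : ℝ) : wave 0 t = 1 := by simp [wave]

theorem wave_sum {ι : Type*} (s : Finset ι) (l : ι → ℝ) (t : ℝ) :
    wave (∑ i ∈ s, l i) t = ∏ i ∈ s, wave (l i) t := by
  classical
  induction s using Finset.induction with
  | empty => simp [wave_zero]
  | insert a s ha ih => rw [sum_insert ha, prod_insert ha, wave_add, ih]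

theorem primePoly_pow (hP : ∀ p ∈ P, p.Prime) (m : ℕ) (t : ℝ) :
    primePoly P r t ^ m = ∑ f ∈ tuples P m,
      (tupleWeight r f : ℂ) * wave (-Real.log ((∏ i, f i : ℕ) : ℝ)) t := by
  rw [primePoly, sum_pow']
  refine sum_congr rfl fun f hf => ?_
  rw [prod_mul_distrib, tupleWeight, Complex.ofReal_prod, Nat.cast_prod,
    Real.log_prod fun i _ => (Nat.cast_pos.2 (hP _ (mem_tuples.1 hf i)).pos).ne',
    ← sum_neg_distrib, wave_sum]

theorem prod_pos_of_mem (hP : ∀ p ∈ P, p.Prime) {m : ℕ} {f : Fin m → ℕ} (hf : f ∈ tuples P m) :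
    0 < ∏ i, f i :=
  prod_pos fun i _ => (hP _ (mem_tuples.1 hf i)).pos

theorem prod_le_pow_of_mem {B : ℕ} (hB : ∀ p ∈ P, p ≤ B) {m : ℕ} {f : Fin m → ℕ}
    (hf : f ∈ tuples P m) : ∏ i, f i ≤ B ^ m := by
  refine (prod_le_prod (fun i _ => Nat.zero_le _) fun i _ => hB _ (mem_tuples.1 hf i)).trans ?_
  simp

theorem sum_tupleWeight (P : Finset ℕ) (r : ℕ → ℝ) (m : ℕ) :
    ∑ f ∈ tuples P m, tupleWeight r f = (∑ p ∈ P, r p) ^ m :=
  (sum_pow' P r m).symm

theorem tupleWeight_nonneg (hr : ∀ p ∈ P, 0 ≤ r p) {m : ℕ} {f : Fin m → ℕ}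
    (hf : f ∈ tuples P m) : 0 ≤ tupleWeight r f :=
  prod_nonneg fun i _ => hr _ (mem_tuples.1 hf i)

theorem primePoly_pow_mul_conj (hP : ∀ p ∈ P, p.Prime) (a b : ℕ) (t : ℝ) :
    primePoly P r t ^ a * conj (primePoly P r t) ^ b = ∑ f ∈ tuples P a, ∑ g ∈ tuples P b,
      ((tupleWeight r f * tupleWeight r g : ℝ) : ℂ) *
        wave (Real.log ((∏ j, g j : ℕ) : ℝ) - Real.log ((∏ i, f i : ℕ) : ℝ)) t := by
  rw [← map_pow, primePoly_pow hP, primePoly_pow hP, map_sum, sum_mul_sum]
  refine sum_congr rfl fun f _ => sum_congr rfl fun g _ => ?_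
  rw [map_mul, Complex.conj_ofReal, conj_wave, neg_neg,
    sub_eq_neg_add (Real.log ((∏ j, g j : ℕ) : ℝ)), wave_add]
  push_cast
  ring

/-- **Only the diagonal survives.** -/
theorem norm_integral_pow_mul_conj_sub_le (hP : ∀ p ∈ P, p.Prime) {B : ℕ} (hB : ∀ p ∈ P, p ≤ B)
    (hr : ∀ p ∈ P, 0 ≤ r p) (a b : ℕ) (T : ℝ) :
    ‖(∫ t in T..2 * T, primePoly P r t ^ a * conj (primePoly P r t) ^ b) -
      (T * diagPairs P r a b : ℝ)‖ ≤ 2 * ((B : ℝ) ^ a + 1) * (∑ p ∈ P, r p) ^ (a + b) := by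
  obtain ⟨F, hF⟩ : ∃ F : (Fin a → ℕ) → (Fin b → ℕ) → ℝ → ℂ, F = fun f g t =>
      ((tupleWeight r f * tupleWeight r g : ℝ) : ℂ) *
        wave (Real.log ((∏ j, g j : ℕ) : ℝ) - Real.log ((∏ i, f i : ℕ) : ℝ)) t := ⟨_, rfl⟩
  have hc : ∀ f g, Continuous (F f g) := fun f g => by
    rw [hF]
    exact continuous_const.mul (continuous_wave _)
  have e : ∫ t in T..2 * T, primePoly P r t ^ a * conj (primePoly P r t) ^ b =
      ∑ f ∈ tuples P a, ∑ g ∈ tuples P b, ∫ t in T..2 * T, F f g t := by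
    rw [intervalIntegral.integral_congr (g := fun t => ∑ f ∈ tuples P a, ∑ g ∈ tuples P b, F f g t)
      fun t _ => by simp only [hF, primePoly_pow_mul_conj hP],
      intervalIntegral.integral_finsetSum fun f _ =>
        (continuous_finsetSum _ fun g _ => hc f g).intervalIntegrable _ _]
    exact sum_congr rfl fun f _ => intervalIntegral.integral_finsetSum fun g _ =>
      (hc f g).intervalIntegrable _ _
  simp only [e, hF, intervalIntegral.integral_const_mul]
  rw [diagPairs, mul_sum, Complex.ofReal_sum, ← sum_sub_distrib, pow_add, ← sum_tupleWeight,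
    ← sum_tupleWeight, sum_mul_sum, mul_sum]
  refine norm_sum_le_of_le _ fun f hf => ?_
  rw [mul_sum, Complex.ofReal_sum, ← sum_sub_distrib]
  refine (norm_sum_le_of_le _ (n := fun g => 2 * ((B : ℝ) ^ a + 1) *
    (tupleWeight r f * tupleWeight r g)) fun g hg => ?_).trans_eq (mul_sum _ _ _).symm
  have hw : 0 ≤ tupleWeight r f * tupleWeight r g :=
    mul_nonneg (tupleWeight_nonneg hr hf) (tupleWeight_nonneg hr hg)
  have hB0 : (0 : ℝ) ≤ 2 * ((B : ℝ) ^ a + 1) := by positivity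
  by_cases heq : ∏ i, f i = ∏ j, g j
  · rw [if_pos heq, heq, sub_self]
    simp only [wave_zero, intervalIntegral.integral_const, Complex.real_smul, mul_one]
    rw [show ((tupleWeight r f * tupleWeight r g : ℝ) : ℂ) * ((2 * T - T : ℝ) : ℂ) -
      ((T * (tupleWeight r f * tupleWeight r g) : ℝ) : ℂ) = 0 by push_cast; ring, norm_zero]
    calc (0 : ℝ) ≤ 2 * ((B : ℝ) ^ a + 1) * (tupleWeight r f * tupleWeight r g) :=
          mul_nonneg hB0 hw
      _ = _ := by ring
  · rw [if_neg heq, mul_zero, Complex.ofReal_zero, sub_zero, norm_mul, Complex.norm_real,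
      Real.norm_of_nonneg hw]
    have hsep := inv_le_abs_log_sub (N := B ^ a) (prod_pos_of_mem hP hf)
      (prod_le_pow_of_mem hB hf) (prod_pos_of_mem hP hg) heq
    rw [abs_sub_comm, Nat.cast_pow] at hsep
    have hne : Real.log ((∏ j, g j : ℕ) : ℝ) - Real.log ((∏ i, f i : ℕ) : ℝ) ≠ 0 := fun h0 => by
      rw [h0, abs_zero] at hsep
      exact absurd hsep (not_le.2 (by positivity))
    refine (mul_le_mul_of_nonneg_left ((norm_integral_wave_le hne _ _).trans
      ((div_le_div_of_nonneg_left (by norm_num) (by positivity) hsep).trans_eq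
        (show (2 : ℝ) / (1 / ((B : ℝ) ^ a + 1)) = 2 * ((B : ℝ) ^ a + 1) by field_simp)))
      hw).trans (le_of_eq ?_)
    ring

/-- `∏ r` over a tuple only depends on the product of the tuple. -/
theorem tupleWeight_eq (hP : ∀ p ∈ P, p.Prime) {m : ℕ} {f : Fin m → ℕ} (hf : f ∈ tuples P m) :
    tupleWeight r f = ((∏ i, f i).primeFactorsList.map r).prod := by
  have hperm : (List.ofFn f).Perm (∏ i, f i).primeFactorsList :=
    Nat.primeFactorsList_unique (List.prod_ofFn) fun p hp => by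
      obtain ⟨i, rfl⟩ := List.mem_ofFn.1 hp
      exact hP _ (mem_tuples.1 hf i)
  rw [← (hperm.map r).prod_eq, List.map_ofFn, List.prod_ofFn]
  rfl

theorem length_eq (hP : ∀ p ∈ P, p.Prime) {m : ℕ} {f : Fin m → ℕ} (hf : f ∈ tuples P m) :
    (∏ i, f i).primeFactorsList.length = m := by
  have hperm : (List.ofFn f).Perm (∏ i, f i).primeFactorsList :=
    Nat.primeFactorsList_unique (List.prod_ofFn) fun p hp => by
      obtain ⟨i, rfl⟩ := List.mem_ofFn.1 hp
      exact hP _ (mem_tuples.1 hf i)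
  rw [← hperm.length_eq, List.length_ofFn]

theorem diagPairs_of_ne (hP : ∀ p ∈ P, p.Prime) {a b : ℕ} (hab : a ≠ b) :
    diagPairs P r a b = 0 := by
  refine sum_eq_zero fun f hf => sum_eq_zero fun g hg => if_neg fun h => hab ?_
  rw [← length_eq hP hf, ← length_eq hP hg, h]

/-- The number of tuples with a given product. -/
theorem card_filter_prod_le (hP : ∀ p ∈ P, p.Prime) (m : ℕ) :
    ∀ N : ℕ, ((tuples P m).filter fun g => ∏ i, g i = N).card ≤ m ! := by
  induction m with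
  | zero =>
    intro N
    exact (card_le_univ _).trans (by simp)
  | succ m ih =>
    intro N
    rcases eq_empty_or_nonempty ((tuples P (m + 1)).filter fun g => ∏ i, g i = N) with h | ⟨g₀, h⟩
    · rw [h]
      simp
    rw [mem_filter] at h
    have hmap : ((tuples P (m + 1)).filter fun g => ∏ i, g i = N : Set (Fin (m + 1) → ℕ)).MapsTo
        (fun g => g 0) (univ.image g₀ : Finset ℕ) := fun g hg => by
      rw [mem_coe, mem_filter] at hg
      have hdvd : g 0 ∣ ∏ i, g₀ i := h.2.symm ▸ hg.2 ▸ dvd_prod_of_mem g (mem_univ 0)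
      obtain ⟨i, -, hi⟩ := ((hP _ (mem_tuples.1 hg.1 0)).prime.dvd_finsetProd_iff g₀).1 hdvd
      exact mem_image.2 ⟨i, mem_univ i,
        ((Nat.prime_dvd_prime_iff_eq (hP _ (mem_tuples.1 hg.1 0))
          (hP _ (mem_tuples.1 h.1 i))).1 hi).symm⟩
    rw [card_eq_sum_card_fiberwise hmap]
    refine (sum_le_card_nsmul _ _ (m !) fun p hp => ?_).trans ?_
    · refine le_trans ?_ (ih (N / p))
      refine card_le_card_of_injOn Fin.tail (fun g hg => ?_) fun g hg g' hg' he => ?_
      · simp only [mem_coe, mem_filter] at hg ⊢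
        refine ⟨mem_tuples.2 fun i => mem_tuples.1 hg.1.1 i.succ, ?_⟩
        have hp0 : 0 < p := hg.2 ▸ (hP _ (mem_tuples.1 hg.1.1 0)).pos
        rw [← hg.1.2, Fin.prod_univ_succ, hg.2, Nat.mul_div_cancel_left _ hp0]
        rfl
      · simp only [mem_coe, mem_filter] at hg hg'
        rw [← Fin.cons_self_tail g, ← Fin.cons_self_tail g', he, hg.2, hg'.2]
    · rw [smul_eq_mul, Nat.factorial_succ]
      exact Nat.mul_le_mul_right _ (card_image_le.trans (by simp))

theorem sum_tupleWeight_sq (P : Finset ℕ) (r : ℕ → ℝ) (m : ℕ) :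
    ∑ f ∈ tuples P m, tupleWeight r f ^ 2 = sqMass P r ^ m := by
  simp only [tupleWeight, ← prod_pow]
  exact (sum_pow' P (fun p => r p ^ 2) m).symm

theorem diagPairs_self_eq (hP : ∀ p ∈ P, p.Prime) (m : ℕ) :
    diagPairs P r m m = ∑ f ∈ tuples P m, tupleWeight r f ^ 2 *
      ((tuples P m).filter fun g => ∏ i, g i = ∏ i, f i).card := by
  refine sum_congr rfl fun f hf => ?_
  rw [← sum_filter, sum_congr rfl fun g hg => ?_, sum_const, nsmul_eq_mul, mul_comm]
  · rw [filter_congr fun g _ => eq_comm]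
  · rw [mem_filter] at hg
    rw [tupleWeight_eq hP hf, tupleWeight_eq hP hg.1, hg.2, sq]

theorem diagPairs_le (hP : ∀ p ∈ P, p.Prime) (m : ℕ) :
    diagPairs P r m m ≤ m ! * sqMass P r ^ m := by
  rw [diagPairs_self_eq hP, ← sum_tupleWeight_sq, mul_sum]
  refine sum_le_sum fun f _ => ?_
  rw [mul_comm]
  exact mul_le_mul_of_nonneg_right (Nat.cast_le.2 (card_filter_prod_le hP m _)) (sq_nonneg _)

/-- The tuples without repetition carry almost everything. -/
theorem pow_sub_le_sum_injective (hr : ∀ p ∈ P, 0 ≤ r p) (hr1 : ∀ p ∈ P, r p ≤ 1) (m : ℕ) :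
    ((m : ℝ) ≤ sqMass P r) →
    (sqMass P r - m) ^ m ≤
      ∑ f ∈ (tuples P m).filter Function.Injective, tupleWeight r f ^ 2 := by
  suffices key : ∀ j : ℕ, j ≤ m → (m : ℝ) ≤ sqMass P r → (sqMass P r - m) ^ j ≤
      ∑ f ∈ (tuples P j).filter Function.Injective, tupleWeight r f ^ 2 from key m le_rfl
  intro j
  induction j with
  | zero =>
    intro _ _
    refine le_of_eq ?_
    rw [pow_zero, filter_true_of_mem fun f _ => Function.injective_of_subsingleton f,
      sum_tupleWeight_sq, pow_zero]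
  | succ j ih =>
    intro hj hm
    have e : ∑ f ∈ (tuples P (j + 1)).filter Function.Injective, tupleWeight r f ^ 2 =
        ∑ f ∈ (tuples P j).filter Function.Injective, tupleWeight r f ^ 2 *
          ∑ p ∈ P \ univ.image f, r p ^ 2 := by
      simp only [mul_sum]
      rw [sum_sigma']
      refine (sum_nbij' (fun x : (_ : Fin j → ℕ) × ℕ => Fin.cons x.2 x.1)
        (fun g => ⟨Fin.tail g, g 0⟩) ?_ ?_ ?_ ?_ ?_).symm
      · intro x hx
        simp only [mem_sigma, mem_filter, mem_sdiff, mem_tuples] at hx ⊢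
        refine ⟨fun i => Fin.cases ?hzero ?hsucc i, Fin.cons_injective_iff.2 ⟨?range, hx.1.2⟩⟩
        case hzero => simpa using hx.2.1
        case hsucc => exact fun i => by simpa using hx.1.1 i
        case range =>
          rintro ⟨i, hi⟩
          exact hx.2.2 (mem_image.2 ⟨i, mem_univ i, hi⟩)
      · intro g hg
        simp only [mem_sigma, mem_filter, mem_sdiff, mem_tuples] at hg ⊢
        refine ⟨⟨fun i => hg.1 i.succ, hg.2.comp (Fin.succ_injective _)⟩, hg.1 0, fun hi => ?_⟩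
        obtain ⟨i, -, hi⟩ := mem_image.1 hi
        exact Fin.succ_ne_zero i (hg.2 hi)
      · intro x _
        simp
      · intro g _
        simp
      · intro x _
        simp only [tupleWeight, Fin.prod_univ_succ, Fin.cons_zero, Fin.cons_succ]
        ring
    rw [e, pow_succ]
    refine (mul_le_mul_of_nonneg_right (ih (Nat.le_of_succ_le hj) hm)
      (sub_nonneg.2 hm)).trans ?_
    rw [sum_mul]
    refine sum_le_sum fun f hf => mul_le_mul_of_nonneg_left ?_ (sq_nonneg _)
    have hsplit := sum_sdiff (f := fun p => r p ^ 2)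
      (show univ.image f ⊆ P from fun p hp => by
        obtain ⟨i, -, rfl⟩ := mem_image.1 hp
        exact mem_tuples.1 (mem_filter.1 hf).1 i)
    have hsmall : ∑ p ∈ univ.image f, r p ^ 2 ≤ m := by
      refine (sum_le_card_nsmul _ _ (1 : ℝ) fun p hp => ?_).trans ?_
      · obtain ⟨i, -, rfl⟩ := mem_image.1 hp
        exact pow_le_one₀ (hr _ (mem_tuples.1 (mem_filter.1 hf).1 i))
          (hr1 _ (mem_tuples.1 (mem_filter.1 hf).1 i))
      · rw [nsmul_one]
        exact Nat.cast_le.2 ((card_image_le.trans (by simp)).trans (Nat.le_of_succ_le hj))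
    rw [sqMass, ← hsplit]
    linarith

theorem le_diagPairs (hP : ∀ p ∈ P, p.Prime) (hr : ∀ p ∈ P, 0 ≤ r p) (hr1 : ∀ p ∈ P, r p ≤ 1)
    {m : ℕ} (hm : (m : ℝ) ≤ sqMass P r) :
    m ! * (sqMass P r - m) ^ m ≤ diagPairs P r m m := by
  refine (mul_le_mul_of_nonneg_left (pow_sub_le_sum_injective hr hr1 m hm) (by positivity)).trans ?_
  rw [diagPairs_self_eq hP, mul_sum]
  refine (sum_le_sum fun f hf => ?_).trans (sum_le_sum_of_subset_of_nonneg (filter_subset _ _)
    fun f _ _ => by positivity)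
  rw [mem_filter] at hf
  rw [mul_comm]
  refine mul_le_mul_of_nonneg_left (Nat.cast_le.2 ?_) (sq_nonneg _)
  rw [show m ! = (univ : Finset (Equiv.Perm (Fin m))).card by
    rw [card_univ, Fintype.card_perm, Fintype.card_fin]]
  refine card_le_card_of_injOn (fun σ : Equiv.Perm (Fin m) => f ∘ σ) (fun σ _ => ?_)
    fun σ _ τ _ he => ?_
  · exact mem_filter.2 ⟨mem_tuples.2 fun i => mem_tuples.1 hf.1 _, Equiv.prod_comp σ f⟩
  · exact Equiv.ext fun i => hf.2 (congrFun he i)

/-- **The moments.** -/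
theorem abs_integral_re_pow_sub_le (hP : ∀ p ∈ P, p.Prime) {B : ℕ} (hB : ∀ p ∈ P, p ≤ B)
    (hr : ∀ p ∈ P, 0 ≤ r p) (hr1 : ∀ p ∈ P, r p ≤ 1) (k : ℕ) (T : ℝ) :
    |(∫ t in T..2 * T, (primePoly P r t).re ^ k) -
      T * (∑ j ∈ range (k + 1), (k.choose j : ℝ) * diagPairs P r j (k - j)) / 2 ^ k| ≤
      4 * ((B : ℝ) + 1) ^ (2 * k) := by
  have hpt : ∀ t : ℝ, ((((primePoly P r t).re) ^ k : ℝ) : ℂ) = ∑ j ∈ range (k + 1),
      (((k.choose j : ℝ) / 2 ^ k : ℝ) : ℂ) *
        (primePoly P r t ^ j * conj (primePoly P r t) ^ (k - j)) := fun t => by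
    rw [Complex.ofReal_pow, Complex.re_eq_add_conj, div_pow, add_pow, sum_div]
    refine sum_congr rfl fun j _ => ?_
    push_cast
    ring
  rw [← Real.norm_eq_abs, ← Complex.norm_real, Complex.ofReal_sub,
    ← intervalIntegral.integral_ofReal]
  simp only [hpt]
  have hc : ∀ j : ℕ, Continuous fun t => (((k.choose j : ℝ) / 2 ^ k : ℝ) : ℂ) *
      (primePoly P r t ^ j * conj (primePoly P r t) ^ (k - j)) := fun j =>
    continuous_const.mul (((continuous_primePoly P r).pow j).mul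
      ((Complex.continuous_conj.comp (continuous_primePoly P r)).pow (k - j)))
  rw [intervalIntegral.integral_finsetSum fun j _ => (hc j).intervalIntegrable _ _]
  simp only [intervalIntegral.integral_const_mul]
  rw [mul_sum, sum_div, Complex.ofReal_sum, ← sum_sub_distrib]
  have hmass : ∑ p ∈ P, r p ≤ (B : ℝ) + 1 := by
    refine (sum_le_card_nsmul _ _ (1 : ℝ) hr1).trans ?_
    rw [nsmul_one]
    have : P.card ≤ B + 1 := by
      simpa using card_le_card (show P ⊆ Finset.range (B + 1) from fun p hp =>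
        mem_range.2 (Nat.lt_succ_of_le (hB p hp)))
    exact_mod_cast this
  have hB1 : (1 : ℝ) ≤ (B : ℝ) + 1 := by linarith [Nat.cast_nonneg (α := ℝ) B]
  refine (norm_sum_le_of_le _ (n := fun j => (k.choose j : ℝ) / 2 ^ k *
    (4 * ((B : ℝ) + 1) ^ (2 * k))) fun j hj => ?_).trans (le_of_eq ?_)
  · rw [show ((T * ((k.choose j : ℝ) * diagPairs P r j (k - j)) / 2 ^ k : ℝ) : ℂ) =
      (((k.choose j : ℝ) / 2 ^ k : ℝ) : ℂ) * ((T * diagPairs P r j (k - j) : ℝ) : ℂ) by
        push_cast; ring, ← mul_sub, norm_mul, Complex.norm_real,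
      Real.norm_of_nonneg (by positivity)]
    rw [mem_range, Nat.lt_succ_iff] at hj
    refine mul_le_mul_of_nonneg_left
      ((norm_integral_pow_mul_conj_sub_le hP hB hr _ _ T).trans ?_) (by positivity)
    rw [Nat.add_sub_cancel' hj, two_mul k, pow_add]
    have h1 : (B : ℝ) ^ j + 1 ≤ 2 * ((B : ℝ) + 1) ^ k := by
      have h2 : (B : ℝ) ^ j ≤ ((B : ℝ) + 1) ^ k :=
        (pow_le_pow_left₀ (Nat.cast_nonneg B) (by linarith) j).trans (pow_le_pow_right₀ hB1 hj)
      linarith [one_le_pow₀ (n := k) hB1]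
    calc 2 * ((B : ℝ) ^ j + 1) * (∑ p ∈ P, r p) ^ k
        ≤ 2 * (2 * ((B : ℝ) + 1) ^ k) * ((B : ℝ) + 1) ^ k :=
          mul_le_mul (by linarith) (pow_le_pow_left₀ (sum_nonneg hr) hmass k)
            (pow_nonneg (sum_nonneg hr) k) (by positivity)
      _ = _ := by ring
  · rw [← sum_mul, ← sum_div, ← Nat.cast_sum, Nat.sum_range_choose]
    push_cast
    rw [div_self (by positivity), one_mul]

end FA.SelbergCLT
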