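import Fermat.Agent.SelbergCLT.Mollifier
import Fermat.Agent.ErdosKac.Mertens
import Mathlib.Analysis.Calculus.MeanValue
import Mathlib.Analysis.Complex.Convex

/-!
# Euler products bounding the coefficients of the mollified series

A nonnegative function of the prime divisors, summed against `k^(-a)`, is at most its finite Euler
product. For one block of primes up to `P` the product is
`1 + O ((|z| log P)² (2 + |z| log P)^18)`, up to the truncation.
-/

set_option autoImplicit false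

noncomputable section

namespace FA.SelbergCLT

open Finset
open FA.ErdosKac (primesUpTo mem_primesUpTo recipSum exists_abs_recipSum_sub_le
  exists_abs_sum_log_div_sub_le)
open scoped Real

/-- `1 / (p^a - 1)`. -/
def qWeight (a : ℝ) (p : ℕ) : ℝ := ((p : ℝ) ^ a - 1)⁻¹

theorem two_le_rpow {p : ℕ} (hp : p.Prime) {a : ℝ} (ha : 1 ≤ a) : (2 : ℝ) ≤ (p : ℝ) ^ a :=
  le_trans (Nat.ofNat_le_cast.2 hp.two_le)
    (Real.self_le_rpow_of_one_le (Nat.one_le_cast.2 hp.one_le) ha)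

theorem qWeight_nonneg {p : ℕ} (hp : p.Prime) {a : ℝ} (ha : 1 ≤ a) : 0 ≤ qWeight a p :=
  inv_nonneg.2 (by linarith [two_le_rpow hp ha])

theorem qWeight_le {p : ℕ} (hp : p.Prime) {a : ℝ} (ha : 1 ≤ a) :
    qWeight a p ≤ 2 * (p : ℝ) ^ (-a) := by
  have h := two_le_rpow hp ha
  rw [qWeight, Real.rpow_neg (Nat.cast_nonneg p), ← div_eq_mul_inv, inv_eq_one_div,
    div_le_div_iff₀ (by linarith) (by linarith)]
  linarith

theorem qWeight_le_two_div {p : ℕ} (hp : p.Prime) {a : ℝ} (ha : 1 ≤ a) :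
    qWeight a p ≤ 2 / p := by
  refine (qWeight_le hp ha).trans ?_
  rw [Real.rpow_neg (Nat.cast_nonneg p), ← div_eq_mul_inv]
  exact div_le_div_of_nonneg_left zero_le_two (Nat.cast_pos.2 hp.pos)
    (Real.self_le_rpow_of_one_le (Nat.one_le_cast.2 hp.one_le) ha)

theorem sum_geometric_le {p : ℕ} (hp : p.Prime) {a : ℝ} (ha : 1 ≤ a) (N : ℕ) :
    ∑ j ∈ Icc 1 N, ((p : ℝ) ^ (-a)) ^ j ≤ qWeight a p := by
  have hy := two_le_rpow hp ha
  obtain ⟨y, hydef⟩ : ∃ y, y = (p : ℝ) ^ a := ⟨_, rfl⟩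
  rw [qWeight, Real.rpow_neg (Nat.cast_nonneg p), ← hydef]
  rw [← hydef] at hy
  suffices h : ∀ N, (y - 1) * ∑ j ∈ Icc 1 N, (y⁻¹) ^ j = 1 - (y⁻¹) ^ N by
    rw [inv_eq_one_div (y - 1), le_div_iff₀ (by linarith), mul_comm, h]
    linarith [show (0 : ℝ) ≤ y⁻¹ ^ N by positivity]
  intro N
  induction N with
  | zero => simp
  | succ N ih =>
    rw [sum_Icc_succ_top (by omega : 1 ≤ N + 1), mul_add, ih]
    have : (y - 1) * y⁻¹ = 1 - y⁻¹ := by
      rw [sub_mul, mul_inv_cancel₀ (by linarith : y ≠ 0), one_mul]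
    rw [pow_succ', ← mul_assoc, this]
    ring

/-- **The sum over integers with given prime divisors.** -/
theorem sum_radical_fiber_le {a : ℝ} (ha : 1 ≤ a) {A : Finset ℕ} (hA : ∀ p ∈ A, p.Prime) (N : ℕ) :
    ∑ k ∈ (Icc 1 N).filter (fun k => k.primeFactors = A), (k : ℝ) ^ (-a) ≤
      ∏ p ∈ A, qWeight a p := by
  refine le_trans ?_ (prod_le_prod (fun p hp => sum_nonneg fun j _ => by positivity)
    fun p hp => sum_geometric_le (hA p hp) ha N)
  rw [prod_sum]
  refine le_trans (le_of_eq ?_) (sum_le_sum_of_subset_of_nonneg (f := fun e =>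
      ∏ x ∈ A.attach, ((x.1 : ℝ) ^ (-a)) ^ (e x.1 x.2))
    (s := ((Icc 1 N).filter fun k => k.primeFactors = A).image fun k =>
      (fun (p : ℕ) (_ : p ∈ A) => k.factorization p)) ?_ fun e _ _ => by positivity)
  · rw [sum_image]
    · refine sum_congr rfl fun k hk => ?_
      rw [mem_filter, mem_Icc] at hk
      have hk0 : k ≠ 0 := by omega
      rw [prod_attach A fun p => ((p : ℝ) ^ (-a)) ^ k.factorization p]
      conv_lhs => rw [← Nat.prod_factorization_pow_eq_self hk0]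
      rw [Nat.prod_factorization_eq_prod_primeFactors, hk.2, Nat.cast_prod,
        ← Real.finsetProd_rpow _ _ fun p _ => by positivity]
      refine prod_congr rfl fun p _ => ?_
      rw [Nat.cast_pow, ← Real.rpow_natCast, ← Real.rpow_natCast, ← Real.rpow_mul (by positivity),
        ← Real.rpow_mul (by positivity), mul_comm]
    · intro k hk l hl h
      rw [mem_coe, mem_filter, mem_Icc] at hk hl
      refine Nat.eq_of_factorization_eq (by omega) (by omega) fun p => ?_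
      by_cases hp : p ∈ A
      · exact congrFun (congrFun h p) hp
      · rw [Finsupp.notMem_support_iff.1 (by rwa [Nat.support_factorization, hk.2]),
          Finsupp.notMem_support_iff.1 (by rwa [Nat.support_factorization, hl.2])]
  · intro e he
    obtain ⟨k, hk, rfl⟩ := mem_image.1 he
    rw [mem_filter, mem_Icc] at hk
    refine mem_pi.2 fun p hp => mem_Icc.2 ⟨?_, ?_⟩
    · exact Nat.pos_of_ne_zero (Finsupp.mem_support_iff.1
        (by rw [Nat.support_factorization, hk.2]; exact hp))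
    · exact ((Nat.factorization_lt p (by omega : k ≠ 0)).le).trans hk.1.2

/-- **A function of the prime divisors.** -/
theorem sum_radical_le {a : ℝ} (ha : 1 ≤ a) {S : Finset ℕ} (hS : ∀ p ∈ S, p.Prime) {N : ℕ}
    (hN : ∀ p, p.Prime → p ≤ N → p ∈ S) {H : Finset ℕ → ℝ} (hH : ∀ A, 0 ≤ H A) :
    ∑ k ∈ Icc 1 N, H k.primeFactors * (k : ℝ) ^ (-a) ≤
      ∑ A ∈ S.powerset, H A * ∏ p ∈ A, qWeight a p := by
  have hmap : ∀ k ∈ Icc 1 N, k.primeFactors ∈ S.powerset := fun k hk =>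
    mem_powerset.2 fun p hp => hN p (Nat.prime_of_mem_primeFactors hp)
      ((Nat.le_of_mem_primeFactors hp).trans (mem_Icc.1 hk).2)
  rw [← sum_fiberwise_of_maps_to hmap]
  refine sum_le_sum fun A hA => ?_
  rw [sum_congr rfl fun k hk => by rw [(mem_filter.1 hk).2], ← mul_sum]
  exact mul_le_mul_of_nonneg_left
    (sum_radical_fiber_le ha (fun p hp => hS p (mem_powerset.1 hA hp)) N) (hH A)

theorem sum_powerset_disjUnion {S T : Finset ℕ} (h : Disjoint S T) (g : Finset ℕ → ℝ) :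
    ∑ A ∈ (S ∪ T).powerset, g A = ∑ B ∈ S.powerset, ∑ C ∈ T.powerset, g (B ∪ C) := by
  rw [← sum_product']
  refine sum_nbij' (fun A => (A ∩ S, A ∩ T)) (fun x => x.1 ∪ x.2) ?_ ?_ ?_ ?_ ?_
  · intro A _
    simp only [mem_product, mem_powerset]
    exact ⟨inter_subset_right, inter_subset_right⟩
  · intro x hx
    simp only [mem_product, mem_powerset] at hx ⊢
    exact union_subset_union hx.1 hx.2
  · intro A hA
    simp only [mem_powerset] at hA
    show A ∩ S ∪ A ∩ T = A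
    rw [← inter_union_distrib_left, inter_eq_left.2 hA]
  · intro x hx
    simp only [mem_product, mem_powerset] at hx
    have h1 : x.2 ∩ S = ∅ := disjoint_iff_inter_eq_empty.1 (disjoint_of_subset_left hx.2 h.symm)
    have h2 : x.1 ∩ T = ∅ := disjoint_iff_inter_eq_empty.1 (disjoint_of_subset_left hx.1 h)
    show ((x.1 ∪ x.2) ∩ S, (x.1 ∪ x.2) ∩ T) = x
    rw [union_inter_distrib_right, union_inter_distrib_right, inter_eq_left.2 hx.1,
      inter_eq_left.2 hx.2, h1, h2, union_empty, empty_union]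
  · intro A hA
    simp only [mem_powerset] at hA
    show g A = g (A ∩ S ∪ A ∩ T)
    rw [← inter_union_distrib_left, inter_eq_left.2 hA]

/-- **Three blocks.** -/
theorem sum_three_blocks_le {a : ℝ} (ha : 1 ≤ a) {S₁ S₂ S₃ : Finset ℕ} (h₁₂ : Disjoint S₁ S₂)
    (h₃ : Disjoint (S₁ ∪ S₂) S₃) (hS : ∀ p ∈ S₁ ∪ S₂ ∪ S₃, p.Prime) {N : ℕ}
    (hN : ∀ p, p.Prime → p ≤ N → p ∈ S₁ ∪ S₂ ∪ S₃) {u v : Finset ℕ → ℝ} (hu : ∀ A, 0 ≤ u A)
    (hv : ∀ A, 0 ≤ v A) :
    ∑ k ∈ Icc 1 N, u (S₁ ∩ k.primeFactors) * v (S₂ ∩ k.primeFactors) * (k : ℝ) ^ (-a) ≤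
      (∑ A ∈ S₁.powerset, u A * ∏ p ∈ A, qWeight a p) *
        (∑ B ∈ S₂.powerset, v B * ∏ p ∈ B, qWeight a p) * ∏ p ∈ S₃, (1 + qWeight a p) := by
  refine (sum_radical_le ha hS hN (H := fun A => u (S₁ ∩ A) * v (S₂ ∩ A))
    fun A => mul_nonneg (hu _) (hv _)).trans (le_of_eq ?_)
  rw [sum_powerset_disjUnion h₃, sum_powerset_disjUnion h₁₂, prod_one_add, sum_mul_sum, sum_mul]
  refine sum_congr rfl fun A hA => ?_
  rw [sum_mul]
  refine sum_congr rfl fun B hB => ?_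
  rw [mul_sum]
  refine sum_congr rfl fun C hC => ?_
  rw [mem_powerset] at hA hB hC
  have hAB : Disjoint A B := disjoint_of_subset_left hA (disjoint_of_subset_right hB h₁₂)
  have hC' : Disjoint (A ∪ B) C :=
    disjoint_of_subset_left (union_subset_union hA hB) (disjoint_of_subset_right hC h₃)
  have e1 : S₁ ∩ B = ∅ := disjoint_iff_inter_eq_empty.1 (disjoint_of_subset_right hB h₁₂)
  have e2 : S₁ ∩ C = ∅ := disjoint_iff_inter_eq_empty.1
    (disjoint_of_subset_left subset_union_left (disjoint_of_subset_right hC h₃))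
  have e3 : S₂ ∩ A = ∅ := disjoint_iff_inter_eq_empty.1 (disjoint_of_subset_right hA h₁₂.symm)
  have e4 : S₂ ∩ C = ∅ := disjoint_iff_inter_eq_empty.1
    (disjoint_of_subset_left subset_union_right (disjoint_of_subset_right hC h₃))
  rw [inter_union_distrib_left, inter_union_distrib_left, inter_union_distrib_left,
    inter_union_distrib_left, inter_eq_right.2 hA, inter_eq_right.2 hB, e1, e2, e3, e4,
    union_empty, union_empty, empty_union, union_empty, prod_union hC', prod_union hAB]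
  ring

theorem norm_natCast_cpow_le_two {p : ℕ} (hp : 0 < p) {z : ℂ}
    (hz : z.re * Real.log p ≤ 1 / 2) : ‖(p : ℂ) ^ z‖ ≤ 2 := by
  rw [Complex.norm_natCast_cpow_of_pos hp, Real.rpow_def_of_pos (Nat.cast_pos.2 hp)]
  refine (Real.exp_le_exp.2 (show Real.log p * z.re ≤ 1 / 2 by linarith)).trans ?_
  have h := Real.exp_half 1
  have h1 : Real.exp 1 ≤ 4 := by linarith [Real.exp_one_lt_d9]
  calc Real.exp (1 / 2) = √(Real.exp 1) := h
    _ ≤ √4 := Real.sqrt_le_sqrt h1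
    _ = 2 := by rw [show (4 : ℝ) = 2 ^ 2 by norm_num, Real.sqrt_sq zero_le_two]

/-- `min 9 (4 |z|² log² p)`. -/
def xBound (Z : ℝ) (p : ℕ) : ℝ := min 9 (4 * Z ^ 2 * Real.log p ^ 2)

theorem xBound_nonneg (Z : ℝ) (p : ℕ) : 0 ≤ xBound Z p := le_min (by norm_num) (by positivity)

theorem norm_one_sub_cpow_sq_le {p : ℕ} (hp : 0 < p) {z : ℂ}
    (hz : z.re * Real.log p ≤ 1 / 2) : ‖1 - (p : ℂ) ^ z‖ ^ 2 ≤ xBound ‖z‖ p := by
  have h2 := norm_natCast_cpow_le_two hp hz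
  refine le_min ?_ ?_
  · calc ‖1 - (p : ℂ) ^ z‖ ^ 2 ≤ 3 ^ 2 := pow_le_pow_left₀ (norm_nonneg _)
          ((norm_sub_le _ _).trans (by rw [norm_one]; linarith)) 2
      _ = 9 := by norm_num
  · have hlog : (Complex.log p) = (Real.log p : ℂ) := (Complex.natCast_log).symm
    have hmem : (Real.log p : ℂ) * z ∈ {c : ℂ | c.re ≤ 1 / 2} := by
      rw [Set.mem_ofPred_eq, Complex.re_ofReal_mul]
      linarith
    have h := (convex_halfSpace_re_le (1 / 2 : ℝ)).norm_image_sub_le_of_norm_hasDerivWithin_le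
      (f := Complex.exp) (f' := Complex.exp) (C := 2)
      (fun x _ => (Complex.hasDerivAt_exp x).hasDerivWithinAt) (fun x hx => ?_)
      (show (0 : ℂ) ∈ {c : ℂ | c.re ≤ 1 / 2} by norm_num) hmem
    · rw [Complex.exp_zero, sub_zero, norm_mul, Complex.norm_real, Real.norm_eq_abs,
        abs_of_nonneg (Real.log_natCast_nonneg p)] at h
      rw [Complex.cpow_def_of_ne_zero (Nat.cast_ne_zero.2 hp.ne'), hlog, norm_sub_rev]
      refine (pow_le_pow_left₀ (norm_nonneg _) h 2).trans (le_of_eq ?_)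
      ring
    · rw [Complex.norm_exp]
      rw [Set.mem_ofPred_eq] at hx
      refine (Real.exp_le_exp.2 hx).trans ?_
      rw [Real.exp_half 1, show (2 : ℝ) = √(2 ^ 2) by rw [Real.sqrt_sq zero_le_two]]
      exact Real.sqrt_le_sqrt (by linarith [Real.exp_one_lt_d9])

theorem one_add_sum_le_exp {S : Finset ℕ} {w : ℕ → ℝ} (hw : ∀ p ∈ S, 0 ≤ w p) :
    ∏ p ∈ S, (1 + w p) ≤ Real.exp (∑ p ∈ S, w p) := by
  rw [Real.exp_sum]
  exact prod_le_prod (fun p hp => by linarith [hw p hp]) fun p _ =>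
    (add_comm 1 (w p)).trans_le (Real.add_one_le_exp _)

/-- **One block, truncated.** -/
theorem block_sum_le {S : Finset ℕ} (hS : ∀ p ∈ S, p.Prime) {a : ℝ} (ha : 1 ≤ a) {z : ℂ}
    (hz : ∀ p ∈ S, z.re * Real.log p ≤ 1 / 2) (K : ℕ) :
    ∑ A ∈ S.powerset, ‖trunc A K (fun p => (p : ℂ) ^ z)‖ ^ 2 * ∏ p ∈ A, qWeight a p ≤
      1 + 2 * (Real.exp (∑ p ∈ S, xBound ‖z‖ p * (2 / p)) - 1) +
        2 / 4 ^ K * Real.exp (50 * ∑ p ∈ S, (p : ℝ)⁻¹) := by
  have hq : ∀ p ∈ S, 0 ≤ qWeight a p := fun p hp => qWeight_nonneg (hS p hp) ha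
  refine (sum_le_sum (g := fun A : Finset ℕ => (if A = ∅ then 1 - 2 - 2 / 4 ^ K else 0) +
    (2 * ∏ p ∈ A, ‖1 - (p : ℂ) ^ z‖ ^ 2 * qWeight a p) +
      2 / 4 ^ K * ∏ p ∈ A, 25 * qWeight a p) fun A hA => ?_).trans ?_
  · rw [mem_powerset] at hA
    rcases eq_empty_or_nonempty A with rfl | hne
    · simp [trunc_empty]
      ring_nf
      rfl
    rw [if_neg (nonempty_iff_ne_empty.1 hne), zero_add, prod_mul_distrib, prod_mul_distrib,
      ← mul_assoc, ← mul_assoc, ← add_mul]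
    refine mul_le_mul_of_nonneg_right ?_ (prod_nonneg fun p hp => hq p (hA hp))
    have hE := norm_trunc_sub_prod_le A K (x := fun p => (p : ℂ) ^ z)
      fun p hp => norm_natCast_cpow_le_two (hS p (hA hp)).pos (hz p (hA hp))
    obtain ⟨U, hU⟩ : ∃ U, U = trunc A K (fun p => (p : ℂ) ^ z) := ⟨_, rfl⟩
    obtain ⟨F, hF⟩ : ∃ F, F = ∏ p ∈ A, (1 - (p : ℂ) ^ z) := ⟨_, rfl⟩
    rw [← hU, ← hF] at hE
    rw [← hU, prod_pow, ← norm_prod, ← hF, prod_const]
    have h1 : ‖U‖ ≤ ‖F‖ + 5 ^ A.card / 2 ^ K :=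
      (norm_le_norm_add_norm_sub' U F).trans (add_le_add le_rfl hE)
    have e : ((5 : ℝ) ^ A.card / 2 ^ K) ^ 2 = 25 ^ A.card / 4 ^ K := by
      rw [div_pow, ← pow_mul, ← pow_mul, mul_comm, mul_comm K, pow_mul, pow_mul]
      norm_num
    refine (pow_le_pow_left₀ (norm_nonneg _) h1 2).trans ?_
    rw [show 2 / 4 ^ K * (25 : ℝ) ^ A.card = 2 * (25 ^ A.card / 4 ^ K) by ring, ← e]
    nlinarith [sq_nonneg (‖F‖ - 5 ^ A.card / 2 ^ K)]
  rw [sum_add_distrib, sum_add_distrib, sum_ite_eq' _ _ fun _ => _,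
    if_pos (empty_mem_powerset S), ← mul_sum, ← mul_sum, ← prod_one_add, ← prod_one_add]
  have h1 : ∏ p ∈ S, (1 + ‖1 - (p : ℂ) ^ z‖ ^ 2 * qWeight a p) ≤
      Real.exp (∑ p ∈ S, xBound ‖z‖ p * (2 / p)) :=
    (one_add_sum_le_exp fun p hp => mul_nonneg (sq_nonneg _) (hq p hp)).trans
      (Real.exp_le_exp.2 (sum_le_sum fun p hp => mul_le_mul
        (norm_one_sub_cpow_sq_le (hS p hp).pos (hz p hp)) (qWeight_le_two_div (hS p hp) ha)
        (hq p hp) (xBound_nonneg _ _)))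
  have h2 : ∏ p ∈ S, (1 + 25 * qWeight a p) ≤ Real.exp (50 * ∑ p ∈ S, (p : ℝ)⁻¹) := by
    refine (one_add_sum_le_exp fun p hp => mul_nonneg (by norm_num) (hq p hp)).trans
      (Real.exp_le_exp.2 ?_)
    rw [mul_sum]
    refine sum_le_sum fun p hp => ?_
    linarith [qWeight_le_two_div (hS p hp) ha, show (2 : ℝ) / p = 2 * (p : ℝ)⁻¹ from rfl]
  have h3 : (0 : ℝ) ≤ 2 / 4 ^ K := by positivity
  nlinarith [mul_le_mul_of_nonneg_left h2 h3]

theorem exists_recipSum_sub_le : ∃ C, 0 ≤ C ∧ ∀ Q P : ℕ, 2 ≤ Q → Q ≤ P →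
    ∑ p ∈ primesUpTo P \ primesUpTo Q, (p : ℝ)⁻¹ ≤
      Real.log (Real.log P / Real.log Q) + C := by
  obtain ⟨C, hC⟩ := exists_abs_recipSum_sub_le
  refine ⟨2 * |C|, by positivity, fun Q P hQ hQP => ?_⟩
  have hsub : primesUpTo Q ⊆ primesUpTo P := fun p hp =>
    mem_primesUpTo.2 ⟨(mem_primesUpTo.1 hp).1, (mem_primesUpTo.1 hp).2.trans hQP⟩
  rw [Finset.sum_sdiff_eq_sub hsub,
    Real.log_div (Real.log_pos (Nat.one_lt_cast.2 (by omega))).ne'
      (Real.log_pos (Nat.one_lt_cast.2 (by omega))).ne']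
  show recipSum P - recipSum Q ≤ _
  linarith [abs_le.1 (hC P (hQ.trans hQP)), abs_le.1 (hC Q hQ), le_abs_self C]

/-- **The exponent of one block.** -/
theorem exists_xBound_sum_le : ∃ C, 1 ≤ C ∧ ∀ (P : ℕ) (Z : ℝ), 2 ≤ P → 0 ≤ Z →
    ∑ p ∈ primesUpTo P, xBound Z p * (2 / p) ≤ C * (Z * Real.log P) ^ 2 ∧
    Real.exp (∑ p ∈ primesUpTo P, xBound Z p * (2 / p)) ≤ C * (2 + Z * Real.log P) ^ 18 := by
  obtain ⟨C₀, hC₀⟩ := exists_abs_sum_log_div_sub_le
  obtain ⟨C₁, hC₁0, hC₁⟩ := exists_recipSum_sub_le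
  obtain ⟨C₂, hC₂⟩ := exists_abs_recipSum_sub_le
  have hl2 := Real.log_pos (show (1 : ℝ) < 2 by norm_num)
  obtain ⟨D, hD⟩ : ∃ D, D = 8 * (1 + |C₀| / Real.log 2) := ⟨_, rfl⟩
  have hD0 : 0 ≤ D := by rw [hD]; positivity
  have hsq : ∀ (P : ℕ) (Z : ℝ), 2 ≤ P →
      ∑ p ∈ primesUpTo P, xBound Z p * (2 / p) ≤ D * (Z * Real.log P) ^ 2 := fun P Z hP => by
    have hlP : Real.log 2 ≤ Real.log P := Real.log_le_log two_pos (Nat.ofNat_le_cast.2 hP)
    have h0 : ∑ p ∈ primesUpTo P, Real.log p / p ≤ (1 + |C₀| / Real.log 2) * Real.log P := by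
      have h := (abs_le.1 (hC₀ P (by omega))).2
      have h' : |C₀| ≤ |C₀| / Real.log 2 * Real.log P := by
        rw [div_mul_eq_mul_div, le_div_iff₀ hl2]
        exact mul_le_mul_of_nonneg_left hlP (abs_nonneg _)
      linarith [le_abs_self C₀]
    refine (sum_le_sum (g := fun p : ℕ => 8 * Z ^ 2 * Real.log P * (Real.log p / p))
      fun p hp => ?_).trans ?_
    · rw [mem_primesUpTo] at hp
      refine (mul_le_mul_of_nonneg_right (min_le_right _ _) (by positivity)).trans ?_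
      have hlp : Real.log p ≤ Real.log P :=
        Real.log_le_log (Nat.cast_pos.2 hp.1.pos) (Nat.cast_le.2 hp.2)
      rw [show 4 * Z ^ 2 * Real.log p ^ 2 * (2 / p) = 8 * Z ^ 2 * Real.log p * (Real.log p / p) by
        ring]
      exact mul_le_mul_of_nonneg_right (mul_le_mul_of_nonneg_left hlp (by positivity))
        (div_nonneg (Real.log_natCast_nonneg p) (Nat.cast_nonneg p))
    · rw [← mul_sum]
      refine (mul_le_mul_of_nonneg_left h0 (by positivity)).trans (le_of_eq ?_)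
      rw [hD]
      ring
  obtain ⟨E, hE⟩ : ∃ E, E = D + 18 * (|C₁| + |C₂| + 4) := ⟨_, rfl⟩
  refine ⟨max (max D (Real.exp E)) 1, le_max_right _ _, fun P Z hP hZ => ⟨(hsq P Z hP).trans
    (mul_le_mul_of_nonneg_right ((le_max_left D _).trans (le_max_left _ _)) (sq_nonneg _)), ?_⟩⟩
  have hlP : 0 < Real.log P := Real.log_pos (Nat.one_lt_cast.2 (by omega))
  have hX : 2 ≤ 2 + Z * Real.log P := by linarith [mul_nonneg hZ hlP.le]
  suffices h : ∑ p ∈ primesUpTo P, xBound Z p * (2 / p) ≤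
      E + 18 * Real.log (2 + Z * Real.log P) by
    refine ((Real.exp_le_exp.2 h).trans_eq ?_).trans (mul_le_mul_of_nonneg_right
      ((le_max_right D _).trans (le_max_left _ _)) (by positivity))
    rw [Real.exp_add, ← Real.exp_log (pow_pos (by linarith : (0 : ℝ) < 2 + Z * Real.log P) 18),
      Real.log_pow]
    norm_num
  have hlog0 : 0 ≤ Real.log (2 + Z * Real.log P) := Real.log_nonneg (by linarith)
  rcases le_or_gt (Z * Real.log P) 1 with hle | hgt
  · refine (hsq P Z hP).trans ?_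
    have h2 := mul_le_mul_of_nonneg_left
      (pow_le_one₀ (mul_nonneg hZ hlP.le) hle (n := 2)) hD0
    have : 0 ≤ |C₁| + |C₂| := by positivity
    linarith
  have hZ0 : 0 < Z := by
    rcases hZ.lt_or_eq with h | h
    · exact h
    · rw [← h] at hgt
      norm_num at hgt
  have hnine : ∀ S ⊆ primesUpTo P,
      ∑ p ∈ S, xBound Z p * (2 / p) ≤ 18 * ∑ p ∈ S, (p : ℝ)⁻¹ := fun S _ => by
    rw [mul_sum]
    refine sum_le_sum fun p _ => (mul_le_mul_of_nonneg_right (min_le_left _ _)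
      (by positivity)).trans (le_of_eq ?_)
    ring
  rcases le_or_gt (Real.exp (1 / Z)) 2 with hbig | hsmall
  · -- every prime counts
    refine (hnine _ Subset.rfl).trans ?_
    have h1 : 1 / Z ≤ 1 := by
      have := (Real.le_log_iff_exp_le two_pos).2 hbig
      linarith [Real.log_two_lt_d9]
    have h2 : Real.log P ≤ Z * Real.log P := by
      rw [div_le_one hZ0] at h1
      exact le_mul_of_one_le_left hlP.le h1
    have h3 := Real.log_le_log hlP (show Real.log P ≤ 2 + Z * Real.log P by linarith)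
    have h4 := (abs_le.1 (hC₂ P hP)).2
    show 18 * recipSum P ≤ _
    linarith [le_abs_self C₂, abs_nonneg C₁]
  obtain ⟨Q, hQ⟩ : ∃ Q : ℕ, Q = ⌊Real.exp (1 / Z)⌋₊ := ⟨_, rfl⟩
  have hQ2 : 2 ≤ Q := hQ ▸ Nat.le_floor hsmall.le
  have hQle : (Q : ℝ) ≤ Real.exp (1 / Z) := hQ ▸ Nat.floor_le (Real.exp_pos _).le
  have hQlt : Real.exp (1 / Z) < (Q : ℝ) + 1 := hQ ▸ Nat.lt_floor_add_one _
  have hQP : Q ≤ P := by
    refine Nat.cast_le.1 (hQle.trans ?_ : (Q : ℝ) ≤ P)
    refine (Real.exp_le_exp.2 ?_).trans_eq (Real.exp_log (Nat.cast_pos.2 (by omega)))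
    rw [div_le_iff₀ hZ0, mul_comm]
    exact hgt.le
  have hlQ : Real.log Q ≤ 1 / Z := by
    refine (Real.log_le_log (Nat.cast_pos.2 (by omega)) hQle).trans_eq (Real.log_exp _)
  have hlQ2 : 1 / (2 * Z) ≤ Real.log Q := by
    have hq : (2 : ℝ) ≤ Q := Nat.ofNat_le_cast.2 hQ2
    have h := Real.log_le_log (Real.exp_pos _) (show Real.exp (1 / Z) ≤ (Q : ℝ) ^ 2 by nlinarith)
    rw [Real.log_exp, Real.log_pow] at h
    push_cast at h
    rw [show 1 / (2 * Z) = 1 / Z / 2 by field_simp]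
    linarith
  have hsub : primesUpTo Q ⊆ primesUpTo P := fun p hp =>
    mem_primesUpTo.2 ⟨(mem_primesUpTo.1 hp).1, (mem_primesUpTo.1 hp).2.trans hQP⟩
  have hlow : ∑ p ∈ primesUpTo Q, xBound Z p * (2 / p) ≤ D := by
    refine (hsq Q Z hQ2).trans (mul_le_of_le_one_right hD0 (pow_le_one₀
      (mul_nonneg hZ (Real.log_natCast_nonneg Q)) ?_))
    rw [le_div_iff₀ hZ0, mul_comm] at hlQ
    exact hlQ
  have hhigh := (hnine (primesUpTo P \ primesUpTo Q) sdiff_subset).trans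
    (mul_le_mul_of_nonneg_left (hC₁ Q P hQ2 hQP) (by norm_num))
  have hratio : Real.log P / Real.log Q ≤ 2 * (2 + Z * Real.log P) := by
    refine (div_le_div_of_nonneg_left hlP.le (by positivity) hlQ2).trans ?_
    rw [div_div_eq_mul_div, div_one]
    linarith
  have hr := Real.log_le_log (div_pos hlP (lt_of_lt_of_le (by positivity) hlQ2)) hratio
  rw [Real.log_mul two_ne_zero (by positivity)] at hr
  rw [← sum_sdiff hsub]
  linarith [le_abs_self C₁, abs_nonneg C₂, Real.log_two_lt_d9]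

end FA.SelbergCLT
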