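import Mathlib.MeasureTheory.Measure.LevyConvergence
import Mathlib.MeasureTheory.Measure.Portmanteau
import Mathlib.Probability.Distributions.Gaussian.Real
import Mathlib.Analysis.SpecialFunctions.Trigonometric.Bounds
import Mathlib.MeasureTheory.Integral.IntervalIntegral.Basic
import Mathlib.MeasureTheory.Integral.Lebesgue.Markov
import Mathlib.Analysis.Calculus.MeanValue

/-!
# Limit distributions over `[T, 2T]`

Convergence of characteristic means to `exp (-u²/2)` passes to families that are close in measure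
and gives the Gaussian distribution function.
-/

set_option autoImplicit false

noncomputable section

namespace FA.SelbergCLT

open Filter MeasureTheory
open scoped Topology Real Nat ENNReal

/-- `(1 / T) ∫ exp (i u F) ` over `[T, 2T]`. -/
def charMean (u : ℝ) (F : ℝ → ℝ → ℝ) (T : ℝ) : ℂ :=
  (∫ t in T..2 * T, Complex.exp ((u * F T t : ℝ) * Complex.I)) / (T : ℂ)

/-- The characteristic means tend to those of the standard Gaussian. -/
def GaussianLimit (F : ℝ → ℝ → ℝ) : Prop :=
  ∀ u : ℝ, Tendsto (charMean u F) atTop (𝓝 (Complex.exp (-(u : ℂ) ^ 2 / 2)))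

/-- Two families are close in measure. -/
def Close (F G : ℝ → ℝ → ℝ) : Prop :=
  ∀ ε : ℝ, 0 < ε → ∀ᶠ T in atTop,
    volume {t ∈ Set.Icc T (2 * T) | ε < |F T t - G T t|} ≤ ENNReal.ofReal (ε * T)

theorem Close.symm {F G : ℝ → ℝ → ℝ} (h : Close F G) : Close G F := fun ε hε => by
  simpa only [abs_sub_comm] using h ε hε

theorem Close.trans {F G H : ℝ → ℝ → ℝ} (h₁ : Close F G) (h₂ : Close G H) : Close F H :=
  fun ε hε => by
    filter_upwards [h₁ (ε / 2) (half_pos hε), h₂ (ε / 2) (half_pos hε), eventually_ge_atTop 0]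
      with T hT₁ hT₂ hT0
    refine ((measure_mono ?_).trans (measure_union_le _ _)).trans
      ((add_le_add hT₁ hT₂).trans_eq ?_)
    · intro t ht
      by_contra hc
      simp only [Set.mem_union, Set.mem_ofPred_eq, not_or, not_and, not_lt] at hc
      have := abs_sub_le (F T t) (G T t) (H T t)
      linarith [ht.2, hc.1 ht.1, hc.2 ht.1]
    · rw [← ENNReal.ofReal_add (by positivity) (by positivity)]
      congr 1
      ring

/-- A uniform bound off a set of small measure. -/
theorem close_of_exceptional {F G : ℝ → ℝ → ℝ} {e : ℝ → ℝ} (he : Tendsto e atTop (𝓝 0))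
    (h : ∀ ε : ℝ, 0 < ε → ∀ᶠ T in atTop, ∃ E : Set ℝ, volume E ≤ ENNReal.ofReal (ε * T) ∧
      ∀ t ∈ Set.Icc T (2 * T), t ∉ E → |F T t - G T t| ≤ e T) : Close F G := fun ε hε => by
  filter_upwards [h ε hε, he.eventually_le_const hε] with T hT he
  obtain ⟨E, hE, hb⟩ := hT
  refine (measure_mono fun t ht => ?_).trans hE
  by_contra hc
  exact absurd ((hb t ht.1 hc).trans he) (not_le.2 ht.2)

/-- Closeness from the first moment. -/
theorem close_of_lintegral {F G : ℝ → ℝ → ℝ} (hF : ∀ T, Measurable (F T))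
    (hG : ∀ T, Measurable (G T)) {e : ℝ → ℝ} (he : Tendsto e atTop (𝓝 0))
    (h : ∀ᶠ T in atTop,
      ∫⁻ t in Set.Icc T (2 * T), ENNReal.ofReal |F T t - G T t| ≤ ENNReal.ofReal (e T * T)) :
    Close F G := fun ε hε => by
  filter_upwards [h, he.eventually_le_const (mul_pos hε hε), eventually_gt_atTop 0]
    with T hT heT hT0
  have hM := mul_meas_ge_le_lintegral₀ (μ := volume.restrict (Set.Icc T (2 * T)))
    (f := fun t => ENNReal.ofReal |F T t - G T t|)
    (((hF T).sub (hG T)).norm.ennreal_ofReal).aemeasurable (ENNReal.ofReal ε)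
  refine le_trans ?_ (le_trans (ENNReal.le_div_iff_mul_le (Or.inl ?_) (Or.inl ENNReal.ofReal_ne_top)
    |>.2 ((mul_comm _ _).trans_le (hM.trans hT))) ?_)
  · rw [Measure.restrict_apply' measurableSet_Icc]
    exact measure_mono fun t ht => ⟨ENNReal.ofReal_le_ofReal ht.2.le, ht.1⟩
  · simpa using hε
  · rw [← ENNReal.ofReal_div_of_pos hε]
    refine ENNReal.ofReal_le_ofReal ?_
    rw [div_le_iff₀ hε]
    nlinarith

theorem norm_exp_sub_exp_le (a b : ℝ) :
    ‖Complex.exp ((a : ℂ) * Complex.I) - Complex.exp ((b : ℂ) * Complex.I)‖ ≤ |a - b| := by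
  rw [show Complex.exp ((a : ℂ) * Complex.I) - Complex.exp ((b : ℂ) * Complex.I) =
    Complex.exp ((b : ℂ) * Complex.I) *
      (Complex.exp (Complex.I * ((a - b : ℝ) : ℂ)) - 1) by
        rw [mul_sub, ← Complex.exp_add, mul_one]; push_cast; ring_nf,
    norm_mul, Complex.norm_exp_ofReal_mul_I, one_mul, ← Real.norm_eq_abs]
  exact Real.norm_exp_I_mul_ofReal_sub_one_le

theorem intervalIntegrable_exp {F : ℝ → ℝ} (hF : Measurable F) (u a b : ℝ) :
    IntervalIntegrable (fun t => Complex.exp ((u * F t : ℝ) * Complex.I)) volume a b := by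
  refine (intervalIntegrable_const (c := (1 : ℝ))).mono_fun'
    (Complex.measurable_exp.comp
      ((Complex.measurable_ofReal.comp (hF.const_mul u)).mul_const _)).aestronglyMeasurable
    (Eventually.of_forall fun t => ?_)
  simp only
  rw [Complex.norm_exp_ofReal_mul_I]

theorem Close.gaussianLimit {F G : ℝ → ℝ → ℝ} (h : Close F G) (hFm : ∀ T, Measurable (F T))
    (hGm : ∀ T, Measurable (G T)) (hF : GaussianLimit F) : GaussianLimit G := fun u => by
  refine (hF u).congr_dist (Metric.tendsto_nhds.2 fun η hη => ?_)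
  obtain ⟨ε, hε, hsmall⟩ : ∃ ε : ℝ, 0 < ε ∧ (|u| + 2) * ε < η := by
    refine ⟨η / (2 * (|u| + 2)), by positivity, ?_⟩
    field_simp
    linarith
  filter_upwards [h ε hε, eventually_gt_atTop 0] with T hT hT0
  rw [Real.dist_0_eq_abs, abs_of_nonneg dist_nonneg, dist_eq_norm, charMean, charMean, ← sub_div,
    ← intervalIntegral.integral_sub (intervalIntegrable_exp (hFm T) u _ _)
      (intervalIntegrable_exp (hGm T) u _ _), norm_div, Complex.norm_real,
    Real.norm_of_nonneg hT0.le, div_lt_iff₀ hT0]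
  obtain ⟨S, hS⟩ : ∃ S : Set ℝ, S = {t | ε < |F T t - G T t|} := ⟨_, rfl⟩
  have hSm : MeasurableSet S := hS ▸ measurableSet_lt measurable_const ((hFm T).sub (hGm T)).norm
  rw [intervalIntegral.integral_of_le (by linarith), ← integral_Icc_eq_integral_Ioc]
  have hI1 : IntegrableOn (fun _ : ℝ => |u| * ε) (Set.Icc T (2 * T)) :=
    integrableOn_const (by simp)
  have hI2 : IntegrableOn (fun t => 2 * S.indicator (1 : ℝ → ℝ) t) (Set.Icc T (2 * T)) :=
    (IntegrableOn.indicator (f := (1 : ℝ → ℝ)) (μ := volume) (s := Set.Icc T (2 * T))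
      (integrableOn_const (C := (1 : ℝ)) (by simp)) hSm).const_mul 2
  have hint : IntegrableOn (fun t => |u| * ε + 2 * S.indicator (1 : ℝ → ℝ) t)
      (Set.Icc T (2 * T)) := hI1.add hI2
  refine lt_of_le_of_lt (norm_integral_le_of_norm_le hint (Eventually.of_forall fun t => ?_)) ?_
  · by_cases ht : t ∈ S
    · rw [Set.indicator_of_mem ht]
      refine (norm_sub_le _ _).trans ?_
      rw [Complex.norm_exp_ofReal_mul_I, Complex.norm_exp_ofReal_mul_I, Pi.one_apply]
      nlinarith [abs_nonneg u]
    · rw [Set.indicator_of_notMem ht, mul_zero, add_zero]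
      refine (norm_exp_sub_exp_le _ _).trans ?_
      rw [← mul_sub, abs_mul]
      rw [hS, Set.mem_ofPred_eq, not_lt] at ht
      exact mul_le_mul_of_nonneg_left ht (abs_nonneg u)
  · rw [integral_add hI1 hI2,
      integral_const, integral_const_mul, setIntegral_indicator hSm]
    simp only [Pi.one_apply, setIntegral_const, smul_eq_mul, mul_one, Real.volume_real_Icc,
      measureReal_restrict_apply MeasurableSet.univ, Set.univ_inter]
    have hvol : volume.real (Set.Icc T (2 * T) ∩ S) ≤ ε * T := by
      refine ENNReal.toReal_le_of_le_ofReal (by positivity) ((le_of_eq ?_).trans hT)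
      rw [hS]
      rfl
    rw [max_eq_left (by linarith)]
    nlinarith [abs_nonneg u]

theorem charMean_eq_charFun {F : ℝ → ℝ → ℝ} {T : ℝ} (hm : Measurable (F T)) (hT : 0 < T)
    (u : ℝ) : charFun (Measure.map (F T)
      ((ENNReal.ofReal T)⁻¹ • volume.restrict (Set.Icc T (2 * T)))) u = charMean u F T := by
  rw [charFun_apply_real, integral_map hm.aemeasurable (by fun_prop), integral_smul_measure,
    charMean, intervalIntegral.integral_of_le (by linarith), ← integral_Icc_eq_integral_Ioc,
    ENNReal.toReal_inv, ENNReal.toReal_ofReal hT.le, Complex.real_smul, div_eq_inv_mul,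
    Complex.ofReal_inv]
  congr 1
  exact integral_congr_ae (Eventually.of_forall fun t => by push_cast; rfl)

/-- **The Gaussian distribution function.** -/
theorem GaussianLimit.tendsto_measure_le {F : ℝ → ℝ → ℝ} (hF : GaussianLimit F)
    (hm : ∀ T, Measurable (F T)) (x : ℝ) :
    Tendsto (fun T => volume.real {t ∈ Set.Icc T (2 * T) | F T t ≤ x} / T) atTop
      (𝓝 ((ProbabilityTheory.gaussianReal 0 1).real (Set.Iic x))) := by
  refine tendsto_iff_seq_tendsto.2 fun Ts hTs => ?_
  obtain ⟨U, hUdef⟩ : ∃ U : ℕ → ℝ, U = fun n => max (Ts n) 1 := ⟨_, rfl⟩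
  have hU0 : ∀ n, 0 < U n := fun n => by
    rw [hUdef]
    exact lt_of_lt_of_le one_pos (le_max_right _ _)
  have hU : Tendsto U atTop atTop :=
    hUdef ▸ tendsto_atTop_mono (fun n => le_max_left _ _) hTs
  have heq : ∀ᶠ n in atTop, U n = Ts n := by
    filter_upwards [hTs.eventually_ge_atTop 1] with n hn
    rw [hUdef]
    exact max_eq_left hn
  let law : ℕ → Measure ℝ := fun n => Measure.map (F (U n))
    ((ENNReal.ofReal (U n))⁻¹ • volume.restrict (Set.Icc (U n) (2 * U n)))
  have hprob : ∀ n, IsProbabilityMeasure (law n) := fun n => by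
    refine ⟨?_⟩
    rw [Measure.map_apply (hm _) MeasurableSet.univ, Set.preimage_univ, Measure.smul_apply,
      Measure.restrict_apply_univ, Real.volume_Icc, show 2 * U n - U n = U n by ring, smul_eq_mul,
      ENNReal.inv_mul_cancel (by simpa using hU0 n) ENNReal.ofReal_ne_top]
  let μs : ℕ → ProbabilityMeasure ℝ := fun n => ⟨law n, hprob n⟩
  let μ : ProbabilityMeasure ℝ := ⟨ProbabilityTheory.gaussianReal 0 1, inferInstance⟩
  have hconv : Tendsto μs atTop (𝓝 μ) := by
    refine ProbabilityMeasure.tendsto_iff_tendsto_charFun.2 fun u => ?_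
    show Tendsto (fun n => charFun (law n) u) atTop
      (𝓝 (charFun (ProbabilityTheory.gaussianReal 0 1) u))
    simp only [ProbabilityTheory.charFun_gaussianReal, Complex.ofReal_zero,
      mul_zero, zero_mul, zero_sub, NNReal.coe_one, Complex.ofReal_one, one_mul, ← neg_div]
    exact ((hF u).comp hU).congr fun n => (charMean_eq_charFun (hm _) (hU0 n) u).symm
  have hnull : (μ : Measure ℝ) (frontier (Set.Iic x)) = 0 := by
    have := ProbabilityTheory.nullSingletonClass_gaussianReal (μ := 0)
      (one_ne_zero : (1 : NNReal) ≠ 0)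
    rw [frontier_Iic]
    show (ProbabilityTheory.gaussianReal 0 1) {x} = 0
    exact measure_singleton x
  have h := (ENNReal.tendsto_toReal (measure_ne_top _ _)).comp
    (ProbabilityMeasure.tendsto_measure_of_null_frontier_of_tendsto' hconv hnull)
  refine h.congr' ?_
  filter_upwards [heq] with n hn
  simp only [Function.comp_apply]
  show (law n (Set.Iic x)).toReal = _
  rw [Measure.map_apply (hm _) measurableSet_Iic, Measure.smul_apply, smul_eq_mul,
    Measure.restrict_apply (hm _ measurableSet_Iic), ENNReal.toReal_mul, ENNReal.toReal_inv,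
    ENNReal.toReal_ofReal (hU0 n).le, ← hn, div_eq_inv_mul, measureReal_def, Set.inter_comm]
  rfl

end FA.SelbergCLT
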