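import Fermat.Agent.SelbergCLT.Kernel
import Fermat.Agent.ArtinL.DegreeOne

/-!
# `ζ` and the factor of its functional equation in a strip

`‖(z - 1) ζ z‖` is polynomial in `-4 ≤ re z ≤ 5`, and `χ z = Γℝ (1 - z) / Γℝ z` is
`O (|im z| ^ 4)` in `-7/2 ≤ re z ≤ 1/2` and of modulus `1` on `re z = 1/2`.
-/

set_option autoImplicit false

noncomputable section

namespace FA.SelbergCLT

open Complex Filter Set Asymptotics
open scoped Topology Real

/-- The degree of the growth of `ζ`. -/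
def growDeg : ℕ := ⌈FA.DedekindZF.growA⌉₊

theorem growDeg_add_le : growDeg + 100 ≤ kernelDeg := le_rfl

theorem growA_nonneg : 0 ≤ FA.DedekindZF.growA :=
  add_nonneg (mul_nonneg zero_le_two
    (tsum_nonneg fun _ => Real.rpow_nonneg (Nat.cast_nonneg _) _)) (by norm_num)

theorem norm_riemannZeta₁_le {z : ℂ} (hz : z.re ∈ Icc (-4) 5) :
    ‖riemannZeta₁ z‖ ≤ Real.exp growDeg * (|z.im| + 3) ^ growDeg := by
  have h := FA.DedekindZF.posLog_cleared_le ℚ differentiable_riemannZeta₁ (fun s hs => by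
    have h1 : s ≠ 1 := fun h => by rw [h] at hs; simp at hs
    rw [FA.ArtinL.dedekindZeta_rat hs, riemannZeta_eq_inv_sub_mul h1, ← mul_assoc,
      mul_inv_cancel₀ (sub_ne_zero.2 h1), one_mul]) hz
  rw [FA.DedekindZF.height, Rat.numberField_discr, Module.finrank_self] at h
  simp only [Int.natAbs_one, Nat.cast_one, Real.log_one, add_zero, one_mul] at h
  have hA : FA.DedekindZF.growA ≤ (growDeg : ℕ) := Nat.le_ceil _
  have hl := FA.DedekindZF.one_le_log z.im
  have h1 : ‖riemannZeta₁ z‖ ≤ Real.exp (Real.posLog ‖riemannZeta₁ z‖) := by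
    rcases eq_or_ne ‖riemannZeta₁ z‖ 0 with h0 | h0
    · rw [h0]
      exact (Real.exp_pos _).le
    · calc ‖riemannZeta₁ z‖ = Real.exp (Real.log ‖riemannZeta₁ z‖) :=
            (Real.exp_log (lt_of_le_of_ne (norm_nonneg _) h0.symm)).symm
        _ ≤ _ := Real.exp_le_exp.2 (le_max_right _ _)
  refine h1.trans ?_
  rw [← Real.rpow_natCast _ growDeg, Real.rpow_def_of_pos (by positivity), ← Real.exp_add,
    Real.exp_le_exp]
  refine h.trans ?_
  have := mul_le_mul_of_nonneg_right hA (show 0 ≤ 1 + Real.log (|z.im| + 3) by linarith)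
  linarith

theorem riemannZeta_eq_of_ne_one {z : ℂ} (hz : z ≠ 1) :
    riemannZeta z = riemannZeta₁ z / (z - 1) := by
  rw [riemannZeta_eq_inv_sub_mul hz, inv_mul_eq_div]

/-- The factor of the functional equation. -/
def chiFac (z : ℂ) : ℂ := Gammaℝ (1 - z) * (Gammaℝ z)⁻¹

theorem differentiableAt_chiFac {z : ℂ} (hz : z.re < 1) : DifferentiableAt ℂ chiFac z := by
  refine DifferentiableAt.mul ?_ (differentiable_Gammaℝ_inv z)
  exact (FA.RiemannMangoldt.differentiableAt_realGamma (by simpa using hz)).comp z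
    (differentiableAt_id.const_sub 1)

theorem riemannZeta_eq_chiFac_mul {z : ℂ} (h0 : z ≠ 0) (h1 : z.re < 1) :
    riemannZeta z = chiFac z * riemannZeta (1 - z) := by
  have h1' : 0 < (1 - z).re := by simpa using h1
  have hne : (1 : ℂ) - z ≠ 0 := fun h => by rw [h, zero_re] at h1'; exact lt_irrefl _ h1'
  have hG := Gammaℝ_ne_zero_of_re_pos h1'
  rw [riemannZeta_def_of_ne_zero h0, riemannZeta_def_of_ne_zero hne, completedRiemannZeta_one_sub,
    chiFac]
  field_simp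

theorem norm_chiFac_half {z : ℂ} (hz : z.re = 1 / 2) : ‖chiFac z‖ = 1 := by
  have e : (1 : ℂ) - z = (starRingEnd ℂ) z := by
    apply Complex.ext <;> simp [hz]
    norm_num
  rw [chiFac, norm_mul, norm_inv, e, FA.DedekindZF.norm_Gammaℝ_conj,
    mul_inv_cancel₀ (norm_ne_zero_iff.2 (Gammaℝ_ne_zero_of_re_pos (by linarith)))]

theorem norm_chiFac_left {z : ℂ} (hz : z.re = -7 / 2) : ‖chiFac z‖ ≤ (|z.im| + 4) ^ 4 := by
  have hz4 : (z + 4).re = 1 / 2 := by simp [hz]; norm_num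
  have e2 : (Gammaℝ z)⁻¹ = z / (2 * π) * ((z + 2) / (2 * π)) * (Gammaℝ (z + 4))⁻¹ := by
    rw [FA.DedekindZF.inv_Gammaℝ_eq z, FA.DedekindZF.inv_Gammaℝ_eq (z + 2),
      show z + 2 + 2 = z + 4 by ring]
    ring
  have e1 : (Gammaℝ (-(z + 3)))⁻¹ =
      (-(z + 3)) / (2 * π) * ((-(z + 1)) / (2 * π)) * (Gammaℝ (1 - z))⁻¹ := by
    rw [FA.DedekindZF.inv_Gammaℝ_eq (-(z + 3)), FA.DedekindZF.inv_Gammaℝ_eq (-(z + 3) + 2),
      show -(z + 3) + 2 + 2 = 1 - z by ring, show -(z + 3) + 2 = -(z + 1) by ring]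
    ring
  have hG : Gammaℝ (1 - z) ≠ 0 := Gammaℝ_ne_zero_of_re_pos (by simp [hz]; norm_num)
  have hG' : Gammaℝ (-(z + 3)) ≠ 0 := Gammaℝ_ne_zero_of_re_pos (by simp [hz]; norm_num)
  have e3 : Gammaℝ (1 - z) =
      (-(z + 3)) / (2 * π) * ((-(z + 1)) / (2 * π)) * Gammaℝ (-(z + 3)) := by
    have := congrArg (fun x => x * Gammaℝ (1 - z) * Gammaℝ (-(z + 3))) e1
    field_simp at this ⊢
    linear_combination this
  have hstep : ∀ a : ℂ, |a.re| ≤ 4 → |a.im| = |z.im| → ‖a / (2 * π)‖ ≤ |z.im| + 4 :=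
    fun a ha hi => by
    rw [norm_div]
    refine (div_le_self (norm_nonneg _) ?_).trans ?_
    · rw [norm_mul, Complex.norm_two, norm_real, Real.norm_of_nonneg Real.pi_pos.le]
      linarith [Real.pi_gt_three]
    · exact (norm_le_abs_re_add_abs_im a).trans (by rw [hi]; linarith)
  have hone : ‖chiFac (z + 4)‖ = 1 := norm_chiFac_half hz4
  rw [chiFac, show (1 : ℂ) - (z + 4) = -(z + 3) by ring, norm_mul] at hone
  rw [chiFac, e2, e3, norm_mul, norm_mul, norm_mul, norm_mul, norm_mul]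
  have k1 := hstep (-(z + 3)) (by simp [hz]; norm_num) (by simp [abs_neg])
  have k2 := hstep (-(z + 1)) (by simp [hz]; norm_num) (by simp [abs_neg])
  have k3 := hstep z (by simp [hz]; norm_num) rfl
  have k4 := hstep (z + 2) (by simp [hz]; norm_num) (by simp)
  calc _ = ‖(-(z + 3)) / (2 * π)‖ * ‖(-(z + 1)) / (2 * π)‖ * (‖z / (2 * π)‖ * ‖(z + 2) / (2 * π)‖) *
        (‖Gammaℝ (-(z + 3))‖ * ‖(Gammaℝ (z + 4))⁻¹‖) := by ring
    _ ≤ (|z.im| + 4) * (|z.im| + 4) * ((|z.im| + 4) * (|z.im| + 4)) * 1 := by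
        refine mul_le_mul (mul_le_mul (mul_le_mul k1 k2 (norm_nonneg _) (by positivity))
          (mul_le_mul k3 k4 (norm_nonneg _) (by positivity)) (by positivity) (by positivity))
          hone.le (by positivity) (by positivity)
    _ = _ := by ring

theorem exists_norm_Gammaℝ_le_of_mem {a b : ℝ} (ha : 0 < a) :
    ∃ C, ∀ z : ℂ, z.re ∈ Icc a b → ‖Gammaℝ z‖ ≤ C := by
  have hcont : ContinuousOn (fun x : ℝ => π ^ (-x / 2) * Real.Gamma (x / 2)) (Icc a b) := by
    intro x hx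
    refine ((Real.continuousAt_const_rpow Real.pi_ne_zero).comp' (by fun_prop)).mul
      ((Real.differentiableAt_Gamma fun m => ?_).continuousAt.comp' (by fun_prop))
      |>.continuousWithinAt
    have := hx.1
    have : (0 : ℝ) ≤ m := Nat.cast_nonneg m
    intro h
    linarith
  obtain ⟨C, hC⟩ := isCompact_Icc.exists_bound_of_continuousOn hcont
  exact ⟨C, fun z hz => (FA.HeckeBS.norm_Gammaℝ_le (ha.trans_le hz.1)).trans
    ((le_abs_self _).trans (hC z.re hz))⟩

/-- **`χ` in the strip.** -/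
theorem exists_chiFac_le : ∃ C, 1 ≤ C ∧ ∀ z : ℂ, z.re ∈ Icc (-7 / 2) (1 / 2) →
    ‖chiFac z‖ ≤ C * (|z.im| + 4) ^ 4 := by
  refine ⟨(4 : ℝ) ^ 4 * 2 ^ 4, by norm_num, fun z hz => ?_⟩
  obtain ⟨h, hh⟩ : ∃ h : ℂ → ℂ, h = fun w => chiFac w / (w - 3) ^ 4 := ⟨_, rfl⟩
  have hne : ∀ w : ℂ, w.re ≤ 1 / 2 → w - 3 ≠ 0 := fun w hw h0 => by
    have := congrArg Complex.re h0
    simp at this
    linarith
  have hdiff : DiffContOnCl ℂ h (re ⁻¹' Ioo (-7 / 2 : ℝ) (1 / 2)) := by
    refine DifferentiableOn.diffContOnCl fun w hw => ?_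
    have := closure_minimal (preimage_mono Ioo_subset_Icc_self)
      (isClosed_Icc.preimage continuous_re) hw
    rw [mem_preimage, mem_Icc] at this
    rw [hh]
    exact ((differentiableAt_chiFac (by linarith [this.2])).div
      (by fun_prop : DifferentiableAt ℂ (fun y : ℂ => (y - 3) ^ 4) w)
      (pow_ne_zero _ (hne w this.2))).differentiableWithinAt
  have hnear : ∀ w : ℂ, -7 / 2 ≤ w.re → w.re ≤ 1 / 2 →
      |w.im| + 4 ≤ 4 * ‖w - 3‖ ∧ ‖w - 3‖ ≤ |w.im| + 7 := fun w hw1 hw2 => by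
    have k1 := abs_re_le_norm (w - 3)
    have k2 := abs_im_le_norm (w - 3)
    have k3 := norm_le_abs_re_add_abs_im (w - 3)
    simp only [sub_re, re_ofNat, sub_im, im_ofNat, sub_zero] at k1 k2 k3
    rw [abs_of_nonpos (by linarith : w.re - 3 ≤ 0)] at k1 k3
    constructor <;> linarith
  have hedge : ∀ w : ℂ, (w.re = -7 / 2 ∨ w.re = 1 / 2) → ‖h w‖ ≤ 4 ^ 4 := fun w hw => by
    have hre : -7 / 2 ≤ w.re ∧ w.re ≤ 1 / 2 := by
      rcases hw with hw | hw <;> constructor <;> linarith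
    rw [hh, norm_div, norm_pow, div_le_iff₀ (pow_pos (norm_pos_iff.2 (hne w hre.2)) 4), ← mul_pow]
    refine le_trans ?_ (pow_le_pow_left₀ (by positivity) (hnear w hre.1 hre.2).1 4)
    rcases hw with hw | hw
    · exact norm_chiFac_left hw
    · rw [norm_chiFac_half hw]
      exact one_le_pow₀ (by linarith [abs_nonneg w.im])
  have hbig : ∃ c < π / (1 / 2 - -7 / 2), ∃ B,
      h =O[comap (_root_.abs ∘ im) atTop ⊓ 𝓟 (re ⁻¹' Ioo (-7 / 2 : ℝ) (1 / 2))]
        fun w => Real.exp (B * Real.exp (c * |w.im|)) := by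
    obtain ⟨G, hG⟩ := exists_norm_Gammaℝ_le_of_mem (a := 1 / 2) (b := 9 / 2) (by norm_num)
    refine ⟨1 / 4, by rw [lt_div_iff₀ (by norm_num)]; linarith [Real.pi_gt_three], 32, ?_⟩
    refine IsBigO.of_bound |G| (Filter.eventually_inf_principal.2
      (((Filter.eventually_ge_atTop (1 : ℝ)).comap _).mono fun w hw hre => ?_))
    rw [mem_preimage, mem_Ioo] at hre
    rw [hh, norm_div, norm_pow, Real.norm_of_nonneg (Real.exp_pos _).le]
    have h3 : 1 ≤ ‖w - 3‖ := by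
      have := (hnear w hre.1.le hre.2.le).1
      linarith [show (1 : ℝ) ≤ |w.im| from hw]
    refine (div_le_self (norm_nonneg _) (one_le_pow₀ h3)).trans ?_
    rw [chiFac, norm_mul]
    refine mul_le_mul ((hG (1 - w) ⟨by simp; linarith [hre.2], by simp; linarith [hre.1]⟩).trans
      (le_abs_self G)) ((FA.DedekindZF.norm_inv_Gammaℝ_le (by linarith [hre.1])
        (by linarith [hre.2]) hw).trans (Real.exp_le_exp.2 ?_)) (norm_nonneg _) (abs_nonneg _)
    linarith [Real.add_one_le_exp (1 / 4 * |w.im|), abs_nonneg w.im,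
      Real.one_le_exp (show 0 ≤ 1 / 4 * |w.im| by positivity)]
  have hPL := PhragmenLindelof.vertical_strip hdiff hbig (fun w hw => hedge w (Or.inl hw))
    (fun w hw => hedge w (Or.inr hw)) hz.1 hz.2
  rw [hh, norm_div, norm_pow, div_le_iff₀ (pow_pos (norm_pos_iff.2 (hne z hz.2)) 4)] at hPL
  refine hPL.trans ((mul_le_mul_of_nonneg_left (pow_le_pow_left₀ (norm_nonneg _)
    ((hnear z hz.1 hz.2).2.trans (show |z.im| + 7 ≤ 2 * (|z.im| + 4) by
      linarith [abs_nonneg z.im])) 4) (by positivity)).trans (le_of_eq ?_))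
  ring

end FA.SelbergCLT
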