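import Fermat.Agent.SelbergCLT.Kernel
import Mathlib.Data.Nat.PrimeFin
import Mathlib.Algebra.BigOperators.Ring.Finset
import Mathlib.Analysis.SpecialFunctions.Pow.Real

/-!
# The mollifier

A product of two truncated products `∑_{#A ≤ K} ∏_{p ∈ A} (-x p)`, one for each block of primes.
Against `n^(-z)` its coefficients split over the two blocks.
-/

set_option autoImplicit false

noncomputable section

namespace FA.SelbergCLT

open Finset MeasureTheory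

/-- The sets of at most `K` elements of `S`. -/
def smallSets (S : Finset ℕ) (K : ℕ) : Finset (Finset ℕ) := S.powerset.filter fun A => A.card ≤ K

/-- `∑_{#A ≤ K} ∏_{p ∈ A} (-x p)`. -/
def trunc (S : Finset ℕ) (K : ℕ) (x : ℕ → ℂ) : ℂ := ∑ A ∈ smallSets S K, ∏ p ∈ A, -x p

/-- The mollifier. -/
def molPoly (S₁ : Finset ℕ) (K₁ : ℕ) (S₂ : Finset ℕ) (K₂ : ℕ) (s : ℂ) : ℂ :=
  trunc S₁ K₁ (fun p => (p : ℂ) ^ (-s)) * trunc S₂ K₂ (fun p => (p : ℂ) ^ (-s))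

/-- The coefficients of a Dirichlet series times the mollifier. -/
def coef (S₁ : Finset ℕ) (K₁ : ℕ) (S₂ : Finset ℕ) (K₂ : ℕ) (f : ℕ → ℂ) (k : ℕ) : ℂ :=
  ∑ A ∈ smallSets S₁ K₁, ∑ B ∈ smallSets S₂ K₂,
    if (∏ p ∈ A, p) * ∏ p ∈ B, p ∣ k then
      (-1) ^ (A.card + B.card) * f (k / ((∏ p ∈ A, p) * ∏ p ∈ B, p)) else 0

theorem mem_smallSets {S A : Finset ℕ} {K : ℕ} : A ∈ smallSets S K ↔ A ⊆ S ∧ A.card ≤ K := by
  simp [smallSets]

theorem prod_neg_eq (A : Finset ℕ) (x : ℕ → ℂ) :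
    ∏ p ∈ A, -x p = (-1) ^ A.card * ∏ p ∈ A, x p := prod_neg _

theorem prod_cpow (A : Finset ℕ) (s : ℂ) :
    ∏ p ∈ A, (p : ℂ) ^ s = ((∏ p ∈ A, p : ℕ) : ℂ) ^ s := by
  classical
  induction A using Finset.induction with
  | empty => simp
  | insert a s' ha ih =>
    rw [prod_insert ha, prod_insert ha, ih, Nat.cast_mul, Complex.natCast_mul_natCast_cpow]

theorem trunc_empty (K : ℕ) (x : ℕ → ℂ) : trunc ∅ K x = 1 := by
  simp [trunc, smallSets, filter_singleton]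

/-- **The tail of the product.** -/
theorem norm_trunc_sub_prod_le (S : Finset ℕ) (K : ℕ) {x : ℕ → ℂ} (hx : ∀ p ∈ S, ‖x p‖ ≤ 2) :
    ‖trunc S K x - ∏ p ∈ S, (1 - x p)‖ ≤ 5 ^ S.card / 2 ^ K := by
  have e : ∏ p ∈ S, (1 - x p) = ∑ A ∈ S.powerset, ∏ p ∈ A, -x p := by
    rw [← prod_one_add]
    exact prod_congr rfl fun p _ => sub_eq_add_neg _ _
  have e5 : (5 : ℝ) ^ S.card = ∑ A ∈ S.powerset, ∏ _p ∈ A, (4 : ℝ) := by
    rw [← prod_one_add, prod_const]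
    norm_num
  rw [e, trunc, smallSets, ← sum_filter_add_sum_filter_not S.powerset (fun A => A.card ≤ K),
    sub_add_cancel_left, norm_neg, e5, sum_div]
  refine (norm_sum_le_of_le _ (n := fun A => (∏ _p ∈ A, (4 : ℝ)) / 2 ^ K) fun A hA => ?_).trans
    (sum_le_sum_of_subset_of_nonneg (filter_subset _ _) fun A _ _ => by positivity)
  rw [mem_filter, mem_powerset, not_le] at hA
  rw [norm_prod, le_div_iff₀ (by positivity), prod_const]
  calc (∏ p ∈ A, ‖-x p‖) * 2 ^ K ≤ 2 ^ A.card * 2 ^ A.card := by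
        refine mul_le_mul ((prod_le_prod (fun p _ => norm_nonneg _) fun p hp =>
          (norm_neg (x p)).trans_le (hx p (hA.1 hp))).trans_eq (prod_const _))
          (pow_le_pow_right₀ one_le_two hA.2.le) (by positivity) (by positivity)
    _ = 4 ^ A.card := by rw [← mul_pow]; norm_num

theorem card_smallSets_le (S : Finset ℕ) (K : ℕ) : (smallSets S K).card ≤ (S.card + 1) ^ K := by
  classical
  refine (card_le_card (t := (range (K + 1)).biUnion fun j => S.powersetCard j)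
    fun A hA => ?_).trans (card_biUnion_le.trans ?_)
  · rw [mem_smallSets] at hA
    exact mem_biUnion.2
      ⟨A.card, mem_range.2 (Nat.lt_succ_of_le hA.2), mem_powersetCard.2 ⟨hA.1, rfl⟩⟩
  rw [add_pow]
  refine sum_le_sum fun j hj => ?_
  rw [card_powersetCard, one_pow, mul_one, Nat.cast_id]
  exact (Nat.choose_le_pow _ _).trans (Nat.le_mul_of_pos_right _
    (Nat.choose_pos (Nat.le_of_lt_succ (mem_range.1 hj))))

theorem norm_trunc_le (S : Finset ℕ) (K : ℕ) {x : ℕ → ℂ} (hx : ∀ p ∈ S, ‖x p‖ ≤ 1) :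
    ‖trunc S K x‖ ≤ (S.card + 1 : ℝ) ^ K := by
  refine (norm_sum_le_of_le _ (n := fun _ => (1 : ℝ)) fun A hA => ?_).trans ?_
  · rw [norm_prod]
    exact prod_le_one (fun p _ => norm_nonneg _) fun p hp =>
      (norm_neg (x p)).trans_le (hx p ((mem_smallSets.1 hA).1 hp))
  · rw [sum_const, nsmul_one]
    exact_mod_cast card_smallSets_le S K

variable {S₁ S₂ : Finset ℕ} {K₁ K₂ : ℕ}

theorem prod_le_pow {S : Finset ℕ} {K P : ℕ} (hP : 1 ≤ P) (hS : ∀ p ∈ S, p ≤ P) {A : Finset ℕ}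
    (hA : A ∈ smallSets S K) : ∏ p ∈ A, p ≤ P ^ K := by
  rw [mem_smallSets] at hA
  refine (prod_le_prod (fun p _ => Nat.zero_le _) fun p hp => hS p (hA.1 hp)).trans ?_
  rw [prod_const]
  exact Nat.pow_le_pow_right hP hA.2

theorem molPoly_eq (s : ℂ) : molPoly S₁ K₁ S₂ K₂ s = ∑ A ∈ smallSets S₁ K₁, ∑ B ∈ smallSets S₂ K₂,
    (-1) ^ (A.card + B.card) * (((∏ p ∈ A, p) * ∏ p ∈ B, p : ℕ) : ℂ) ^ (-s) := by
  rw [molPoly, trunc, trunc, sum_mul_sum]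
  refine sum_congr rfl fun A _ => sum_congr rfl fun B _ => ?_
  rw [prod_neg_eq, prod_neg_eq, prod_cpow, prod_cpow, Nat.cast_mul,
    Complex.natCast_mul_natCast_cpow, pow_add]
  ring

/-- **A Dirichlet polynomial times the mollifier.** -/
theorem sum_mul_molPoly (h₁ : ∀ p ∈ S₁, p.Prime) (h₂ : ∀ p ∈ S₂, p.Prime) {f : ℕ → ℂ} {N M : ℕ}
    (hf : ∀ n, N < n → f n = 0)
    (hM : ∀ A ∈ smallSets S₁ K₁, ∀ B ∈ smallSets S₂ K₂, N * ((∏ p ∈ A, p) * ∏ p ∈ B, p) ≤ M)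
    (s : ℂ) :
    (∑ n ∈ Icc 1 N, f n * (n : ℂ) ^ (-s)) * molPoly S₁ K₁ S₂ K₂ s =
      ∑ k ∈ Icc 1 M, coef S₁ K₁ S₂ K₂ f k * (k : ℂ) ^ (-s) := by
  simp only [coef, sum_mul]
  rw [molPoly_eq, sum_comm (s := Icc 1 M)]
  simp only [mul_sum]
  rw [sum_comm (s := Icc 1 N)]
  refine sum_congr rfl fun A hA => ?_
  rw [sum_comm (s := Icc 1 N), sum_comm (s := Icc 1 M)]
  refine sum_congr rfl fun B hB => ?_
  obtain ⟨d, hd⟩ : ∃ d, d = (∏ p ∈ A, p) * ∏ p ∈ B, p := ⟨_, rfl⟩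
  have hd0 : 0 < d := hd ▸ Nat.mul_pos
    (prod_pos fun p hp => (h₁ p ((mem_smallSets.1 hA).1 hp)).pos)
    (prod_pos fun p hp => (h₂ p ((mem_smallSets.1 hB).1 hp)).pos)
  have hNM := hM A hA B hB
  rw [← hd] at hNM ⊢
  simp only [ite_mul, zero_mul]
  rw [← sum_filter]
  symm
  rw [← sum_filter_of_ne (s := (Icc 1 M).filter (d ∣ ·)) (p := fun k => k / d ≤ N)
    fun k _ hne => not_lt.1 fun h => hne (by rw [hf _ h, mul_zero, zero_mul])]
  refine sum_nbij' (fun k => k / d) (fun n => n * d) ?_ ?_ ?_ ?_ ?_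
  · intro k hk
    simp only [mem_filter, mem_Icc] at hk ⊢
    exact ⟨Nat.div_pos (Nat.le_of_dvd (by omega) hk.1.2) hd0, hk.2⟩
  · intro n hn
    simp only [mem_filter, mem_Icc] at hn ⊢
    refine ⟨⟨⟨Nat.mul_pos hn.1 hd0, (Nat.mul_le_mul_right d hn.2).trans hNM⟩,
      dvd_mul_left d n⟩, ?_⟩
    rw [Nat.mul_div_cancel _ hd0]
    exact hn.2
  · intro k hk
    simp only [mem_filter] at hk
    exact Nat.div_mul_cancel hk.1.2
  · intro n _
    exact Nat.mul_div_cancel _ hd0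
  · intro k hk
    simp only [mem_filter] at hk
    have e : (k : ℂ) ^ (-s) = ((k / d : ℕ) : ℂ) ^ (-s) * (d : ℂ) ^ (-s) := by
      rw [← Complex.natCast_mul_natCast_cpow, ← Nat.cast_mul, Nat.div_mul_cancel hk.1.2]
    rw [e]
    ring

theorem coef_one (f : ℕ → ℂ) (h₁ : ∀ p ∈ S₁, p.Prime) (h₂ : ∀ p ∈ S₂, p.Prime) :
    coef S₁ K₁ S₂ K₂ f 1 = f 1 := by
  have key : ∀ {S A : Finset ℕ} {K : ℕ}, (∀ p ∈ S, p.Prime) → A ∈ smallSets S K →
      ∏ p ∈ A, p = 1 → A = ∅ := fun {S A K} hS hA h1 =>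
    eq_empty_of_forall_notMem fun p hp => (hS p ((mem_smallSets.1 hA).1 hp)).ne_one
      (Nat.dvd_one.1 (h1 ▸ dvd_prod_of_mem (fun p => p) hp))
  rw [coef, sum_eq_single ∅ (fun A hA hne => sum_eq_zero fun B hB => if_neg fun h => hne ?_)
    (fun h => absurd (mem_smallSets.2 ⟨empty_subset _, Nat.zero_le _⟩) h),
    sum_eq_single ∅ (fun B hB hne => if_neg fun h => hne ?_)
    (fun h => absurd (mem_smallSets.2 ⟨empty_subset _, Nat.zero_le _⟩) h)]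
  · simp
  · rw [prod_empty, one_mul, Nat.dvd_one] at h
    exact key h₂ hB h
  · exact key h₁ hA (Nat.eq_one_of_mul_eq_one_right (Nat.dvd_one.1 h))

theorem prod_dvd_iff {A : Finset ℕ} (hA : ∀ p ∈ A, p.Prime) {k : ℕ} (hk : k ≠ 0) :
    ∏ p ∈ A, p ∣ k ↔ A ⊆ k.primeFactors :=
  ⟨fun h p hp => Nat.mem_primeFactors.2
    ⟨hA p hp, (dvd_prod_of_mem (fun p => p) hp).trans h, hk⟩,
   fun h => prod_primes_dvd k (fun p hp => (hA p hp).prime)
    fun _ hp => (Nat.mem_primeFactors.1 (h hp)).2.1⟩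

theorem sum_smallSets_ite (S : Finset ℕ) (K : ℕ) (T : Finset ℕ) (g : Finset ℕ → ℂ) :
    ∑ A ∈ smallSets S K, (if A ⊆ T then g A else 0) = ∑ A ∈ smallSets (S ∩ T) K, g A := by
  rw [← sum_filter]
  refine sum_congr ?_ fun _ _ => rfl
  ext A
  simp only [mem_filter, mem_smallSets, subset_inter_iff]
  tauto

/-- **The coefficients split over the blocks.** -/
theorem coef_cpow (h₁ : ∀ p ∈ S₁, p.Prime) (h₂ : ∀ p ∈ S₂, p.Prime) (hdis : Disjoint S₁ S₂)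
    {k : ℕ} (hk : k ≠ 0) (z : ℂ) :
    coef S₁ K₁ S₂ K₂ (fun n => (n : ℂ) ^ (-z)) k = (k : ℂ) ^ (-z) *
      trunc (S₁ ∩ k.primeFactors) K₁ (fun p => (p : ℂ) ^ z) *
        trunc (S₂ ∩ k.primeFactors) K₂ (fun p => (p : ℂ) ^ z) := by
  rw [mul_assoc, trunc, trunc, ← sum_smallSets_ite, ← sum_smallSets_ite, sum_mul_sum, mul_sum,
    coef]
  refine sum_congr rfl fun A hA => ?_
  rw [mul_sum]
  refine sum_congr rfl fun B hB => ?_
  have hA' := (mem_smallSets.1 hA).1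
  have hB' := (mem_smallSets.1 hB).1
  have hAB : Disjoint A B := disjoint_of_subset_left hA' (disjoint_of_subset_right hB' hdis)
  have hiff : (∏ p ∈ A, p) * ∏ p ∈ B, p ∣ k ↔ A ⊆ k.primeFactors ∧ B ⊆ k.primeFactors := by
    rw [← prod_union hAB, prod_dvd_iff (fun p hp => ?_) hk, union_subset_iff]
    rcases mem_union.1 hp with h | h
    · exact h₁ p (hA' h)
    · exact h₂ p (hB' h)
  by_cases hd : (∏ p ∈ A, p) * ∏ p ∈ B, p ∣ k
  · rw [if_pos hd, if_pos (hiff.1 hd).1, if_pos (hiff.1 hd).2, prod_neg_eq, prod_neg_eq, prod_cpow,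
      prod_cpow, pow_add]
    obtain ⟨d, hd'⟩ : ∃ d, d = (∏ p ∈ A, p) * ∏ p ∈ B, p := ⟨_, rfl⟩
    obtain ⟨j, rfl⟩ := hd
    have hd0 : 0 < (∏ p ∈ A, p) * ∏ p ∈ B, p := Nat.pos_of_ne_zero fun h => hk (by rw [h, zero_mul])
    rw [Nat.mul_div_cancel_left _ hd0, Nat.cast_mul ((∏ p ∈ A, p) * _) j,
      Complex.natCast_mul_natCast_cpow, Nat.cast_mul, Complex.natCast_mul_natCast_cpow]
    have e : ∀ n : ℕ, 0 < n → (n : ℂ) ^ (-z) * (n : ℂ) ^ z = 1 := fun n hn => by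
      rw [← Complex.cpow_add _ _ (Nat.cast_ne_zero.2 hn.ne'), neg_add_cancel, Complex.cpow_zero]
    have eA := e _ (Nat.pos_of_mul_pos_right hd0)
    have eB := e _ (Nat.pos_of_mul_pos_left hd0)
    obtain ⟨a, ha⟩ : ∃ a, a = ((∏ p ∈ A, p : ℕ) : ℂ) ^ (-z) := ⟨_, rfl⟩
    obtain ⟨b, hb⟩ : ∃ b, b = ((∏ p ∈ B, p : ℕ) : ℂ) ^ (-z) := ⟨_, rfl⟩
    rw [← ha] at eA ⊢
    rw [← hb] at eB ⊢
    linear_combination (-((-1) ^ A.card * (-1) ^ B.card * (j : ℂ) ^ (-z) : ℂ) *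
      (b * ((∏ p ∈ B, p : ℕ) : ℂ) ^ z)) * eA -
        ((-1) ^ A.card * (-1) ^ B.card * (j : ℂ) ^ (-z) : ℂ) * eB
  · rw [if_neg hd]
    rw [hiff, not_and_or] at hd
    rcases hd with h | h <;> simp [h]

/-- The coefficients are linear. -/
theorem coef_integral {g : ℝ → ℕ → ℂ} (hg : ∀ n, 0 < n → Integrable fun v => g v n) {f : ℕ → ℂ}
    (hf : ∀ n, 0 < n → f n = ∫ v, g v n) {k : ℕ} (hk : k ≠ 0) :
    Integrable (fun v => coef S₁ K₁ S₂ K₂ (g v) k) ∧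
      coef S₁ K₁ S₂ K₂ f k = ∫ v, coef S₁ K₁ S₂ K₂ (g v) k := by
  have hterm : ∀ A B : Finset ℕ, Integrable fun v =>
      if (∏ p ∈ A, p) * ∏ p ∈ B, p ∣ k then
        (-1 : ℂ) ^ (A.card + B.card) * g v (k / ((∏ p ∈ A, p) * ∏ p ∈ B, p)) else 0 := fun A B => by
    by_cases hd : (∏ p ∈ A, p) * ∏ p ∈ B, p ∣ k
    · simp only [if_pos hd]
      exact (hg _ (Nat.div_pos (Nat.le_of_dvd (Nat.pos_of_ne_zero hk) hd)
        (Nat.pos_of_ne_zero fun h => hk (by rw [h] at hd; simpa using hd)))).const_mul _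
    · simp only [if_neg hd]
      exact integrable_zero _ _ _
  refine ⟨integrable_finsetSum _ fun A _ => integrable_finsetSum _ fun B _ => hterm A B, ?_⟩
  simp only [coef]
  rw [integral_finsetSum _ fun A _ => integrable_finsetSum _ fun B _ => hterm A B]
  refine sum_congr rfl fun A _ => ?_
  rw [integral_finsetSum _ fun B _ => hterm A B]
  refine sum_congr rfl fun B _ => ?_
  by_cases hd : (∏ p ∈ A, p) * ∏ p ∈ B, p ∣ k
  · simp only [if_pos hd]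
    rw [integral_const_mul, hf _ (Nat.div_pos (Nat.le_of_dvd (Nat.pos_of_ne_zero hk) hd)
      (Nat.pos_of_ne_zero fun h => hk (by rw [h] at hd; simpa using hd)))]
  · simp [hd]

theorem continuous_trunc {X : Type*} [TopologicalSpace X] {x : X → ℕ → ℂ} (S : Finset ℕ) (K : ℕ)
    (hx : ∀ p ∈ S, Continuous fun v => x v p) : Continuous fun v => trunc S K (x v) :=
  continuous_finsetSum _ fun _ hA => continuous_finsetProd _ fun p hp =>
    (hx p ((mem_smallSets.1 hA).1 hp)).neg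

end FA.SelbergCLT
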