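import Fermat.Agent.SelbergCLT.Moments
import Fermat.Agent.SelbergCLT.Gaussian
import Fermat.Agent.ErdosKac.Mertens
import Mathlib.Analysis.Normed.Algebra.Exponential
import Mathlib.Analysis.SpecialFunctions.Exponential

/-!
# The central limit theorem for sums over primes

If the primes are at most `B (T) = T ^ o (1)` the normalised real part of `∑ r p p^(-it)` is
Gaussian over `[T, 2T]`.
-/

set_option autoImplicit false

noncomputable section

namespace FA.SelbergCLT

open Finset Filter MeasureTheory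
open FA.ErdosKac (primesUpTo mem_primesUpTo recipSum exists_abs_recipSum_sub_le)
open scoped Topology Real Nat

/-- The moments of the standard Gaussian. -/
def gaussMoment (k : ℕ) : ℝ :=
  if Even k then (k ! : ℝ) / ((k / 2)! * 2 ^ (k / 2)) else 0

/-- The remainder of the exponential series. -/
def expRem (n : ℕ) (x : ℝ) : ℂ :=
  Complex.exp (x * Complex.I) - ∑ j ∈ range n, ((x : ℂ) * Complex.I) ^ j / j !

theorem hasDerivAt_expRem (n : ℕ) (x : ℝ) :
    HasDerivAt (expRem (n + 1)) (Complex.I * expRem n x) x := by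
  induction n with
  | zero =>
    have h := ((Complex.ofRealCLM.hasDerivAt (x := x)).mul_const Complex.I).cexp.sub_const
      (∑ j ∈ range 1, ((0 : ℂ)) ^ j / j !)
    refine (h.congr_deriv ?_).congr_of_eventuallyEq (Eventually.of_forall fun y => ?_)
    · simp [expRem, mul_comm]
    · simp [expRem]
  | succ n ih =>
    have hlin : HasDerivAt (fun y : ℝ => (y : ℂ) * Complex.I) Complex.I x := by
      simpa using (Complex.ofRealCLM.hasDerivAt (x := x)).mul_const Complex.I
    have h := ih.sub ((hlin.fun_pow (n + 1)).div_const (((n + 1)! : ℕ) : ℂ))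
    refine (h.congr_deriv ?_).congr_of_eventuallyEq (Eventually.of_forall fun y => ?_)
    · rw [expRem, expRem, sum_range_succ _ n, Nat.factorial_succ, Nat.add_sub_cancel]
      push_cast
      have h1 : ((n : ℂ) + 1) ≠ 0 := Nat.cast_add_one_ne_zero n
      have h2 : ((n ! : ℕ) : ℂ) ≠ 0 := Nat.cast_ne_zero.2 (Nat.factorial_ne_zero n)
      field_simp
      ring
    · simp only [expRem, sum_range_succ _ (n + 1), Pi.sub_apply]
      ring

theorem norm_expRem_le_of_nonneg (n : ℕ) : ∀ x : ℝ, 0 ≤ x → ‖expRem n x‖ ≤ x ^ n / n ! := by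
  induction n with
  | zero =>
    intro x _
    simp [expRem, Complex.norm_exp_ofReal_mul_I]
  | succ n ih =>
    intro x hx
    refine image_norm_le_of_norm_deriv_right_le_deriv_boundary (a := 0) (b := x)
      (f' := fun y => Complex.I * expRem n y) (B := fun y => y ^ (n + 1) / (n + 1)!)
      (B' := fun y => y ^ n / n !)
      (fun y _ => (hasDerivAt_expRem n y).continuousAt.continuousWithinAt)
      (fun y _ => (hasDerivAt_expRem n y).hasDerivWithinAt) ?_ (fun y => ?_) (fun y hy => ?_)
      (Set.right_mem_Icc.2 hx)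
    · simp [expRem, sum_range_succ']
    · refine ((hasDerivAt_pow (n + 1) y).div_const _).congr_deriv ?_
      rw [Nat.factorial_succ, Nat.add_sub_cancel]
      push_cast
      field_simp
    · rw [norm_mul, Complex.norm_I, one_mul]
      exact ih y hy.1

/-- **The remainder is at most the next term.** -/
theorem norm_expRem_le (n : ℕ) (x : ℝ) : ‖expRem n x‖ ≤ |x| ^ n / n ! := by
  rcases le_total 0 x with hx | hx
  · rw [abs_of_nonneg hx]
    exact norm_expRem_le_of_nonneg n x hx
  · have e : expRem n x = (starRingEnd ℂ) (expRem n (-x)) := by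
      simp [expRem, ← Complex.exp_conj]
    rw [e, Complex.norm_conj, abs_of_nonpos hx]
    exact norm_expRem_le_of_nonneg n (-x) (by linarith)

theorem sum_range_gaussMoment (u : ℝ) (K : ℕ) :
    ∑ j ∈ range (2 * K), ((u : ℂ) * Complex.I) ^ j / j ! * (gaussMoment j : ℂ) =
      ∑ m ∈ range K, (-(u : ℂ) ^ 2 / 2) ^ m / m ! := by
  induction K with
  | zero => simp
  | succ K ih =>
    rw [show 2 * (K + 1) = 2 * K + 1 + 1 by ring, sum_range_succ, sum_range_succ, ih,
      sum_range_succ _ K]
    have h1 : gaussMoment (2 * K + 1) = 0 := if_neg (by simp)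
    have h2 : gaussMoment (2 * K) = ((2 * K)! : ℝ) / (K ! * 2 ^ K) := by
      rw [gaussMoment, if_pos (even_two_mul K), Nat.mul_div_cancel_left K two_pos]
    rw [h1, h2, Complex.ofReal_zero, mul_zero, add_zero, pow_mul (n := K), mul_pow,
      Complex.I_sq, div_pow]
    push_cast
    have hne : (((2 * K)! : ℕ) : ℂ) ≠ 0 := Nat.cast_ne_zero.2 (Nat.factorial_ne_zero _)
    field_simp

theorem tendsto_series (u : ℝ) :
    Tendsto (fun K : ℕ => ∑ j ∈ range (2 * K), ((u : ℂ) * Complex.I) ^ j / j ! *
      (gaussMoment j : ℂ)) atTop (𝓝 (Complex.exp (-(u : ℂ) ^ 2 / 2))) := by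
  simp only [sum_range_gaussMoment]
  rw [Complex.exp_eq_exp_ℂ]
  exact (NormedSpace.expSeries_div_hasSum_exp (-(u : ℂ) ^ 2 / 2)).tendsto_sum_nat

/-- **Gaussian moments give the Gaussian limit.** -/
theorem gaussianLimit_of_moments {F : ℝ → ℝ → ℝ} (hF : ∀ T, Continuous (F T))
    (h : ∀ k, Tendsto (fun T => (∫ t in T..2 * T, F T t ^ k) / T) atTop (𝓝 (gaussMoment k))) :
    GaussianLimit F := fun u => by
  refine Metric.tendsto_nhds.2 fun η hη => ?_
  have hrem : Tendsto (fun K : ℕ => (u ^ 2 / 2) ^ K / K !) atTop (𝓝 0) :=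
    FloorSemiring.tendsto_pow_div_factorial_atTop _
  obtain ⟨K, hK1, hK2⟩ := ((hrem.eventually_lt_const (show (0 : ℝ) < η / 4 by linarith)).and
    (Metric.tendsto_nhds.1 (tendsto_series u) (η / 4) (by linarith))).exists
  have hlim : Tendsto (fun T => ∑ j ∈ range (2 * K), ((u : ℂ) * Complex.I) ^ j / j ! *
      (((∫ t in T..2 * T, F T t ^ j) / T : ℝ) : ℂ)) atTop
      (𝓝 (∑ j ∈ range (2 * K), ((u : ℂ) * Complex.I) ^ j / j ! * (gaussMoment j : ℂ))) :=
    tendsto_finsetSum _ fun j _ =>
      ((Complex.continuous_ofReal.tendsto _).comp (h j)).const_mul _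
  have htail : Tendsto (fun T =>
      |u| ^ (2 * K) / (2 * K)! * ((∫ t in T..2 * T, F T t ^ (2 * K)) / T))
      atTop (𝓝 ((u ^ 2 / 2) ^ K / K !)) := by
    have e : (u ^ 2 / 2) ^ K / K ! = |u| ^ (2 * K) / (2 * K)! * gaussMoment (2 * K) := by
      rw [gaussMoment, if_pos (even_two_mul K), Nat.mul_div_cancel_left K two_pos, pow_mul,
        sq_abs, div_pow]
      field_simp
    exact e ▸ (h (2 * K)).const_mul _
  filter_upwards [htail.eventually_lt_const hK1, Metric.tendsto_nhds.1 hlim (η / 4) (by linarith),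
    eventually_gt_atTop 0] with T hT1 hT2 hT0
  refine lt_of_le_of_lt (dist_triangle4 _ (∑ j ∈ range (2 * K), ((u : ℂ) * Complex.I) ^ j / j ! *
      (((∫ t in T..2 * T, F T t ^ j) / T : ℝ) : ℂ))
    (∑ j ∈ range (2 * K), ((u : ℂ) * Complex.I) ^ j / j ! * (gaussMoment j : ℂ)) _) ?_
  suffices hmain : dist (charMean u F T) (∑ j ∈ range (2 * K), ((u : ℂ) * Complex.I) ^ j / j ! *
      (((∫ t in T..2 * T, F T t ^ j) / T : ℝ) : ℂ)) < η / 4 by linarith
  refine lt_of_le_of_lt ?_ hT1
  have hcont : ∀ j : ℕ, Continuous fun t => ((u : ℂ) * Complex.I) ^ j / (j ! : ℂ) *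
      ((F T t ^ j : ℝ) : ℂ) := fun j =>
    continuous_const.mul (Complex.continuous_ofReal.comp ((hF T).pow j))
  have e : ∑ j ∈ range (2 * K), ((u : ℂ) * Complex.I) ^ j / j ! *
      (((∫ t in T..2 * T, F T t ^ j) / T : ℝ) : ℂ) = (∫ t in T..2 * T, ∑ j ∈ range (2 * K),
        ((u : ℂ) * Complex.I) ^ j / (j ! : ℂ) * ((F T t ^ j : ℝ) : ℂ)) / (T : ℂ) := by
    rw [intervalIntegral.integral_finsetSum fun j _ => (hcont j).intervalIntegrable _ _, sum_div]
    refine sum_congr rfl fun j _ => ?_
    rw [intervalIntegral.integral_const_mul, intervalIntegral.integral_ofReal, Complex.ofReal_div,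
      mul_div_assoc]
  rw [dist_eq_norm, e, charMean, ← sub_div, ← intervalIntegral.integral_sub
    (intervalIntegrable_exp (hF T).measurable u _ _)
    ((continuous_finsetSum _ fun j _ => hcont j).intervalIntegrable _ _),
    norm_div, Complex.norm_real, Real.norm_of_nonneg hT0.le, mul_div_assoc',
    ← intervalIntegral.integral_const_mul]
  refine div_le_div_of_nonneg_right (intervalIntegral.norm_integral_le_of_norm_le (by linarith)
    (Eventually.of_forall fun t _ => ?_)
    (((hF T).pow _).const_mul _ |>.intervalIntegrable _ _)) hT0.le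
  have hb := norm_expRem_le (2 * K) (u * F T t)
  refine le_trans (le_of_eq ?_) (hb.trans (le_of_eq ?_))
  · rw [expRem]
    congr 2
    refine sum_congr rfl fun j _ => ?_
    push_cast
    ring
  · rw [abs_mul, mul_pow, pow_mul |F T t|, sq_abs, ← pow_mul]
    ring

/-- **The central limit theorem.** -/
theorem gaussianLimit_primePoly {P : ℝ → Finset ℕ} {r : ℝ → ℕ → ℝ} {B : ℝ → ℕ} {s : ℝ → ℝ}
    (hP : ∀ T, ∀ p ∈ P T, p.Prime ∧ p ≤ B T ∧ 0 ≤ r T p ∧ r T p ≤ 1)
    (hB : ∀ k : ℕ, Tendsto (fun T => ((B T : ℝ) + 1) ^ k / T) atTop (𝓝 0))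
    (hs : ∀ᶠ T in atTop, 1 ≤ s T)
    (hQ : Tendsto (fun T => sqMass (P T) (r T)) atTop atTop)
    (hratio : Tendsto (fun T => sqMass (P T) (r T) / (2 * s T ^ 2)) atTop (𝓝 1)) :
    GaussianLimit fun T t => (primePoly (P T) (r T) t).re / s T := by
  refine gaussianLimit_of_moments (fun T =>
    (Complex.continuous_re.comp (continuous_primePoly _ _)).div_const _) fun k => ?_
  obtain ⟨A, hA⟩ : ∃ A : ℝ → ℝ, A = fun T => (∑ j ∈ range (k + 1),
      (k.choose j : ℝ) * diagPairs (P T) (r T) j (k - j)) / 2 ^ k / s T ^ k := ⟨_, rfl⟩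
  have hlimA : Tendsto A atTop (𝓝 (gaussMoment k)) := by
    rcases Nat.even_or_odd k with hk | hk
    · obtain ⟨m, rfl⟩ := hk
      have eA : ∀ T, A T = ((m + m).choose m : ℝ) / 2 ^ (m + m) *
          (diagPairs (P T) (r T) m m / s T ^ (m + m)) := fun T => by
        simp only [hA]
        rw [sum_eq_single m (fun j hj hjm => by
          rw [diagPairs_of_ne (fun p hp => (hP T p hp).1) (fun h => hjm (by omega)), mul_zero])
          (fun h => absurd (mem_range.2 (by omega)) h), Nat.add_sub_cancel]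
        ring
      have hpow : ∀ c : ℝ, Tendsto (fun T => ((sqMass (P T) (r T) - c) / s T ^ 2) ^ m) atTop
          (𝓝 (2 ^ m)) := fun c => by
        have h0 : Tendsto (fun T => c / sqMass (P T) (r T)) atTop (𝓝 0) :=
          tendsto_const_nhds.div_atTop hQ
        have h := (((tendsto_const_nhds (x := (1 : ℝ))).sub h0).mul hratio).const_mul 2
        rw [sub_zero, one_mul, mul_one] at h
        refine (h.pow m).congr' ?_
        filter_upwards [hQ.eventually_gt_atTop 0, hs] with T hQ0 hs0
        congr 1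
        field_simp
      have hg : gaussMoment (m + m) = ((m + m).choose m : ℝ) / 2 ^ (m + m) * (m ! * 2 ^ m) := by
        rw [gaussMoment, if_pos ⟨m, rfl⟩, show (m + m) / 2 = m by omega,
          Nat.cast_choose ℝ (Nat.le_add_left m m), Nat.add_sub_cancel, pow_add]
        field_simp
      simp only [funext eA, hg]
      refine Tendsto.const_mul _ (tendsto_of_tendsto_of_tendsto_of_le_of_le'
        ((hpow m).const_mul (m ! : ℝ)) ((hpow 0).const_mul (m ! : ℝ)) ?_ ?_)
      · filter_upwards [hs, hQ.eventually_ge_atTop m] with T hs0 hm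
        rw [div_pow, ← pow_mul, two_mul, ← mul_div_assoc]
        exact div_le_div_of_nonneg_right (le_diagPairs (fun p hp => (hP T p hp).1)
          (fun p hp => (hP T p hp).2.2.1) (fun p hp => (hP T p hp).2.2.2) hm) (by positivity)
      · filter_upwards [hs] with T hs0
        rw [sub_zero, div_pow, ← pow_mul, two_mul, ← mul_div_assoc]
        exact div_le_div_of_nonneg_right (diagPairs_le (fun p hp => (hP T p hp).1) m)
          (by positivity)
    · have hg : gaussMoment k = 0 := if_neg (Nat.not_even_iff_odd.2 hk)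
      rw [hg, hA]
      refine tendsto_const_nhds.congr fun T => ?_
      rw [sum_eq_zero fun j hj => ?_, zero_div, zero_div]
      rw [diagPairs_of_ne (fun p hp => (hP T p hp).1) (fun h => ?_), mul_zero]
      rw [mem_range] at hj
      obtain ⟨i, rfl⟩ := hk
      omega
  refine hlimA.congr_dist (squeeze_zero' (Eventually.of_forall fun T => dist_nonneg) ?_
    (by simpa using (hB (2 * k)).const_mul 4))
  filter_upwards [hs, eventually_gt_atTop 0] with T hs0 hT0
  have hb := abs_integral_re_pow_sub_le (fun p hp => (hP T p hp).1)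
    (fun p hp => (hP T p hp).2.1) (fun p hp => (hP T p hp).2.2.1) (fun p hp => (hP T p hp).2.2.2)
    k T
  rw [Real.dist_eq, abs_sub_comm, hA]
  simp only [div_pow, intervalIntegral.integral_div]
  have hsk : 1 ≤ s T ^ k := one_le_pow₀ hs0
  rw [show (∫ t in T..2 * T, (primePoly (P T) (r T) t).re ^ k) / s T ^ k / T -
      (∑ j ∈ range (k + 1), (k.choose j : ℝ) * diagPairs (P T) (r T) j (k - j)) / 2 ^ k /
        s T ^ k = ((∫ t in T..2 * T, (primePoly (P T) (r T) t).re ^ k) -
        T * (∑ j ∈ range (k + 1), (k.choose j : ℝ) * diagPairs (P T) (r T) j (k - j)) / 2 ^ k) /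
          (T * s T ^ k) by field_simp, abs_div, abs_of_pos (show 0 < T * s T ^ k by positivity)]
  refine (div_le_div₀ (by positivity) hb hT0 (le_mul_of_one_le_right hT0.le hsk)).trans_eq ?_
  ring

theorem re_primePoly (P : Finset ℕ) (r : ℕ → ℝ) (t : ℝ) :
    (primePoly P r t).re = ∑ p ∈ P, r p * Real.cos (t * Real.log p) := by
  rw [primePoly, Complex.re_sum]
  refine sum_congr rfl fun p _ => ?_
  rw [Complex.re_ofReal_mul, Resonance.wave, ← Complex.ofReal_mul, Complex.exp_ofReal_mul_I_re,
    neg_mul, Real.cos_neg, mul_comm t]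

theorem tendsto_pow_div_of_log {B : ℝ → ℕ}
    (hB : Tendsto (fun T => Real.log ((B T : ℝ) + 1) / Real.log T) atTop (𝓝 0)) (k : ℕ) :
    Tendsto (fun T => ((B T : ℝ) + 1) ^ k / T) atTop (𝓝 0) := by
  refine squeeze_zero' ?_ ?_ (Real.tendsto_exp_atBot.comp
    (Real.tendsto_log_atTop.const_mul_atTop_of_neg (show (-(1 / 2 : ℝ)) < 0 by norm_num)))
  · filter_upwards [eventually_gt_atTop 0] with T hT
    positivity
  filter_upwards [(hB.const_mul (k : ℝ)).eventually_le_const
    (show (k : ℝ) * 0 < 1 / 2 by norm_num), eventually_gt_atTop 1] with T hT hT1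
  have hl : 0 < Real.log T := Real.log_pos hT1
  rw [mul_div_assoc', div_le_iff₀ hl] at hT
  simp only [Function.comp_apply]
  rw [div_le_iff₀ (by linarith), ← Real.exp_log (show 0 < ((B T : ℝ) + 1) ^ k by positivity),
    Real.log_pow]
  have eT : Real.exp (-(1 / 2) * Real.log T) * T = Real.exp (1 / 2 * Real.log T) := by
    rw [show (1 / 2 : ℝ) * Real.log T = -(1 / 2) * Real.log T + Real.log T by ring, Real.exp_add,
      Real.exp_log (by linarith)]
  rw [eT, Real.exp_le_exp]
  exact hT

/-- **The sum over primes `∑_{p ≤ B} cos (t log p) / √p` is Gaussian.** -/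
theorem tendsto_measure_primeSum_le {B : ℝ → ℕ} (hBtop : Tendsto B atTop atTop)
    (hB : Tendsto (fun T => Real.log ((B T : ℝ) + 1) / Real.log T) atTop (𝓝 0)) (x : ℝ) :
    Tendsto (fun T => volume.real {t ∈ Set.Icc T (2 * T) |
      ∑ p ∈ primesUpTo (B T), Real.cos (t * Real.log p) / √(p : ℝ) ≤
        x * √(Real.log (Real.log (B T)) / 2)} / T) atTop
      (𝓝 ((ProbabilityTheory.gaussianReal 0 1).real (Set.Iic x))) := by
  obtain ⟨C, hC⟩ := exists_abs_recipSum_sub_le
  have hll : Tendsto (fun T => Real.log (Real.log (B T))) atTop atTop :=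
    Real.tendsto_log_atTop.comp
      (Real.tendsto_log_atTop.comp (tendsto_natCast_atTop_atTop.comp hBtop))
  have hQ : ∀ T, sqMass (primesUpTo (B T)) (fun p => 1 / √(p : ℝ)) = recipSum (B T) := fun T => by
    refine sum_congr rfl fun p _ => ?_
    rw [div_pow, one_pow, Real.sq_sqrt (Nat.cast_nonneg p), one_div]
  have hlim : Tendsto (fun T => recipSum (B T) / Real.log (Real.log (B T))) atTop (𝓝 1) := by
    refine (tendsto_const_nhds (x := (1 : ℝ))).congr_dist (squeeze_zero'
      (Eventually.of_forall fun T => dist_nonneg) ?_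
      ((tendsto_const_nhds (x := C)).div_atTop hll))
    filter_upwards [hll.eventually_gt_atTop 0, hBtop.eventually_ge_atTop 2] with T h0 h2
    rw [Real.dist_eq, abs_sub_comm, div_sub_one h0.ne', abs_div, abs_of_pos h0]
    exact div_le_div_of_nonneg_right (hC _ h2) h0.le
  have hG := gaussianLimit_primePoly (P := fun T => primesUpTo (B T))
    (r := fun _ p => 1 / √(p : ℝ)) (B := B)
    (s := fun T => √(Real.log (Real.log (B T)) / 2))
    (fun T p hp => ⟨(mem_primesUpTo.1 hp).1, (mem_primesUpTo.1 hp).2, by positivity,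
      div_le_one_of_le₀ (Real.one_le_sqrt.2 (Nat.one_le_cast.2 (mem_primesUpTo.1 hp).1.one_le))
        (Real.sqrt_nonneg _)⟩)
    (tendsto_pow_div_of_log hB)
    (by
      filter_upwards [hll.eventually_ge_atTop 2] with T hT
      exact Real.one_le_sqrt.2 (by linarith))
    (by
      simp only [hQ]
      refine tendsto_atTop.2 fun b => ?_
      filter_upwards [hll.eventually_ge_atTop (b + C), hBtop.eventually_ge_atTop 2] with T h1 h2
      linarith [(abs_le.1 (hC _ h2)).1])
    (by
      refine hlim.congr' ?_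
      filter_upwards [hll.eventually_gt_atTop 0] with T hT
      rw [hQ, Real.sq_sqrt (by linarith)]
      ring)
  refine (hG.tendsto_measure_le (fun T => ((Complex.continuous_re.comp
    (continuous_primePoly _ _)).div_const _).measurable) x).congr' ?_
  filter_upwards [hll.eventually_gt_atTop 0] with T hT
  congr 3
  ext t
  rw [div_le_iff₀ (Real.sqrt_pos.2 (by linarith)),
    re_primePoly]
  simp only [one_div_mul_eq_div]

end FA.SelbergCLT
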