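import Fermat.Agent.RiemannMangoldt.Xi
import Fermat.Agent.SelbergCLT.Gaussian
import Mathlib.Analysis.SpecialFunctions.ImproperIntegrals
import Mathlib.Analysis.InnerProductSpace.Calculus
import Mathlib.MeasureTheory.Measure.Prod
import Mathlib.MeasureTheory.Integral.IntervalIntegral.FundThmCalculus

/-!
# Moving off the critical line

The mean over `[T, 2T]` of `|log ‖ζ (1/2 + δ + it)‖ - log ‖ζ (1/2 + it)‖|` is `O (δ log T)`: the
logarithmic derivative is `O (log T)` simple poles, and each has real part of mass at most `π` on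
a vertical line.
-/

set_option autoImplicit false

noncomputable section

namespace FA.SelbergCLT

open Finset Filter MeasureTheory
open FA.RiemannMangoldt (exists_zeta_expansion)
open FA.ZeroFree (ell ell_mono)
open scoped Topology Real ENNReal RealInnerProductSpace

/-- `log ‖ζ (σ + it)‖`. -/
def logZeta (σ t : ℝ) : ℝ := Real.log ‖riemannZeta ((σ : ℂ) + t * Complex.I)‖

theorem continuous_zetaLine {σ : ℝ} (hσ : σ ≠ 1) :
    Continuous fun t : ℝ => riemannZeta ((σ : ℂ) + t * Complex.I) := by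
  refine continuous_iff_continuousAt.2 fun t => ?_
  refine (differentiableAt_riemannZeta fun h => hσ ?_).continuousAt.comp
    (by fun_prop : ContinuousAt (fun t : ℝ => (σ : ℂ) + t * Complex.I) t)
  simpa using congrArg Complex.re h

theorem measurable_logZeta {σ : ℝ} (hσ : σ ≠ 1) : Measurable (logZeta σ) :=
  Real.measurable_log.comp (continuous_zetaLine hσ).norm.measurable

theorem lintegral_abs_re_inv_le (σ : ℝ) (ρ : ℂ) :
    ∫⁻ t : ℝ, ENNReal.ofReal |((σ : ℂ) + t * Complex.I - ρ)⁻¹.re| ≤ ENNReal.ofReal π := by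
  have hval : ∀ t : ℝ, ((σ : ℂ) + t * Complex.I - ρ)⁻¹.re =
      (σ - ρ.re) / ((σ - ρ.re) ^ 2 + (t - ρ.im) ^ 2) := fun t => by
    rw [Complex.inv_re, Complex.normSq_apply]
    simp [sq]
  simp only [hval]
  rcases eq_or_ne (σ - ρ.re) 0 with h | h
  · simp [h]
  obtain ⟨a, ha⟩ : ∃ a, a = |σ - ρ.re| := ⟨_, rfl⟩
  have ha0 : 0 < a := ha ▸ abs_pos.2 h
  have e : ∀ t : ℝ, |(σ - ρ.re) / ((σ - ρ.re) ^ 2 + (t - ρ.im) ^ 2)| =
      a⁻¹ * (1 + (a⁻¹ * (t - ρ.im)) ^ 2)⁻¹ := fun t => by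
    rw [abs_div, abs_of_nonneg (show 0 ≤ (σ - ρ.re) ^ 2 + (t - ρ.im) ^ 2 by positivity),
      ← sq_abs (σ - ρ.re), ← ha]
    field_simp
  simp only [e]
  have hint : Integrable fun t : ℝ => a⁻¹ * (1 + (a⁻¹ * (t - ρ.im)) ^ 2)⁻¹ :=
    (((integrable_inv_one_add_sq.comp_mul_left' (inv_ne_zero ha0.ne')).comp_sub_right
      ρ.im)).const_mul _
  rw [← ofReal_integral_eq_lintegral_ofReal hint (Eventually.of_forall fun t => by positivity),
    integral_const_mul,
    integral_sub_right_eq_self (fun t : ℝ => (1 + (a⁻¹ * t) ^ 2)⁻¹) ρ.im,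
    Measure.integral_comp_mul_left (fun t : ℝ => (1 + t ^ 2)⁻¹) a⁻¹,
    integral_univ_inv_one_add_sq, smul_eq_mul, inv_inv, abs_of_pos ha0, ← mul_assoc,
    inv_mul_cancel₀ ha0.ne', one_mul]

theorem hasDerivAt_logZeta {σ t : ℝ} (h1 : (σ : ℂ) + t * Complex.I ≠ 1)
    (h0 : riemannZeta ((σ : ℂ) + t * Complex.I) ≠ 0) :
    HasDerivAt (fun x => logZeta x t)
      (deriv riemannZeta ((σ : ℂ) + t * Complex.I) /
        riemannZeta ((σ : ℂ) + t * Complex.I)).re σ := by
  obtain ⟨s, hs⟩ : ∃ s : ℂ, s = (σ : ℂ) + t * Complex.I := ⟨_, rfl⟩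
  rw [← hs] at h1 h0 ⊢
  have hf : HasDerivAt (fun x : ℝ => riemannZeta ((x : ℂ) + t * Complex.I))
      (deriv riemannZeta s) σ := by
    have hlin : HasDerivAt (fun x : ℝ => (x : ℂ) + t * Complex.I) 1 σ := by
      simpa using (Complex.ofRealCLM.hasDerivAt (x := σ)).add_const ((t : ℂ) * Complex.I)
    have h := (hs ▸ (differentiableAt_riemannZeta h1).hasDerivAt :
      HasDerivAt riemannZeta (deriv riemannZeta s) ((σ : ℂ) + t * Complex.I)).scomp σ hlin
    simpa [Function.comp_def, hs] using h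
  have hn := hf.norm_sq
  have e : (fun x => logZeta x t) =
      fun x : ℝ => Real.log (‖riemannZeta ((x : ℂ) + t * Complex.I)‖ ^ 2) / 2 := by
    funext x
    rw [logZeta, Real.log_pow]
    push_cast
    ring
  rw [e]
  refine ((hn.log (by rw [← hs]; positivity)).div_const 2).congr_deriv ?_
  rw [← hs, Complex.inner, ← Complex.normSq_eq_norm_sq, Complex.div_re, Complex.normSq_apply]
  have : 0 < (riemannZeta s).re * (riemannZeta s).re + (riemannZeta s).im * (riemannZeta s).im := by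
    rw [← Complex.normSq_apply]
    exact Complex.normSq_pos.2 h0
  simp only [Complex.mul_re, Complex.conj_re, Complex.conj_im]
  field_simp
  ring

theorem analyticAt_zeta {s : ℂ} (h : s ≠ 1) : AnalyticAt ℂ riemannZeta s :=
  DifferentiableOn.analyticAt (s := {z : ℂ | z ≠ 1})
    (fun _ hz => (differentiableAt_riemannZeta hz).differentiableWithinAt)
    (isOpen_ne.mem_nhds h)

theorem analyticOrderNatAt_zeta_ne_zero {s : ℂ} (hs : 0 < s.re) (h1 : s ≠ 1)
    (h0 : riemannZeta s = 0) : analyticOrderNatAt riemannZeta s ≠ 0 := by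
  obtain ⟨Z, h, -, he, -, hne, hord⟩ :=
    FA.RiemannMangoldt.exists_xi_factor (show (0 : ℝ) < ‖s - 2‖ + 1 by positivity)
  have hmem : s ∈ Metric.closedBall (2 : ℂ) (‖s - 2‖ + 1) := by
    rw [Metric.mem_closedBall, dist_eq_norm]
    linarith
  rw [← FA.RiemannMangoldt.analyticOrderNatAt_xiFn hs h1, hord s hmem]
  have hxi := (FA.RiemannMangoldt.xiFn_eq_zero_iff hs h1).2 h0
  rw [he s, mul_eq_zero] at hxi
  have hr := hxi.resolve_right (hne s hmem)
  rw [FA.RiemannMangoldt.rootProd, Multiset.prod_eq_zero_iff, Multiset.mem_map] at hr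
  obtain ⟨ρ, hρ, hρ0⟩ := hr
  exact Multiset.count_ne_zero.2 ((sub_eq_zero.1 hρ0).symm ▸ hρ)

/-- **On an interval of length `1/2`.** -/
theorem exists_shift_local : ∃ C : ℝ, 0 ≤ C ∧ ∀ a δ : ℝ, 3 ≤ a → 0 ≤ δ → δ ≤ 1 / 4 →
    ∫⁻ t in Set.Icc a (a + 1 / 2), ENNReal.ofReal |logZeta (1 / 2 + δ) t - logZeta (1 / 2) t| ≤
      ENNReal.ofReal (C * δ * ell (a + 1 / 4)) := by
  obtain ⟨K, hK0, hK⟩ := exists_zeta_expansion
  refine ⟨K / 2 + K * π, by positivity, fun a δ ha hδ0 hδ => ?_⟩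
  obtain ⟨c, hc⟩ : ∃ c, c = a + 1 / 4 := ⟨_, rfl⟩
  rw [← hc]
  obtain ⟨Z, -, hcard, hord, hexp⟩ := hK c (by rw [abs_of_nonneg (by linarith)]; linarith)
  obtain ⟨D, hD⟩ : ∃ D : ℝ → ℝ → ℝ, D = fun (σ t : ℝ) => K * ell c +
      ∑ ρ ∈ Z.toFinset, (Z.count ρ : ℝ) * |((σ : ℂ) + t * Complex.I - ρ)⁻¹.re| := ⟨_, rfl⟩
  have hell : 0 ≤ ell c := Real.log_nonneg (by linarith [abs_nonneg c])
  have hDnn : ∀ σ t, 0 ≤ D σ t := fun σ t => by
    rw [hD]
    positivity
  have hDm : Measurable (Function.uncurry fun t σ => D σ t) := by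
    rw [hD]
    fun_prop
  obtain ⟨N, hN⟩ : ∃ N : Set ℝ, N = (fun ρ : ℂ => ρ.im) '' ↑Z.toFinset := ⟨_, rfl⟩
  have hpt : ∀ t ∈ Set.Icc a (a + 1 / 2), t ∉ N →
      ENNReal.ofReal |logZeta (1 / 2 + δ) t - logZeta (1 / 2) t| ≤
        ∫⁻ σ in Set.Icc (1 / 2) (1 / 2 + δ), ENNReal.ofReal (D σ t) := by
    intro t ht htN
    have hnot : ∀ ρ ∈ Z, t ≠ ρ.im := fun ρ hρ h =>
      htN (hN ▸ ⟨ρ, mem_coe.2 (Multiset.mem_toFinset.2 hρ), h.symm⟩)
    have hdist : ∀ σ ∈ Set.Icc (1 / 2 : ℝ) (1 / 2 + δ),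
        ‖(σ : ℂ) + t * Complex.I - (((3 / 2 : ℝ) : ℂ) + c * Complex.I)‖ ≤ 21 / 20 := fun σ hσ => by
      rw [show (σ : ℂ) + t * Complex.I - (((3 / 2 : ℝ) : ℂ) + c * Complex.I) =
        ((σ - 3 / 2 : ℝ) : ℂ) + ((t - c : ℝ) : ℂ) * Complex.I by push_cast; ring,
        Complex.norm_add_mul_I, Real.sqrt_le_left (by norm_num)]
      have h1 : (σ - 3 / 2) ^ 2 ≤ 1 := by nlinarith [hσ.1, hσ.2]
      have h2 : (t - c) ^ 2 ≤ 1 / 16 := by nlinarith [ht.1, ht.2]
      norm_num
      linarith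
    have hone : ∀ σ ∈ Set.Icc (1 / 2 : ℝ) (1 / 2 + δ), (σ : ℂ) + t * Complex.I ≠ 1 :=
      fun σ hσ h => by
        have := congrArg Complex.re h
        simp at this
        linarith [hσ.2]
    have hne : ∀ σ ∈ Set.Icc (1 / 2 : ℝ) (1 / 2 + δ),
        riemannZeta ((σ : ℂ) + t * Complex.I) ≠ 0 := fun σ hσ h => by
      have hmem : (σ : ℂ) + t * Complex.I ∈ Z := by
        have hpos := analyticOrderNatAt_zeta_ne_zero
          (show 0 < ((σ : ℂ) + t * Complex.I).re by simp; linarith [hσ.1]) (hone σ hσ) h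
        rw [hord _ ((hdist σ hσ).trans (by norm_num))] at hpos
        exact Multiset.count_ne_zero.1 hpos
      exact hnot _ hmem (by simp)
    have hder : ∀ σ ∈ Set.Icc (1 / 2 : ℝ) (1 / 2 + δ),
        |(deriv riemannZeta ((σ : ℂ) + t * Complex.I) /
          riemannZeta ((σ : ℂ) + t * Complex.I)).re| ≤ D σ t := fun σ hσ => by
      have h := hexp _ (hdist σ hσ) (hne σ hσ)
      rw [hD]
      obtain ⟨S, hS⟩ : ∃ S : ℂ, S = (Z.map fun ρ => ((σ : ℂ) + t * Complex.I - ρ)⁻¹).sum :=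
        ⟨_, rfl⟩
      rw [← hS] at h
      have h1 := (Complex.abs_re_le_norm _).trans h
      rw [Complex.sub_re] at h1
      have h2 : |S.re| ≤ ∑ ρ ∈ Z.toFinset,
          (Z.count ρ : ℝ) * |((σ : ℂ) + t * Complex.I - ρ)⁻¹.re| := by
        rw [hS, Finset.sum_multiset_map_count, Complex.re_sum]
        refine (abs_sum_le_sum_abs _ _).trans (le_of_eq (sum_congr rfl fun ρ _ => ?_))
        rw [nsmul_eq_mul, ← Complex.ofReal_natCast, Complex.re_ofReal_mul, abs_mul, Nat.abs_cast]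
      linarith [abs_sub_abs_le_abs_sub (deriv riemannZeta ((σ : ℂ) + t * Complex.I) /
        riemannZeta ((σ : ℂ) + t * Complex.I)).re S.re]
    have hcontD : ContinuousOn (fun σ => D σ t) (Set.Icc (1 / 2) (1 / 2 + δ)) := by
      rw [hD]
      refine continuousOn_const.add (continuousOn_finsetSum _ fun ρ hρ => ?_)
      refine continuousOn_const.mul (Complex.continuous_re.comp_continuousOn
        (ContinuousOn.inv₀ (by fun_prop) fun σ _ h0 => hnot ρ (Multiset.mem_toFinset.1 hρ) ?_)).abs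
      simpa [sub_eq_zero] using congrArg Complex.im h0
    have hcont : ContinuousOn (fun σ : ℝ => (deriv riemannZeta ((σ : ℂ) + t * Complex.I) /
        riemannZeta ((σ : ℂ) + t * Complex.I)).re) (Set.Icc (1 / 2) (1 / 2 + δ)) := by
      refine Complex.continuous_re.comp_continuousOn (ContinuousOn.div ?_ ?_ hne)
      · intro σ hσ
        exact ((analyticAt_zeta (hone σ hσ)).deriv.continuousAt.comp_of_eq
          (by fun_prop : ContinuousAt (fun x : ℝ => (x : ℂ) + t * Complex.I) σ)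
          rfl).continuousWithinAt
      · intro σ hσ
        exact ((analyticAt_zeta (hone σ hσ)).continuousAt.comp_of_eq
          (by fun_prop : ContinuousAt (fun x : ℝ => (x : ℂ) + t * Complex.I) σ)
          rfl).continuousWithinAt
    have hab : (1 / 2 : ℝ) ≤ 1 / 2 + δ := by linarith
    have hftc : ∫ σ in (1 / 2 : ℝ)..1 / 2 + δ, (deriv riemannZeta ((σ : ℂ) + t * Complex.I) /
        riemannZeta ((σ : ℂ) + t * Complex.I)).re = logZeta (1 / 2 + δ) t - logZeta (1 / 2) t := by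
      refine intervalIntegral.integral_eq_sub_of_hasDerivAt (f := fun x => logZeta x t)
        (fun σ hσ => ?_) ((Set.uIcc_of_le hab).symm ▸ hcont).intervalIntegrable
      rw [Set.uIcc_of_le hab] at hσ
      exact hasDerivAt_logZeta (hone σ hσ) (hne σ hσ)
    rw [← hftc, ← ofReal_integral_eq_lintegral_ofReal (hcontD.integrableOn_compact isCompact_Icc)
      (Eventually.of_forall fun σ => hDnn σ t), integral_Icc_eq_integral_Ioc,
      ← intervalIntegral.integral_of_le hab]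
    refine ENNReal.ofReal_le_ofReal ?_
    rw [← Real.norm_eq_abs]
    refine intervalIntegral.norm_integral_le_of_norm_le hab (Eventually.of_forall fun σ hσ => ?_)
      ((Set.uIcc_of_le hab).symm ▸ hcontD).intervalIntegrable
    exact hder σ ⟨hσ.1.le, hσ.2⟩
  have hNnull : volume N = 0 := hN ▸ ((Z.toFinset.finite_toSet).image _).measure_zero _
  calc ∫⁻ t in Set.Icc a (a + 1 / 2), ENNReal.ofReal |logZeta (1 / 2 + δ) t - logZeta (1 / 2) t|
      ≤ ∫⁻ t in Set.Icc a (a + 1 / 2), ∫⁻ σ in Set.Icc (1 / 2) (1 / 2 + δ),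
          ENNReal.ofReal (D σ t) := by
        refine lintegral_mono_ae ((ae_restrict_iff' measurableSet_Icc).2 ?_)
        filter_upwards [measure_eq_zero_iff_ae_notMem.1 hNnull] with t ht htI
        exact hpt t htI ht
    _ = ∫⁻ σ in Set.Icc (1 / 2) (1 / 2 + δ), ∫⁻ t in Set.Icc a (a + 1 / 2),
          ENNReal.ofReal (D σ t) :=
        lintegral_lintegral_swap hDm.ennreal_ofReal.aemeasurable
    _ ≤ ∫⁻ _ in Set.Icc (1 / 2) (1 / 2 + δ),
          ENNReal.ofReal (K * ell c / 2 + K * ell c * π) := by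
        refine lintegral_mono fun σ => ?_
        simp only [hD]
        rw [lintegral_congr fun t => ENNReal.ofReal_add (by positivity) (sum_nonneg fun ρ _ =>
          by positivity), lintegral_add_left measurable_const, setLIntegral_const, Real.volume_Icc,
          ENNReal.ofReal_add (by positivity) (by positivity)]
        refine add_le_add (le_of_eq ?_) ?_
        · rw [← ENNReal.ofReal_mul (by positivity)]
          ring_nf
        simp only [ENNReal.ofReal_sum_of_nonneg fun ρ (_ : ρ ∈ Z.toFinset) =>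
          mul_nonneg (Nat.cast_nonneg (α := ℝ) (Z.count ρ)) (abs_nonneg _)]
        rw [lintegral_finsetSum _ fun ρ _ => by fun_prop]
        refine (sum_le_sum (g := fun ρ => ENNReal.ofReal ((Z.count ρ : ℝ) * π)) fun ρ _ => ?_).trans
          (le_of_eq_of_le (ENNReal.ofReal_sum_of_nonneg fun ρ _ => by positivity).symm
            (ENNReal.ofReal_le_ofReal ?_))
        · simp only [ENNReal.ofReal_mul (Nat.cast_nonneg (α := ℝ) (Z.count ρ))]
          rw [lintegral_const_mul' _ _ ENNReal.ofReal_ne_top]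
          gcongr
          exact (setLIntegral_le_lintegral _ _).trans (lintegral_abs_re_inv_le σ ρ)
        · rw [← sum_mul, ← Nat.cast_sum, Multiset.toFinset_sum_count_eq]
          exact mul_le_mul_of_nonneg_right hcard Real.pi_pos.le
    _ = _ := by
        rw [setLIntegral_const, Real.volume_Icc, ← ENNReal.ofReal_mul (by positivity)]
        ring_nf

/-- **The mean of the shift.** -/
theorem exists_shift_bound : ∃ C : ℝ, 0 ≤ C ∧ ∀ T δ : ℝ, 3 ≤ T → 0 ≤ δ → δ ≤ 1 / 4 →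
    ∫⁻ t in Set.Icc T (2 * T), ENNReal.ofReal |logZeta (1 / 2 + δ) t - logZeta (1 / 2) t| ≤
      ENNReal.ofReal (C * δ * T * ell (3 * T)) := by
  obtain ⟨C, hC0, hC⟩ := exists_shift_local
  refine ⟨3 * C, by positivity, fun T δ hT hδ0 hδ => ?_⟩
  obtain ⟨n, hn⟩ : ∃ n : ℕ, n = ⌈2 * T⌉₊ := ⟨_, rfl⟩
  have hn1 : 2 * T ≤ n := hn ▸ Nat.le_ceil _
  have hn2 : (n : ℝ) < 2 * T + 1 := hn ▸ Nat.ceil_lt_add_one (by linarith)
  have hcover : Set.Icc T (2 * T) ⊆
      ⋃ k : Fin n, Set.Icc (T + (k : ℕ) / 2) (T + (k : ℕ) / 2 + 1 / 2) := by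
    intro t ht
    obtain ⟨j, hj⟩ : ∃ j, j = ⌊2 * (t - T)⌋₊ := ⟨_, rfl⟩
    have h1 : (j : ℝ) ≤ 2 * (t - T) := hj ▸ Nat.floor_le (by linarith [ht.1])
    have h2 : 2 * (t - T) < (j : ℝ) + 1 := hj ▸ Nat.lt_floor_add_one _
    rcases lt_or_ge j n with hlt | hge
    · exact Set.mem_iUnion.2 ⟨⟨j, hlt⟩, by constructor <;> simp only <;> linarith⟩
    · have : (n : ℝ) ≤ j := Nat.cast_le.2 hge
      have hn0 : 0 < n := by
        rcases Nat.eq_zero_or_pos n with h0 | h0
        · rw [h0] at hn1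
          norm_num at hn1
          linarith
        · exact h0
      refine Set.mem_iUnion.2 ⟨⟨n - 1, by omega⟩, ?_⟩
      simp only [Nat.cast_sub hn0, Set.mem_Icc, Nat.cast_one]
      constructor <;> linarith [ht.2]
  refine (lintegral_mono_set hcover).trans ((lintegral_iUnion_le _ _).trans ?_)
  rw [tsum_fintype]
  refine (sum_le_sum (g := fun _ => ENNReal.ofReal (C * δ * ell (3 * T))) fun k _ => ?_).trans ?_
  · have hk : ((k : ℕ) : ℝ) + 1 ≤ n := by exact_mod_cast k.isLt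
    refine (hC _ δ (by linarith [Nat.cast_nonneg (α := ℝ) (k : ℕ)]) hδ0 hδ).trans
      (ENNReal.ofReal_le_ofReal (mul_le_mul_of_nonneg_left (ell_mono ?_) (by positivity)))
    rw [abs_of_nonneg (by positivity), abs_of_nonneg (by positivity)]
    linarith
  · rw [sum_const, card_univ, Fintype.card_fin, ← ENNReal.ofReal_nsmul, nsmul_eq_mul]
    refine ENNReal.ofReal_le_ofReal ?_
    have hell : 0 ≤ ell (3 * T) := Real.log_nonneg (by linarith [abs_nonneg (3 * T)])
    calc (n : ℝ) * (C * δ * ell (3 * T)) ≤ 3 * T * (C * δ * ell (3 * T)) :=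
          mul_le_mul_of_nonneg_right (by linarith) (by positivity)
      _ = _ := by ring

/-- **The shift is negligible on the scale `s`.** -/
theorem close_logZeta_shift {δ s : ℝ → ℝ} (hδ : ∀ T, 0 ≤ δ T ∧ δ T ≤ 1 / 4)
    (hs : ∀ᶠ T in atTop, 0 < s T)
    (hlim : Tendsto (fun T => δ T * Real.log T / s T) atTop (𝓝 0)) :
    Close (fun T t => logZeta (1 / 2 + δ T) t / s T) (fun T t => logZeta (1 / 2) t / s T) := by
  obtain ⟨C, hC0, hC⟩ := exists_shift_bound
  refine close_of_lintegral (e := fun T => C * 3 * (δ T * Real.log T / s T))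
    (fun T => (measurable_logZeta (by linarith [(hδ T).2])).div_const _)
    (fun T => (measurable_logZeta (by norm_num)).div_const _) (by simpa using hlim.const_mul _) ?_
  filter_upwards [hs, eventually_ge_atTop (103 : ℝ)] with T hs0 hT
  have hmul : ∀ t, ENNReal.ofReal |logZeta (1 / 2 + δ T) t / s T - logZeta (1 / 2) t / s T| =
      ENNReal.ofReal (s T)⁻¹ *
        ENNReal.ofReal |logZeta (1 / 2 + δ T) t - logZeta (1 / 2) t| := fun t => by
    rw [← ENNReal.ofReal_mul (inv_nonneg.2 hs0.le), ← sub_div, abs_div, abs_of_pos hs0,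
      div_eq_inv_mul]
  simp only [hmul, lintegral_const_mul' _ _ ENNReal.ofReal_ne_top]
  refine (mul_le_mul_right (hC T (δ T) (by linarith) (hδ T).1 (hδ T).2) _).trans ?_
  rw [← ENNReal.ofReal_mul (inv_nonneg.2 hs0.le)]
  refine ENNReal.ofReal_le_ofReal ?_
  have hl : ell (3 * T) ≤ 3 * Real.log T := by
    rw [ell, ← Real.log_rpow (by linarith)]
    refine Real.log_le_log (by positivity) ?_
    rw [abs_of_nonneg (by linarith), show (3 : ℝ) = ((3 : ℕ) : ℝ) by norm_num, Real.rpow_natCast]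
    push_cast
    nlinarith [mul_le_mul hT hT (by norm_num) (by linarith : (0 : ℝ) ≤ T)]
  have h0 : 0 ≤ (s T)⁻¹ * (C * δ T * T) := by
    have := (hδ T).1
    positivity
  refine le_trans (le_of_eq (by ring : _ = (s T)⁻¹ * (C * δ T * T) * ell (3 * T)))
    ((mul_le_mul_of_nonneg_left hl h0).trans (le_of_eq ?_))
  ring

end FA.SelbergCLT
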