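import Fermat.Agent.SelbergCLT.Mollifier
import Mathlib.Analysis.SpecialFunctions.Complex.LogBounds
import Mathlib.Analysis.SpecialFunctions.Integrals.Basic
import Mathlib.Algebra.Order.Field.GeomSum

/-!
# The logarithm of a truncated product

If `∑ x` and `∑ |x|²` are small against `K`, the truncated product has logarithm
`-re ∑ x - re (∑ x²) / 2 + O (∑ |x|³) + O (1)`.
-/

set_option autoImplicit false

noncomputable section

namespace FA.SelbergCLT

open Finset MeasureTheory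
open scoped Real

theorem norm_one_sub_le_exp (u : ℂ) :
    ‖1 - u‖ ≤ Real.exp (-u.re + ‖u‖ ^ 2 / 2) := by
  have h1 : ‖1 - u‖ ^ 2 = 1 + (-2 * u.re + ‖u‖ ^ 2) := by
    rw [Complex.sq_norm, Complex.sq_norm, Complex.normSq_apply, Complex.normSq_apply]
    simp
    ring
  have h2 : ‖1 - u‖ ^ 2 ≤ Real.exp (-u.re + ‖u‖ ^ 2 / 2) ^ 2 := by
    rw [h1, ← Real.exp_nat_mul, add_comm]
    refine (Real.add_one_le_exp _).trans (Real.exp_le_exp.2 (le_of_eq ?_))
    push_cast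
    ring
  exact (pow_le_pow_iff_left₀ (norm_nonneg _) (Real.exp_pos _).le two_ne_zero).1 h2

theorem norm_prod_one_sub_le {S : Finset ℕ} {x : ℕ → ℂ} {w : ℂ} (hw : ‖w‖ = 2) :
    ‖∏ p ∈ S, (1 - w * x p)‖ ≤
      Real.exp (2 * ‖∑ p ∈ S, x p‖ + 2 * ∑ p ∈ S, ‖x p‖ ^ 2) := by
  rw [norm_prod]
  refine (prod_le_prod (fun p _ => norm_nonneg _) fun p _ => norm_one_sub_le_exp (w * x p)).trans ?_
  rw [← Real.exp_sum, Real.exp_le_exp, sum_add_distrib, sum_neg_distrib, ← Complex.re_sum,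
    ← mul_sum]
  refine add_le_add ?_ (le_of_eq ?_)
  · refine (neg_le_abs _).trans ((Complex.abs_re_le_norm _).trans (le_of_eq ?_))
    rw [norm_mul, hw]
  · rw [mul_sum]
    refine sum_congr rfl fun p _ => ?_
    rw [norm_mul, hw]
    ring

theorem integral_exp_int_mul (j : ℤ) :
    ∫ θ in (0 : ℝ)..2 * π, Complex.exp ((j : ℂ) * Complex.I * θ) =
      if j = 0 then (2 * π : ℂ) else 0 := by
  rcases eq_or_ne j 0 with rfl | hj
  · rw [if_pos rfl]
    simp only [Int.cast_zero, zero_mul, Complex.exp_zero, intervalIntegral.integral_const, sub_zero,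
      Complex.real_smul, mul_one]
    push_cast
    rfl
  · rw [if_neg hj, integral_exp_mul_complex (mul_ne_zero (Int.cast_ne_zero.2 hj) Complex.I_ne_zero)]
    rw [Complex.ofReal_zero, mul_zero, Complex.exp_zero,
      show (j : ℂ) * Complex.I * ((2 * π : ℝ) : ℂ) = (j : ℂ) * (2 * π * Complex.I) by
        push_cast; ring, Complex.exp_int_mul_two_pi_mul_I, sub_self, zero_div]

/-- **Cauchy's estimate for the elementary symmetric functions.** -/
theorem norm_sum_powersetCard_le (S : Finset ℕ) (x : ℕ → ℂ) (j : ℕ) :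
    ‖∑ A ∈ S.powersetCard j, ∏ p ∈ A, -x p‖ * 2 ^ j ≤
      Real.exp (2 * ‖∑ p ∈ S, x p‖ + 2 * ∑ p ∈ S, ‖x p‖ ^ 2) := by
  obtain ⟨c, hc⟩ : ∃ c : Finset ℕ → ℂ, c = fun A => ∏ p ∈ A, -x p := ⟨_, rfl⟩
  obtain ⟨g, hg⟩ : ∃ g : ℝ → ℂ, g = fun θ : ℝ => (∏ p ∈ S, (1 - 2 * Complex.exp (θ * Complex.I) *
      x p)) * Complex.exp (((-(j : ℤ) : ℤ) : ℂ) * Complex.I * θ) := ⟨_, rfl⟩
  have e : ∀ θ : ℝ, g θ = ∑ A ∈ S.powerset, (c A * 2 ^ A.card) *
      Complex.exp ((((A.card : ℤ) - j : ℤ) : ℂ) * Complex.I * θ) := fun θ => by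
    rw [hg]
    simp only
    rw [prod_congr rfl fun p _ => show 1 - 2 * Complex.exp (θ * Complex.I) * x p =
      1 + 2 * Complex.exp (θ * Complex.I) * -x p by ring, prod_one_add, sum_mul]
    refine sum_congr rfl fun A _ => ?_
    rw [prod_mul_distrib, prod_const, mul_pow, ← Complex.exp_nat_mul, hc]
    simp only
    rw [show (((A.card : ℤ) - j : ℤ) : ℂ) * Complex.I * θ = (A.card : ℂ) * (θ * Complex.I) +
      ((-(j : ℤ) : ℤ) : ℂ) * Complex.I * θ by push_cast; ring, Complex.exp_add]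
    ring
  have hint : ∫ θ in (0 : ℝ)..2 * π, g θ = (2 * π : ℂ) * (2 ^ j * ∑ A ∈ S.powersetCard j, c A) := by
    simp only [e]
    rw [intervalIntegral.integral_finsetSum fun A _ =>
      (by fun_prop : Continuous fun θ : ℝ => (c A * 2 ^ A.card) *
        Complex.exp ((((A.card : ℤ) - j : ℤ) : ℂ) * Complex.I * θ)).intervalIntegrable _ _]
    simp only [intervalIntegral.integral_const_mul, integral_exp_int_mul, sub_eq_zero,
      Int.natCast_inj, mul_ite, mul_zero]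
    rw [← sum_filter, ← powersetCard_eq_filter, mul_sum, mul_sum]
    refine sum_congr rfl fun A hA => ?_
    rw [(mem_powersetCard.1 hA).2]
    ring
  have hb : ∀ θ ∈ Set.uIoc (0 : ℝ) (2 * π),
      ‖g θ‖ ≤ Real.exp (2 * ‖∑ p ∈ S, x p‖ + 2 * ∑ p ∈ S, ‖x p‖ ^ 2) := fun θ _ => by
    rw [hg]
    simp only
    rw [norm_mul, show (((-(j : ℤ) : ℤ) : ℂ) * Complex.I * θ) =
      (((-(j : ℝ)) * θ : ℝ) : ℂ) * Complex.I by push_cast; ring, Complex.norm_exp_ofReal_mul_I,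
      mul_one]
    exact norm_prod_one_sub_le (by
      rw [norm_mul, Complex.norm_two, Complex.norm_exp_ofReal_mul_I, mul_one])
  have h := intervalIntegral.norm_integral_le_of_norm_le_const hb
  rw [hint, norm_mul, norm_mul, norm_mul, norm_pow, Complex.norm_two, Complex.norm_real,
    Real.norm_of_nonneg Real.pi_pos.le, sub_zero, abs_of_pos Real.two_pi_pos,
    mul_comm _ (2 * π)] at h
  have h' := le_of_mul_le_mul_left h Real.two_pi_pos
  rw [hc, mul_comm] at h'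
  exact h'

theorem norm_trunc_sub_prod_le_exp (S : Finset ℕ) (K : ℕ) (x : ℕ → ℂ) :
    ‖trunc S K x - ∏ p ∈ S, (1 - x p)‖ ≤
      Real.exp (2 * ‖∑ p ∈ S, x p‖ + 2 * ∑ p ∈ S, ‖x p‖ ^ 2) / 2 ^ K := by
  obtain ⟨E, hE⟩ : ∃ E, E = Real.exp (2 * ‖∑ p ∈ S, x p‖ + 2 * ∑ p ∈ S, ‖x p‖ ^ 2) := ⟨_, rfl⟩
  have hE0 : 0 ≤ E := hE ▸ (Real.exp_pos _).le
  rw [← hE]
  have e : ∏ p ∈ S, (1 - x p) = ∑ A ∈ S.powerset, ∏ p ∈ A, -x p := by
    rw [← prod_one_add]
    exact prod_congr rfl fun p _ => sub_eq_add_neg _ _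
  have hmap : ∀ A ∈ S.powerset.filter (fun A => ¬ A.card ≤ K),
      A.card ∈ Ico (K + 1) (S.card + 1) := fun A hA => by
    rw [mem_filter, mem_powerset] at hA
    have := card_le_card hA.1
    rw [mem_Ico]
    omega
  rw [e, trunc, smallSets, ← sum_filter_add_sum_filter_not S.powerset (fun A => A.card ≤ K),
    sub_add_cancel_left, norm_neg, ← sum_fiberwise_of_maps_to hmap]
  refine (norm_sum_le_of_le _ (n := fun j => E * (1 / 2) ^ j) fun j hj => ?_).trans ?_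
  · rw [mem_Ico] at hj
    have hs : (S.powerset.filter fun A => ¬ A.card ≤ K).filter (fun A => A.card = j) =
        S.powersetCard j := by
      ext A
      simp only [mem_filter, mem_powerset, mem_powersetCard]
      constructor
      · exact fun h => ⟨h.1.1, h.2⟩
      · exact fun h => ⟨⟨h.1, by omega⟩, h.2⟩
    rw [hs, one_div, inv_pow, ← div_eq_mul_inv, le_div_iff₀ (by positivity), hE]
    exact norm_sum_powersetCard_le S x j
  · rw [← mul_sum, div_eq_mul_inv]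
    refine mul_le_mul_of_nonneg_left ((geom_sum_Ico_le_of_lt_one (by norm_num) (by norm_num)).trans
      (le_of_eq ?_)) hE0
    rw [one_mul, pow_succ, inv_pow]
    norm_num

theorem abs_log_norm_one_sub_le {u : ℂ} (hu : ‖u‖ ≤ 3 / 4) :
    |Real.log ‖1 - u‖ + u.re + (u ^ 2).re / 2| ≤ 4 / 3 * ‖u‖ ^ 3 := by
  have h := Complex.norm_log_sub_logTaylor_le 2 (z := -u) (by rw [norm_neg]; linarith)
  rw [norm_neg] at h
  have e : Complex.log (1 + -u) - Complex.logTaylor (2 + 1) (-u) =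
      Complex.log (1 - u) + u + u ^ 2 / 2 := by
    simp [Complex.logTaylor, sum_range_succ, ← sub_eq_add_neg]
    ring
  rw [e] at h
  have h1 := (Complex.abs_re_le_norm _).trans h
  rw [Complex.add_re, Complex.add_re, Complex.log_re, Complex.div_ofNat_re] at h1
  refine h1.trans ?_
  rw [show (2 + 1 : ℕ) = 3 from rfl]
  push_cast
  have h4 : (1 - ‖u‖)⁻¹ ≤ 4 := by
    rw [inv_le_comm₀ (by linarith) (by norm_num)]
    linarith
  have := mul_le_mul_of_nonneg_left h4 (pow_nonneg (norm_nonneg u) 3)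
  linarith

/-- **The logarithm of the truncated product.** -/
theorem abs_log_norm_trunc_add_le {S : Finset ℕ} {x : ℕ → ℂ} (hx : ∀ p ∈ S, ‖x p‖ ≤ 3 / 4)
    {C : ℝ} (hC : ∑ p ∈ S, 4 / 3 * ‖x p‖ ^ 3 ≤ C) {K : ℕ}
    (hK : 3 * ‖∑ p ∈ S, x p‖ + 3 * ∑ p ∈ S, ‖x p‖ ^ 2 + C + 1 ≤ K * Real.log 2) :
    |Real.log ‖trunc S K x‖ + (∑ p ∈ S, x p).re + (∑ p ∈ S, x p ^ 2).re / 2| ≤ C + 1 := by
  obtain ⟨F, hF⟩ : ∃ F, F = ∏ p ∈ S, (1 - x p) := ⟨_, rfl⟩
  have hne : ∀ p ∈ S, ‖1 - x p‖ ≠ 0 := fun p hp h => by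
    rw [norm_eq_zero, sub_eq_zero] at h
    have := hx p hp
    rw [← h, norm_one] at this
    norm_num at this
  have hFpos : 0 < ‖F‖ := by
    rw [hF, norm_prod]
    exact prod_pos fun p hp => lt_of_le_of_ne (norm_nonneg _) (hne p hp).symm
  have hlogF : |Real.log ‖F‖ + (∑ p ∈ S, x p).re + (∑ p ∈ S, x p ^ 2).re / 2| ≤ C := by
    rw [hF, norm_prod, Real.log_prod hne, Complex.re_sum, Complex.re_sum, sum_div,
      ← sum_add_distrib, ← sum_add_distrib]
    exact (abs_sum_le_sum_abs _ _).trans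
      ((sum_le_sum fun p hp => abs_log_norm_one_sub_le (hx p hp)).trans hC)
  have hq : |(∑ p ∈ S, x p ^ 2).re| ≤ ∑ p ∈ S, ‖x p‖ ^ 2 :=
    (Complex.abs_re_le_norm _).trans
      ((norm_sum_le _ _).trans (le_of_eq (sum_congr rfl fun p _ => norm_pow _ _)))
  have hs := Complex.abs_re_le_norm (∑ p ∈ S, x p)
  have hsmall : ‖trunc S K x - F‖ ≤ ‖F‖ / 2 := by
    refine ((norm_trunc_sub_prod_le_exp S K x).trans_eq' (by rw [hF])).trans ?_
    rw [← Real.exp_log (pow_pos (two_pos (α := ℝ)) K), Real.log_pow, ← Real.exp_sub,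
      ← Real.exp_log hFpos]
    refine le_trans (Real.exp_le_exp.2 (show _ ≤ Real.log ‖F‖ - 1 from ?_)) ?_
    · linarith [abs_le.1 hlogF, abs_le.1 hq, abs_le.1 hs,
        show 0 ≤ ∑ p ∈ S, ‖x p‖ ^ 2 from sum_nonneg fun p _ => sq_nonneg _]
    · rw [Real.exp_sub]
      exact div_le_div_of_nonneg_left (Real.exp_pos _).le two_pos
        (by linarith [Real.add_one_le_exp (1 : ℝ)])
  have hlo : ‖F‖ / 2 ≤ ‖trunc S K x‖ := by
    have := norm_sub_norm_le F (trunc S K x)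
    rw [norm_sub_rev] at this
    linarith
  have hhi : ‖trunc S K x‖ ≤ 2 * ‖F‖ := by
    have := norm_le_norm_add_norm_sub' (trunc S K x) F
    linarith
  have h1 := Real.log_le_log (by linarith) hlo
  have h2 := Real.log_le_log (lt_of_lt_of_le (by linarith) hlo) hhi
  rw [Real.log_div hFpos.ne' two_ne_zero] at h1
  rw [Real.log_mul two_ne_zero hFpos.ne'] at h2
  have h3 := abs_le.1 hlogF
  rw [abs_le]
  constructor <;> linarith [Real.log_two_lt_d9]

end FA.SelbergCLT
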