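import Fermat.Agent.SelbergCLT.MeanSquare
import Fermat.Agent.SelbergCLT.TruncLog
import Fermat.Agent.SelbergCLT.PrimeCLT
import Fermat.Agent.SelbergCLT.Shift

/-!
# Selberg's central limit theorem

`log |ζ (1/2 + it)|` is close to `log |ζ (σ + it)|`, that to `-log |M|`, that to the sum over the
first block of primes, on the scale `√(log log T / 2)`.
-/

set_option autoImplicit false

noncomputable section

namespace FA.SelbergCLT

open Finset Filter MeasureTheory
open FA.Resonance (wave norm_wave)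
open FA.ErdosKac (primesUpTo mem_primesUpTo recipSum exists_abs_recipSum_sub_le
  exists_abs_sum_log_div_sub_le)
open scoped Topology Real ENNReal

theorem GaussianLimit.congr' {F G : ℝ → ℝ → ℝ} (hF : GaussianLimit F)
    (h : ∀ᶠ T in atTop, F T = G T) : GaussianLimit G := fun u => by
  refine (hF u).congr' ?_
  filter_upwards [h] with T hT
  rw [charMean, charMean, hT]

theorem Close.congr' {F G F' G' : ℝ → ℝ → ℝ} (h : Close F G) (hF : ∀ᶠ T in atTop, F T = F' T)
    (hG : ∀ᶠ T in atTop, G T = G' T) : Close F' G' := fun ε hε => by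
  filter_upwards [h ε hε, hF, hG] with T hT h1 h2
  rw [← h1, ← h2]
  exact hT

/-- Markov's inequality over `[T, 2T]`. -/
theorem volume_lt_le {g : ℝ → ℝ} (hg : Continuous g) (h0 : ∀ t, 0 ≤ g t) {c T : ℝ} (hc : 0 < c)
    (hT : 0 ≤ T) : volume {t ∈ Set.Icc T (2 * T) | c < g t} ≤
      ENNReal.ofReal ((∫ t in T..2 * T, g t) / c) := by
  have hsub : {t ∈ Set.Icc T (2 * T) | c < g t} ⊆ {t | c ≤ g t} ∩ Set.Icc T (2 * T) :=
    fun t ht => ⟨ht.2.le, ht.1⟩
  refine (measure_mono hsub).trans ?_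
  rw [← Measure.restrict_apply' measurableSet_Icc,
    ← ofReal_measureReal (measure_ne_top (volume.restrict (Set.Icc T (2 * T))) _)]
  refine ENNReal.ofReal_le_ofReal ?_
  rw [le_div_iff₀ hc, mul_comm, intervalIntegral.integral_of_le (by linarith),
    ← integral_Icc_eq_integral_Ioc]
  exact mul_meas_ge_le_integral_of_nonneg (Eventually.of_forall h0) hg.integrableOn_Icc c

/-- The mean square of a sum over primes. -/
theorem integral_sq_primePoly_le {P : Finset ℕ} {r : ℕ → ℝ} (hP : ∀ p ∈ P, p.Prime) {B : ℕ}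
    (hB : ∀ p ∈ P, p ≤ B) (hr : ∀ p ∈ P, 0 ≤ r p) (hr1 : ∀ p ∈ P, r p ≤ 1) {T : ℝ} (hT : 0 ≤ T) :
    ∫ t in T..2 * T, ‖primePoly P r t‖ ^ 2 ≤ T * sqMass P r + 2 * ((B : ℝ) + 1) ^ 3 := by
  have h := (Complex.re_le_norm _).trans (norm_integral_pow_mul_conj_sub_le hP hB hr 1 1 T)
  have e : ∀ t : ℝ, primePoly P r t ^ 1 * (starRingEnd ℂ) (primePoly P r t) ^ 1 =
      ((‖primePoly P r t‖ ^ 2 : ℝ) : ℂ) := fun t => by
    rw [pow_one, pow_one, Complex.mul_conj']
    push_cast
    rfl
  simp only [e] at h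
  rw [intervalIntegral.integral_ofReal, Complex.sub_re, Complex.ofReal_re, Complex.ofReal_re,
    pow_one] at h
  have hd := mul_le_mul_of_nonneg_left (diagPairs_le (r := r) hP 1) hT
  have hmass : ∑ p ∈ P, r p ≤ (B : ℝ) + 1 := by
    refine (sum_le_card_nsmul _ _ (1 : ℝ) hr1).trans ?_
    rw [nsmul_one]
    have : P.card ≤ B + 1 := by
      simpa using card_le_card (show P ⊆ Finset.range (B + 1) from fun p hp =>
        mem_range.2 (Nat.lt_succ_of_le (hB p hp)))
    exact_mod_cast this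
  have h2 : 2 * ((B : ℝ) + 1) * (∑ p ∈ P, r p) ^ (1 + 1) ≤ 2 * ((B : ℝ) + 1) ^ 3 := by
    refine (mul_le_mul_of_nonneg_left (pow_le_pow_left₀ (sum_nonneg hr) hmass _)
      (by positivity)).trans (le_of_eq ?_)
    ring
  simp only [Nat.factorial_one, Nat.cast_one, one_mul, pow_one] at hd
  linarith

theorem primePoly_add (P : Finset ℕ) (r : ℕ → ℝ) (σ t : ℝ) (hr : ∀ p ∈ P, r p = (p : ℝ) ^ (-σ))
    (hP : ∀ p ∈ P, p.Prime) :
    ∑ p ∈ P, (p : ℂ) ^ (-((σ : ℂ) + t * Complex.I)) = primePoly P r t := by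
  refine sum_congr rfl fun p hp => ?_
  rw [hr p hp, neg_add, Complex.cpow_add _ _ (Nat.cast_ne_zero.2 (hP p hp).ne_zero),
    ← Complex.ofReal_natCast, ← Complex.ofReal_neg, ← Complex.ofReal_cpow (Nat.cast_nonneg p)]
  congr 1
  rw [Complex.ofReal_natCast, natCast_cpow_eq_exp (hP p hp).pos, wave]
  congr 1
  push_cast
  ring

theorem sum_sq_cpow (P : Finset ℕ) (σ t : ℝ) (hP : ∀ p ∈ P, p.Prime) :
    ∑ p ∈ P, ((p : ℂ) ^ (-((σ : ℂ) + t * Complex.I))) ^ 2 =
      primePoly P (fun p => (p : ℝ) ^ (-(2 * σ))) (2 * t) := by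
  rw [← primePoly_add P _ (2 * σ) (2 * t) (fun p _ => rfl) hP]
  refine sum_congr rfl fun p _ => ?_
  rw [← Complex.cpow_nat_mul]
  congr 1
  push_cast
  ring

/-- The weights `p ^ (-σ)`. -/
def lineWeight (L : ℝ) (p : ℕ) : ℝ := (p : ℝ) ^ (-max (sigmaL L) 0)

theorem lineWeight_mem {L : ℝ} {p : ℕ} (hp : p.Prime) :
    0 ≤ lineWeight L p ∧ lineWeight L p ≤ 1 :=
  ⟨Real.rpow_nonneg (Nat.cast_nonneg p) _, Real.rpow_le_one_of_one_le_of_nonpos
    (Nat.one_le_cast.2 hp.one_le) (neg_nonpos.2 (le_max_right _ _))⟩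

/-- The sum over the first block. -/
def mainSumOne (L t : ℝ) : ℝ := (primePoly (blockOne L) (lineWeight L) t).re

/-- The scale. -/
def clt (T : ℝ) : ℝ := √(scaleOne (Real.log T) / 2)

theorem eventually_log {p : ℝ → Prop} (h : ∀ᶠ L in atTop, p L) :
    ∀ᶠ T in atTop, p (Real.log T) :=
  Real.tendsto_log_atTop.eventually h

theorem sqMass_lineWeight_le {L : ℝ} (hσ : 1 / 2 < sigmaL L) {S : Finset ℕ}
    (hS : ∀ p ∈ S, p.Prime) : sqMass S (lineWeight L) ≤ ∑ p ∈ S, (p : ℝ)⁻¹ := by
  refine sum_le_sum fun p hp => ?_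
  rw [lineWeight, max_eq_left (by linarith), ← Real.rpow_natCast,
    ← Real.rpow_mul (Nat.cast_nonneg p),
    ← Real.rpow_neg_one]
  exact Real.rpow_le_rpow_of_exponent_le (Nat.one_le_cast.2 (hS p hp).one_le)
    (by push_cast; linarith)

theorem tendsto_scale_ratio :
    Tendsto (fun L => scaleTwo L / scaleOne L) atTop (𝓝 0) ∧
    Tendsto (fun L => shiftW L / √(scaleOne L)) atTop (𝓝 0) ∧
    Tendsto (fun L => scaleTwo L / √(scaleOne L)) atTop (𝓝 0) := by
  have h : ∀ (k : ℕ) (a : ℝ), 0 < a →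
      Tendsto (fun L => scaleTwo L ^ k / scaleOne L ^ a) atTop (𝓝 0) := fun k a ha => by
    have h0 := ((isLittleO_log_rpow_rpow_atTop (k : ℝ) ha).tendsto_div_nhds_zero).comp
      tendsto_scaleOne
    refine h0.congr fun L => ?_
    simp only [Function.comp_apply, Real.rpow_natCast]
    rfl
  refine ⟨(h 1 1 one_pos).congr fun L => by rw [pow_one, Real.rpow_one],
    (h 3 (1 / 2) (by norm_num)).congr fun L => by rw [Real.sqrt_eq_rpow]; rfl,
    (h 1 (1 / 2) (by norm_num)).congr fun L => by rw [pow_one, Real.sqrt_eq_rpow]⟩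

/-- The variance of the first block. -/
theorem tendsto_variance :
    Tendsto (fun L => sqMass (blockOne L) (lineWeight L) / scaleOne L) atTop (𝓝 1) := by
  obtain ⟨C, hC0, hrecip⟩ := exists_block_recip
  obtain ⟨C₀, hC₀⟩ := exists_abs_recipSum_sub_le
  obtain ⟨C₁, hC₁⟩ := exists_abs_sum_log_div_sub_le
  have hup : Tendsto (fun L => 1 + C / scaleOne L) atTop (𝓝 1) := by
    simpa using (tendsto_const_nhds.div_atTop tendsto_scaleOne).const_add 1
  have hlow : Tendsto (fun L => 1 - (2 * (scaleTwo L / scaleOne L) + (|C₀| + 5) / scaleOne L))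
      atTop (𝓝 1) := by
    simpa using ((tendsto_scale_ratio.1.const_mul 2).add
      (tendsto_const_nhds.div_atTop tendsto_scaleOne)).const_sub 1
  have hW2 : ∀ᶠ L in atTop, shiftW L ≤ scaleOne L ^ 2 := by
    filter_upwards [tendsto_scale_ratio.2.1.eventually_le_const one_pos, eventually_scales 1]
      with L h hs
    rw [div_le_one (Real.sqrt_pos.2 (by linarith [hs.2.1]))] at h
    refine h.trans ((Real.sqrt_le_iff.2 ⟨by linarith [hs.2.1], le_self_pow₀ hs.2.1 two_ne_zero⟩ :
      √(scaleOne L) ≤ scaleOne L).trans (le_self_pow₀ hs.2.1 two_ne_zero))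
  have hd1 : ∀ᶠ L in atTop, 2 * (shiftW L / L) * |C₁| ≤ 1 := by
    have h : Tendsto (fun L => 2 * (shiftW L / L) * |C₁|) atTop (𝓝 0) := by
      simpa using (tendsto_shiftW_div.const_mul 2).mul_const |C₁|
    exact h.eventually_le_const one_pos
  refine tendsto_of_tendsto_of_tendsto_of_le_of_le' hlow hup ?_ ?_
  · filter_upwards [eventually_cuts, eventually_sigmaL, eventually_scales 1, hW2, hd1]
      with L hc hσ hs hW hd
    obtain ⟨h2, -, -, hu, hlo, -, -⟩ := hc
    obtain ⟨hm, hl, hL, -, -, -⟩ := hs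
    have hl0 : 0 < scaleOne L := by linarith
    obtain ⟨δ, hδ⟩ : ∃ δ, δ = shiftW L / L := ⟨_, rfl⟩
    have hδ0 : 0 ≤ δ := hδ ▸ div_nonneg (pow_nonneg (by linarith) 3) (by linarith)
    have hpt : ∀ p ∈ blockOne L,
        (p : ℝ)⁻¹ - 2 * δ * (Real.log p / p) ≤ lineWeight L p ^ 2 := fun p hp => by
      have hp0 : (0 : ℝ) < p := Nat.cast_pos.2 (prime_of_mem_blockOne hp).pos
      rw [lineWeight, max_eq_left (by linarith [hσ.1]), ← Real.rpow_natCast,
        ← Real.rpow_mul hp0.le,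
        show -sigmaL L * ((2 : ℕ) : ℝ) = -1 + -(2 * δ) by rw [sigmaL, hδ]; push_cast; ring,
        Real.rpow_add hp0, Real.rpow_neg_one, Real.rpow_def_of_pos hp0,
        show (p : ℝ)⁻¹ - 2 * δ * (Real.log p / p) = (p : ℝ)⁻¹ * (Real.log p * -(2 * δ) + 1) by ring]
      exact mul_le_mul_of_nonneg_left (Real.add_one_le_exp _) (by positivity)
    have hsum := sum_le_sum hpt
    rw [sum_sub_distrib, ← mul_sum] at hsum
    have hlp := (abs_le.1 (hC₁ _ (show 1 ≤ cutOne L by omega))).2
    have hlog : ∑ p ∈ blockOne L, Real.log p / p ≤ L / scaleOne L ^ 2 + |C₁| := by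
      show ∑ p ∈ primesUpTo (cutOne L), Real.log p / p ≤ _
      linarith [le_abs_self C₁]
    have hprod : 2 * δ * ∑ p ∈ blockOne L, Real.log p / p ≤ 3 := by
      refine (mul_le_mul_of_nonneg_left hlog (by positivity)).trans ?_
      have e : 2 * δ * (L / scaleOne L ^ 2) = 2 * (shiftW L / scaleOne L ^ 2) := by
        rw [hδ]
        field_simp
      have h1 : shiftW L / scaleOne L ^ 2 ≤ 1 := (div_le_one (by positivity)).2 hW
      rw [← hδ] at hd
      rw [mul_add, e]
      linarith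
    have hQ : scaleOne L - 2 * scaleTwo L - 1 - |C₀| ≤ ∑ p ∈ blockOne L, (p : ℝ)⁻¹ := by
      show _ ≤ recipSum (cutOne L)
      have h1 := Real.log_le_log (by positivity) hlo
      rw [Real.log_div (by linarith) (by positivity), Real.log_mul two_ne_zero (by positivity),
        Real.log_pow] at h1
      push_cast at h1
      have e1 : Real.log (scaleOne L) = scaleTwo L := rfl
      have e2 : Real.log L = scaleOne L := rfl
      linarith [(abs_le.1 (hC₀ _ h2)).1, le_abs_self C₀, Real.log_two_lt_d9]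
    rw [le_div_iff₀ hl0, sqMass, sub_mul, add_mul, div_mul_cancel₀ _ hl0.ne', one_mul, mul_assoc,
      div_mul_cancel₀ _ hl0.ne']
    linarith
  · filter_upwards [hrecip, eventually_sigmaL, eventually_scales 1] with L hQ hσ hs
    have hl0 : 0 < scaleOne L := by linarith [hs.2.1]
    rw [div_le_iff₀ hl0, add_mul, one_mul, div_mul_cancel₀ _ hl0.ne']
    exact (sqMass_lineWeight_le hσ.1 fun p hp => prime_of_mem_blockOne hp).trans hQ.1

theorem eventually_clt_pos : ∀ᶠ T in atTop, 1 ≤ clt T := by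
  filter_upwards [eventually_log (eventually_scales 2)] with T h
  exact Real.one_le_sqrt.2 (by linarith [h.2.1])

/-- **The first block is Gaussian.** -/
theorem gaussianLimit_mainSumOne :
    GaussianLimit fun T t => mainSumOne (Real.log T) t / clt T := by
  refine gaussianLimit_primePoly (P := fun T => blockOne (Real.log T))
    (r := fun T => lineWeight (Real.log T)) (B := fun T => cutOne (Real.log T)) (s := clt)
    (fun T p hp => ⟨prime_of_mem_blockOne hp, le_cut_of_mem.1 hp,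
      lineWeight_mem (prime_of_mem_blockOne hp)⟩)
    (tendsto_pow_div_of_log ?_) eventually_clt_pos ?_ ?_
  · have h : Tendsto (fun L => 2 / scaleOne L ^ 2) atTop (𝓝 0) :=
      tendsto_const_nhds.div_atTop ((tendsto_pow_atTop two_ne_zero).comp tendsto_scaleOne)
    refine squeeze_zero' ?_ ?_ (h.comp Real.tendsto_log_atTop)
    · filter_upwards [eventually_gt_atTop (1 : ℝ)] with T hT
      exact div_nonneg (Real.log_nonneg (by simp)) (Real.log_pos hT).le
    · filter_upwards [eventually_log eventually_cuts, eventually_log (eventually_scales 1)]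
        with T hc hs
      obtain ⟨h2, -, -, hu, hd, -, -⟩ := hc
      obtain ⟨hm, hl, hL, -, -, -⟩ := hs
      have h2' : (2 : ℝ) ≤ cutOne (Real.log T) := Nat.ofNat_le_cast.2 h2
      have hh : Real.log ((cutOne (Real.log T) : ℝ) + 1) ≤ 2 * Real.log (cutOne (Real.log T)) := by
        rw [show 2 * Real.log (cutOne (Real.log T)) = Real.log ((cutOne (Real.log T) : ℝ) ^ 2) by
          rw [Real.log_pow]; push_cast; rfl]
        exact Real.log_le_log (by positivity) (by nlinarith)
      simp only [Function.comp_apply]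
      rw [div_le_iff₀ (by linarith), div_mul_eq_mul_div]
      calc Real.log ((cutOne (Real.log T) : ℝ) + 1) ≤ 2 * Real.log (cutOne (Real.log T)) := hh
        _ ≤ 2 * (Real.log T / scaleOne (Real.log T) ^ 2) := by linarith
        _ = _ := by ring
  · have h : ∀ᶠ L in atTop, scaleOne L / 2 ≤ sqMass (blockOne L) (lineWeight L) := by
      filter_upwards [tendsto_variance.eventually_const_le (show (1 / 2 : ℝ) < 1 by norm_num),
        eventually_scales 1] with L h hs
      rw [le_div_iff₀ (by linarith [hs.2.1])] at h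
      linarith
    exact tendsto_atTop_mono' atTop (eventually_log h)
      ((tendsto_scaleOne.comp Real.tendsto_log_atTop).atTop_div_const two_pos)
  · refine (tendsto_variance.comp Real.tendsto_log_atTop).congr' ?_
    filter_upwards [eventually_log (eventually_scales 1)] with T hs
    rw [Function.comp_apply, clt, Real.sq_sqrt (by linarith [hs.2.1])]
    congr 1
    ring

/-- The sum of `4/3 p^(-3/2)`. -/
def cubeSum : ℝ := ∑' n : ℕ, 4 / 3 * (n : ℝ) ^ (-(3 / 2) : ℝ)

theorem cube_le {L : ℝ} (hσ : 1 / 2 < sigmaL L) {S : Finset ℕ} (hS : ∀ p ∈ S, p.Prime) :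
    ∑ p ∈ S, 4 / 3 * lineWeight L p ^ 3 ≤ cubeSum := by
  refine (sum_le_sum fun p hp => ?_).trans (Summable.sum_le_tsum (f := fun n : ℕ =>
    4 / 3 * (n : ℝ) ^ (-(3 / 2) : ℝ)) S (fun n _ => by positivity)
    ((Real.summable_nat_rpow.2 (by norm_num)).mul_left _))
  refine mul_le_mul_of_nonneg_left ?_ (by norm_num)
  rw [lineWeight, max_eq_left (by linarith), ← Real.rpow_natCast,
    ← Real.rpow_mul (Nat.cast_nonneg p)]
  exact Real.rpow_le_rpow_of_exponent_le (Nat.one_le_cast.2 (hS p hp).one_le)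
    (by push_cast; linarith)

theorem lineWeight_le {L : ℝ} (hσ : 1 / 2 < sigmaL L) {p : ℕ} (hp : p.Prime) :
    lineWeight L p ≤ 3 / 4 := by
  rw [lineWeight, max_eq_left (by linarith)]
  have h1 : (p : ℝ) ^ (-sigmaL L) ≤ (2 : ℝ) ^ (-(1 / 2) : ℝ) :=
    (Real.rpow_le_rpow_of_exponent_le (Nat.one_le_cast.2 hp.one_le) (by linarith)).trans
      (Real.rpow_le_rpow_of_nonpos two_pos (Nat.ofNat_le_cast.2 hp.two_le) (by norm_num))
  refine h1.trans ?_
  rw [Real.rpow_neg two_pos.le, ← Real.sqrt_eq_rpow, inv_le_comm₀ (by positivity) (by norm_num)]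
  exact Real.le_sqrt_of_sq_le (by norm_num)

/-- The block is well approximated off the large values. -/
theorem abs_log_block_le {L t : ℝ} (hσ : 1 / 2 < sigmaL L) {S : Finset ℕ}
    (hS : ∀ p ∈ S, p.Prime) {K : ℕ}
    (hK : 3 * ‖primePoly S (lineWeight L) t‖ + 3 * sqMass S (lineWeight L) + cubeSum + 1 ≤
      K * Real.log 2) :
    |Real.log ‖trunc S K (fun p => (p : ℂ) ^ (-((sigmaL L : ℂ) + t * Complex.I)))‖ +
      (primePoly S (lineWeight L) t).re| ≤ cubeSum + 1 +
        ‖primePoly S (fun p => (p : ℝ) ^ (-(2 * sigmaL L))) (2 * t)‖ / 2 := by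
  obtain ⟨x, hx⟩ : ∃ x : ℕ → ℂ, x = fun p : ℕ => (p : ℂ) ^ (-((sigmaL L : ℂ) + t * Complex.I)) :=
    ⟨_, rfl⟩
  have hn : ∀ p ∈ S, ‖x p‖ = lineWeight L p := fun p hp => by
    rw [hx, Complex.norm_natCast_cpow_of_pos (hS p hp).pos, lineWeight, max_eq_left (by linarith)]
    simp
  have e1 : ∑ p ∈ S, x p = primePoly S (lineWeight L) t := hx ▸ primePoly_add S _ (sigmaL L) t
    (fun p _ => by rw [lineWeight, max_eq_left (by linarith)]) hS
  have e2 : ∑ p ∈ S, x p ^ 2 =
      primePoly S (fun p => (p : ℝ) ^ (-(2 * sigmaL L))) (2 * t) := hx ▸ sum_sq_cpow S _ t hS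
  rw [← hx]
  have h := abs_log_norm_trunc_add_le (S := S) (x := x) (C := cubeSum) (K := K)
    (fun p hp => (hn p hp).trans_le (lineWeight_le hσ (hS p hp)))
    ((sum_congr rfl fun p hp => by rw [hn p hp]).trans_le (cube_le hσ hS))
    (le_of_eq_of_le (by
      rw [e1, sqMass, sum_congr rfl fun p hp => by rw [hn p hp]]) hK)
  rw [e1, e2] at h
  have h2 := abs_le.1 (Complex.abs_re_le_norm
    (primePoly S (fun p => (p : ℝ) ^ (-(2 * sigmaL L))) (2 * t)))
  rw [abs_le] at h ⊢
  constructor <;> linarith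

/-- The mean square at twice the height. -/
theorem integral_sq_primePoly_two_le {S : Finset ℕ} {σ : ℝ} (hσ : 1 / 2 ≤ σ)
    (hS : ∀ p ∈ S, p.Prime) {B : ℕ} (hB : ∀ p ∈ S, p ≤ B) {T : ℝ} (hT : 0 ≤ T) :
    ∫ t in T..2 * T, ‖primePoly S (fun p => (p : ℝ) ^ (-(2 * σ))) (2 * t)‖ ^ 2 ≤
      T * (∑' n : ℕ, (n : ℝ) ^ (-(2 : ℝ))) + ((B : ℝ) + 1) ^ 3 := by
  rw [intervalIntegral.integral_comp_mul_left
    (fun t => ‖primePoly S (fun p => (p : ℝ) ^ (-(2 * σ))) t‖ ^ 2) two_ne_zero, smul_eq_mul]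
  have h := integral_sq_primePoly_le (r := fun p => (p : ℝ) ^ (-(2 * σ))) hS hB
    (fun p _ => Real.rpow_nonneg (Nat.cast_nonneg p) _)
    (fun p hp => Real.rpow_le_one_of_one_le_of_nonpos (Nat.one_le_cast.2 (hS p hp).one_le)
      (by linarith)) (show 0 ≤ 2 * T by linarith)
  have hm : sqMass S (fun p => (p : ℝ) ^ (-(2 * σ))) ≤ ∑' n : ℕ, (n : ℝ) ^ (-(2 : ℝ)) := by
    refine (sum_le_sum fun p hp => ?_).trans (Summable.sum_le_tsum
      (f := fun n : ℕ => (n : ℝ) ^ (-(2 : ℝ))) S (fun n _ => by positivity)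
      (Real.summable_nat_rpow.2 (by norm_num)))
    rw [← Real.rpow_natCast, ← Real.rpow_mul (Nat.cast_nonneg p)]
    exact Real.rpow_le_rpow_of_exponent_le (Nat.one_le_cast.2 (hS p hp).one_le)
      (by push_cast; linarith)
  have := mul_le_mul_of_nonneg_left hm hT
  linarith

/-- The points where one of the approximations fails. -/
def badSet (T : ℝ) : Set ℝ :=
  {t ∈ Set.Icc T (2 * T) | 1 / 4 < ‖1 - riemannZeta ((sigmaL (Real.log T) : ℂ) + t * Complex.I) *
    mollifier (Real.log T) t‖ ^ 2} ∪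
  {t ∈ Set.Icc T (2 * T) | scaleOne (Real.log T) ^ 2 <
    ‖primePoly (blockOne (Real.log T)) (lineWeight (Real.log T)) t‖ ^ 2} ∪
  {t ∈ Set.Icc T (2 * T) | scaleTwo (Real.log T) ^ 2 <
    ‖primePoly (blockTwo (Real.log T)) (lineWeight (Real.log T)) t‖ ^ 2} ∪
  {t ∈ Set.Icc T (2 * T) | scaleTwo (Real.log T) ^ 2 < ‖primePoly (blockOne (Real.log T))
    (fun p => (p : ℝ) ^ (-(2 * sigmaL (Real.log T)))) (2 * t)‖ ^ 2} ∪
  {t ∈ Set.Icc T (2 * T) | scaleTwo (Real.log T) ^ 2 < ‖primePoly (blockTwo (Real.log T))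
    (fun p => (p : ℝ) ^ (-(2 * sigmaL (Real.log T)))) (2 * t)‖ ^ 2}

theorem tendsto_cutTwo_cube_div :
    Tendsto (fun L => ((cutTwo L : ℝ) + 1) ^ 3 / Real.exp L) atTop (𝓝 0) := by
  have h : Tendsto (fun L : ℝ => 8 * Real.exp (-(1 / 4) * L)) atTop (𝓝 0) := by
    simpa using (Real.tendsto_exp_atBot.comp
      (tendsto_id.const_mul_atTop_of_neg (show (-(1 / 4 : ℝ)) < 0 by norm_num))).const_mul 8
  refine squeeze_zero' (Eventually.of_forall fun L => by positivity) ?_ h
  filter_upwards [eventually_cuts, eventually_scales 2] with L hc hs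
  obtain ⟨h2, h12, -, -, -, -, -⟩ := hc
  obtain ⟨hm, hl, hL, -, -, -⟩ := hs
  have h1 : (cutTwo L : ℝ) + 1 ≤ 2 * Real.exp (L / 4) := by
    have hle : (cutTwo L : ℝ) ≤ Real.exp (L / 4) := (Nat.floor_le (Real.exp_pos _).le).trans
      (Real.exp_le_exp.2 (div_le_div_of_nonneg_left (by linarith) (by norm_num) (by nlinarith)))
    linarith [show (1 : ℝ) ≤ Real.exp (L / 4) from Real.one_le_exp (by linarith)]
  rw [div_le_iff₀ (Real.exp_pos _)]
  refine (pow_le_pow_left₀ (by positivity) h1 3).trans (le_of_eq ?_)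
  rw [mul_pow, ← Real.exp_nat_mul, mul_assoc, ← Real.exp_add]
  norm_num
  ring_nf

/-- **The exceptional set is small.** -/
theorem eventually_volume_badSet (ε : ℝ) (hε : 0 < ε) :
    ∀ᶠ T in atTop, volume (badSet T) ≤ ENNReal.ofReal (ε * T) := by
  obtain ⟨C, hC0, hrecip⟩ := exists_block_recip
  obtain ⟨Z, hZ⟩ : ∃ Z, Z = ∑' n : ℕ, (n : ℝ) ^ (-(2 : ℝ)) := ⟨_, rfl⟩
  have hZ0 : 0 ≤ Z := hZ ▸ tsum_nonneg fun n => Real.rpow_nonneg (Nat.cast_nonneg n) _
  obtain ⟨R, hR⟩ : ∃ R : ℝ → ℝ, R = fun L =>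
      4 * ((∫ t in Real.exp L..2 * Real.exp L,
        ‖1 - riemannZeta ((sigmaL L : ℂ) + t * Complex.I) * mollifier L t‖ ^ 2) / Real.exp L) +
      (1 + C + 1) * (1 / scaleOne L) + (2 + C + 1) * (1 / scaleTwo L) +
        (2 * (Z + 1)) * (1 / scaleTwo L) := ⟨_, rfl⟩
  have hRt : Tendsto R atTop (𝓝 0) := by
    rw [hR]
    simpa using (((tendsto_mollified.const_mul 4).add
      ((tendsto_inv_atTop_zero.comp tendsto_scaleOne).const_mul (1 + C + 1))).add
      ((tendsto_inv_atTop_zero.comp tendsto_scaleTwo).const_mul (2 + C + 1))).add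
      ((tendsto_inv_atTop_zero.comp tendsto_scaleTwo).const_mul (2 * (Z + 1)))
  filter_upwards [eventually_log (hRt.eventually_le_const hε), eventually_log hrecip,
    eventually_log eventually_cuts, eventually_log (eventually_scales 1),
    eventually_log eventually_sigmaL,
    eventually_log (tendsto_cutTwo_cube_div.eventually_le_const (show (0 : ℝ) < 1 / 2 by norm_num)),
    eventually_gt_atTop (0 : ℝ)] with T hRT hQ hc hs hσ hcube hT0
  rw [Real.exp_log hT0] at hcube
  simp only [hR, Real.exp_log hT0] at hRT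
  rw [div_le_iff₀ hT0] at hcube
  obtain ⟨L, hL⟩ : ∃ L, L = Real.log T := ⟨_, rfl⟩
  rw [← hL] at hRT hQ hc hs hσ hcube
  rw [badSet, ← hL]
  obtain ⟨h2, h12, -, -, -, -, -⟩ := hc
  obtain ⟨hm, hl, hL1, -, -, -⟩ := hs
  have hcube1 : ((cutOne L : ℝ) + 1) ^ 3 ≤ 1 / 2 * T :=
    le_trans (pow_le_pow_left₀ (by positivity)
      (by linarith [show (cutOne L : ℝ) ≤ cutTwo L from Nat.cast_le.2 h12]) 3) hcube
  have hσ1 : sigmaL L ≠ 1 := by linarith [hσ.2.1]
  have hcm : Continuous fun t : ℝ =>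
      ‖1 - riemannZeta ((sigmaL L : ℂ) + t * Complex.I) * mollifier L t‖ ^ 2 :=
    ((continuous_const.sub ((continuous_zetaLine hσ1).mul (continuous_mollifier L))).norm).pow 2
  have hc1 : ∀ (S : Finset ℕ) (r : ℕ → ℝ), Continuous fun t : ℝ => ‖primePoly S r t‖ ^ 2 :=
    fun S r => (continuous_primePoly S r).norm.pow 2
  have hc2 : ∀ (S : Finset ℕ) (r : ℕ → ℝ), Continuous fun t : ℝ => ‖primePoly S r (2 * t)‖ ^ 2 :=
    fun S r => (((continuous_primePoly S r).comp (continuous_const.mul continuous_id))).norm.pow 2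
  have bone : (∫ t in T..2 * T, ‖primePoly (blockOne L) (lineWeight L) t‖ ^ 2) / scaleOne L ^ 2 ≤
      (1 + C + 1) * (1 / scaleOne L) * T := by
    have h := (integral_sq_primePoly_le (P := blockOne L) (r := lineWeight L)
      (fun p hp => prime_of_mem_blockOne hp)
      (fun p hp => le_cut_of_mem.1 hp) (fun p hp => (lineWeight_mem (prime_of_mem_blockOne hp)).1)
      (fun p hp => (lineWeight_mem (prime_of_mem_blockOne hp)).2) hT0.le)
    have hQ1 := mul_le_mul_of_nonneg_left
      ((sqMass_lineWeight_le hσ.1 fun p hp => prime_of_mem_blockOne hp).trans hQ.1) hT0.le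
    rw [div_le_iff₀ (by positivity)]
    have e : (1 + C + 1) * (1 / scaleOne L) * T * scaleOne L ^ 2 =
        (1 + C + 1) * scaleOne L * T := by field_simp
    rw [e]
    nlinarith [mul_le_mul_of_nonneg_right hl hT0.le, mul_le_mul_of_nonneg_left hl hC0]
  have btwo : (∫ t in T..2 * T, ‖primePoly (blockTwo L) (lineWeight L) t‖ ^ 2) / scaleTwo L ^ 2 ≤
      (2 + C + 1) * (1 / scaleTwo L) * T := by
    have h := (integral_sq_primePoly_le (P := blockTwo L) (r := lineWeight L)
      (fun p hp => prime_of_mem_blockTwo hp)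
      (fun p hp => le_cut_of_mem.2 hp) (fun p hp => (lineWeight_mem (prime_of_mem_blockTwo hp)).1)
      (fun p hp => (lineWeight_mem (prime_of_mem_blockTwo hp)).2) hT0.le)
    have hQ1 := mul_le_mul_of_nonneg_left
      ((sqMass_lineWeight_le hσ.1 fun p hp => prime_of_mem_blockTwo hp).trans hQ.2) hT0.le
    rw [div_le_iff₀ (by positivity)]
    have e : (2 + C + 1) * (1 / scaleTwo L) * T * scaleTwo L ^ 2 =
        (2 + C + 1) * scaleTwo L * T := by field_simp
    rw [e]
    nlinarith [mul_le_mul_of_nonneg_right hm hT0.le, mul_le_mul_of_nonneg_left hm hC0]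
  have bsq : ∀ (S : Finset ℕ) (B : ℕ), (∀ p ∈ S, p.Prime) → (∀ p ∈ S, p ≤ B) →
      ((B : ℝ) + 1) ^ 3 ≤ 1 / 2 * T →
      (∫ t in T..2 * T, ‖primePoly S (fun p => (p : ℝ) ^ (-(2 * sigmaL L))) (2 * t)‖ ^ 2) /
        scaleTwo L ^ 2 ≤ (Z + 1) * (1 / scaleTwo L) * T := fun S B hS hB hb => by
    have h := integral_sq_primePoly_two_le hσ.1.le hS hB hT0.le
    rw [← hZ] at h
    rw [div_le_iff₀ (by positivity)]
    have e : (Z + 1) * (1 / scaleTwo L) * T * scaleTwo L ^ 2 = (Z + 1) * T * scaleTwo L := by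
      field_simp
    rw [e]
    nlinarith [le_mul_of_one_le_right (show 0 ≤ (Z + 1) * T by positivity) hm]
  have hnn : ∀ g : ℝ → ℝ, (∀ t, 0 ≤ g t) → 0 ≤ ∫ t in T..2 * T, g t := fun g hg =>
    intervalIntegral.integral_nonneg (by linarith) fun t _ => hg t
  refine ((measure_union_le _ _).trans (add_le_add ((measure_union_le _ _).trans (add_le_add
    ((measure_union_le _ _).trans (add_le_add ((measure_union_le _ _).trans (add_le_add
      (volume_lt_le hcm (fun t => sq_nonneg _) (by norm_num) hT0.le)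
      (volume_lt_le (hc1 _ _) (fun t => sq_nonneg _) (by positivity) hT0.le)))
      (volume_lt_le (hc1 _ _) (fun t => sq_nonneg _) (by positivity) hT0.le)))
      (volume_lt_le (hc2 _ _) (fun t => sq_nonneg _) (by positivity) hT0.le)))
      (volume_lt_le (hc2 _ _) (fun t => sq_nonneg _) (by positivity) hT0.le))).trans ?_
  obtain ⟨I, hI⟩ : ∃ I, I = ∫ t in T..2 * T,
      ‖1 - riemannZeta ((sigmaL L : ℂ) + t * Complex.I) * mollifier L t‖ ^ 2 := ⟨_, rfl⟩
  have hI0 : 0 ≤ I := hI ▸ hnn _ fun t => sq_nonneg _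
  rw [← hI] at hRT ⊢
  have p1 := hnn (fun t => ‖primePoly (blockOne L) (lineWeight L) t‖ ^ 2) fun t => sq_nonneg _
  have p2 := hnn (fun t => ‖primePoly (blockTwo L) (lineWeight L) t‖ ^ 2) fun t => sq_nonneg _
  have p3 := hnn (fun t =>
    ‖primePoly (blockOne L) (fun p => (p : ℝ) ^ (-(2 * sigmaL L))) (2 * t)‖ ^ 2)
      fun t => sq_nonneg _
  have p4 := hnn (fun t =>
    ‖primePoly (blockTwo L) (fun p => (p : ℝ) ^ (-(2 * sigmaL L))) (2 * t)‖ ^ 2)
      fun t => sq_nonneg _
  rw [← ENNReal.ofReal_add (by positivity) (by positivity),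
    ← ENNReal.ofReal_add (by positivity) (by positivity),
    ← ENNReal.ofReal_add (by positivity) (by positivity),
    ← ENNReal.ofReal_add (by positivity) (by positivity)]
  refine ENNReal.ofReal_le_ofReal ?_
  have b3 := bsq (blockOne L) (cutOne L) (fun p hp => prime_of_mem_blockOne hp)
    (fun p hp => le_cut_of_mem.1 hp) hcube1
  have b4 := bsq (blockTwo L) (cutTwo L) (fun p hp => prime_of_mem_blockTwo hp)
    (fun p hp => le_cut_of_mem.2 hp) hcube
  have h5 := mul_le_mul_of_nonneg_right hRT hT0.le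
  have e : 4 * (I / T) * T = I / (1 / 4) := by field_simp
  linarith

theorem abs_log_norm_add_le {z w : ℂ} (h : ‖1 - z * w‖ ^ 2 ≤ 1 / 4) :
    |Real.log ‖z‖ + Real.log ‖w‖| ≤ 1 := by
  have h1 : ‖1 - z * w‖ ≤ 1 / 2 := by nlinarith [norm_nonneg (1 - z * w)]
  have hlo : 1 / 2 ≤ ‖z * w‖ := by
    have := norm_sub_norm_le (1 : ℂ) (z * w)
    rw [norm_one] at this
    linarith
  have hhi : ‖z * w‖ ≤ 3 / 2 := by
    have := norm_le_norm_add_norm_sub' (z * w) 1
    rw [norm_one, norm_sub_rev] at this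
    linarith
  rw [norm_mul] at hlo hhi
  have hz : ‖z‖ ≠ 0 := fun h0 => by rw [h0, zero_mul] at hlo; norm_num at hlo
  have hw : ‖w‖ ≠ 0 := fun h0 => by rw [h0, mul_zero] at hlo; norm_num at hlo
  rw [← Real.log_mul hz hw, abs_le]
  constructor
  · have h2 := Real.log_le_log (by norm_num : (0 : ℝ) < 1 / 2) hlo
    rw [one_div, Real.log_inv] at h2
    linarith [Real.log_two_lt_d9]
  · have h2 := Real.log_le_sub_one_of_pos (lt_of_lt_of_le (by norm_num) hlo)
    linarith

/-- **`log |ζ (σ + it)|` is the sum over the first block.** -/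
theorem close_logZeta_mainSum :
    Close (fun T t => mainSumOne (Real.log T) t / clt T)
      (fun T t => logZeta (sigmaL (Real.log T)) t / clt T) := by
  obtain ⟨C, hC0, hrecip⟩ := exists_block_recip
  refine close_of_exceptional (e := fun T =>
    2 * ((2 * (scaleTwo (Real.log T) / √(scaleOne (Real.log T)))) +
      (2 * (|cubeSum| + 1) + 1) / √(scaleOne (Real.log T)))) ?_ fun ε hε => ?_
  · have h := ((tendsto_scale_ratio.2.2.const_mul 2).add
      ((tendsto_const_nhds (x := 2 * (|cubeSum| + 1) + 1)).div_atTop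
        (Real.tendsto_sqrt_atTop.comp tendsto_scaleOne))).const_mul (2 : ℝ)
    simpa [Function.comp_def] using h.comp Real.tendsto_log_atTop
  filter_upwards [eventually_volume_badSet ε hε, eventually_log eventually_sigmaL,
    eventually_log hrecip, eventually_log (eventually_scales (3 * C + |cubeSum| + 1)),
    eventually_log (eventually_scales 1)] with T hvol hσ hQ hbig hs
  refine ⟨badSet T, hvol, fun t ht hnot => ?_⟩
  obtain ⟨L, hL⟩ : ∃ L, L = Real.log T := ⟨_, rfl⟩
  rw [← hL] at hσ hQ hbig hs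
  simp only [badSet, Set.mem_union, Set.mem_ofPred_eq, not_or, not_and, not_lt, ← hL] at hnot
  obtain ⟨⟨⟨⟨n0, n1⟩, n2⟩, n3⟩, n4⟩ := hnot
  obtain ⟨hm, hl, hL1, hml, -, -⟩ := hs
  have hl0 : 0 ≤ scaleOne L := by linarith
  have hm0 : 0 ≤ scaleTwo L := by linarith
  have a1 : ‖primePoly (blockOne L) (lineWeight L) t‖ ≤ scaleOne L :=
    (pow_le_pow_iff_left₀ (norm_nonneg _) hl0 two_ne_zero).1 (n1 ht)
  have a2 : ‖primePoly (blockTwo L) (lineWeight L) t‖ ≤ scaleTwo L :=
    (pow_le_pow_iff_left₀ (norm_nonneg _) hm0 two_ne_zero).1 (n2 ht)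
  have a3 := (pow_le_pow_iff_left₀ (norm_nonneg _) hm0 two_ne_zero).1 (n3 ht)
  have a4 := (pow_le_pow_iff_left₀ (norm_nonneg _) hm0 two_ne_zero).1 (n4 ht)
  have q1 := (sqMass_lineWeight_le hσ.1 fun p hp => prime_of_mem_blockOne hp).trans hQ.1
  have q2 := (sqMass_lineWeight_le hσ.1 fun p hp => prime_of_mem_blockTwo hp).trans hQ.2
  have k1 : 69 * scaleOne L ≤ (depthOne L : ℝ) * Real.log 2 := by
    refine le_trans ?_ (mul_le_mul_of_nonneg_right (Nat.le_ceil (100 * scaleOne L))
      (Real.log_pos one_lt_two).le)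
    nlinarith [Real.log_two_gt_d9]
  have k2 : 69 * scaleTwo L ≤ (depthTwo L : ℝ) * Real.log 2 := by
    refine le_trans ?_ (mul_le_mul_of_nonneg_right (Nat.le_ceil (100 * scaleTwo L))
      (Real.log_pos one_lt_two).le)
    nlinarith [Real.log_two_gt_d9]
  have b1 := abs_le.1 (abs_log_block_le (t := t) hσ.1 (fun p hp => prime_of_mem_blockOne hp)
    (K := depthOne L) (S := blockOne L) (by linarith [le_abs_self cubeSum, hbig.2.1]))
  have b2 := abs_le.1 (abs_log_block_le (t := t) hσ.1 (fun p hp => prime_of_mem_blockTwo hp)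
    (K := depthTwo L) (S := blockTwo L) (by linarith [le_abs_self cubeSum, hbig.1]))
  have hprod := abs_log_norm_add_le (n0 ht)
  have hM : ‖mollifier L t‖ ≠ 0 := fun h => by
    have := n0 ht
    rw [norm_eq_zero.1 h, mul_zero, sub_zero, norm_one] at this
    norm_num at this
  rw [mollifier, molPoly, norm_mul] at hM hprod
  rw [Real.log_mul (left_ne_zero_of_mul hM) (right_ne_zero_of_mul hM)] at hprod
  have r2 := abs_le.1 ((Complex.abs_re_le_norm (primePoly (blockTwo L) (lineWeight L) t)).trans a2)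
  have hp := abs_le.1 hprod
  have key : |mainSumOne L t - logZeta (sigmaL L) t| ≤
      2 * scaleTwo L + (2 * (|cubeSum| + 1) + 1) := by
    rw [mainSumOne, logZeta, abs_le]
    constructor <;> linarith [le_abs_self cubeSum]
  have hs0 : √(scaleOne L) / 2 ≤ clt T := by
    rw [clt, ← hL, div_le_iff₀ two_pos, show (2 : ℝ) = √4 by
      rw [show (4 : ℝ) = 2 ^ 2 by norm_num, Real.sqrt_sq zero_le_two], ← Real.sqrt_mul (by
      rw [show √4 = 2 by rw [show (4 : ℝ) = 2 ^ 2 by norm_num, Real.sqrt_sq zero_le_two]]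
      positivity)]
    refine Real.sqrt_le_sqrt ?_
    rw [show √4 = 2 by rw [show (4 : ℝ) = 2 ^ 2 by norm_num, Real.sqrt_sq zero_le_two]]
    linarith
  have hpos : 0 < √(scaleOne L) / 2 := div_pos (Real.sqrt_pos.2 (by linarith)) two_pos
  rw [← hL, ← sub_div, abs_div, abs_of_pos (hpos.trans_le hs0)]
  refine (div_le_div₀ (by positivity) key hpos hs0).trans (le_of_eq ?_)
  field_simp

theorem gaussianLimit_logZeta :
    GaussianLimit fun T t => logZeta (1 / 2) t / clt T := by
  have h1 : GaussianLimit fun T t => logZeta (sigmaL (Real.log T)) t / clt T := by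
    obtain ⟨g, hg⟩ : ∃ g : ℝ → ℝ, g = fun T =>
        if sigmaL (Real.log T) = 1 then 0 else sigmaL (Real.log T) := ⟨_, rfl⟩
    have hg1 : ∀ T, g T ≠ 1 := fun T => by
      rw [hg]
      simp only
      split_ifs with h
      · exact zero_ne_one
      · exact h
    have heq : ∀ᶠ T in atTop, sigmaL (Real.log T) = g T := by
      filter_upwards [eventually_log eventually_sigmaL] with T hσ
      rw [hg]
      simp only
      rw [if_neg (by linarith [hσ.2.1])]
    refine GaussianLimit.congr' (F := fun T t => logZeta (g T) t / clt T) ?_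
      (heq.mono fun T hT => by rw [hT])
    refine Close.gaussianLimit (F := fun T t => mainSumOne (Real.log T) t / clt T) ?_
      (fun T => ((Complex.continuous_re.comp (continuous_primePoly _ _)).div_const _).measurable)
      (fun T => (measurable_logZeta (hg1 T)).div_const _) gaussianLimit_mainSumOne
    exact close_logZeta_mainSum.congr' (Eventually.of_forall fun T => rfl)
      (heq.mono fun T hT => by rw [hT])
  obtain ⟨d, hd⟩ : ∃ d : ℝ → ℝ,
      d = fun T => max 0 (min (shiftW (Real.log T) / Real.log T) (1 / 4)) := ⟨_, rfl⟩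
  have hd01 : ∀ T, 0 ≤ d T ∧ d T ≤ 1 / 4 := fun T => by
    rw [hd]
    exact ⟨le_max_left _ _, max_le (by norm_num) (min_le_right _ _)⟩
  have hde : ∀ᶠ T in atTop, d T = shiftW (Real.log T) / Real.log T ∧
      1 / 2 + d T = sigmaL (Real.log T) := by
    filter_upwards [eventually_log eventually_sigmaL] with T hσ
    have h0 : sigmaL (Real.log T) - 1 / 2 = shiftW (Real.log T) / Real.log T := by
      rw [sigmaL]
      ring
    have : d T = shiftW (Real.log T) / Real.log T := by
      rw [hd]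
      simp only
      rw [min_eq_left (by linarith [hσ.2.1]), max_eq_right (by linarith [hσ.1])]
    exact ⟨this, by rw [this, sigmaL]⟩
  have hlim : Tendsto (fun T => d T * Real.log T / clt T) atTop (𝓝 0) := by
    have h := ((tendsto_scale_ratio.2.1.const_mul (√2)).comp Real.tendsto_log_atTop)
    rw [mul_zero] at h
    refine h.congr' ?_
    filter_upwards [hde, eventually_log (eventually_scales 1)] with T hT hs
    rw [Function.comp_apply, hT.1, div_mul_cancel₀ _ (by linarith [hs.2.2.1]), clt,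
      Real.sqrt_div (by linarith [hs.2.1])]
    field_simp
  have hclose := close_logZeta_shift hd01 (eventually_clt_pos.mono fun T h => by linarith) hlim
  refine Close.gaussianLimit hclose
    (fun T => (measurable_logZeta (by linarith [(hd01 T).2])).div_const _)
    (fun T => (measurable_logZeta (by norm_num)).div_const _) ?_
  refine h1.congr' (hde.mono fun T hT => ?_)
  rw [hT.2]

/-- **Selberg's central limit theorem.** -/
theorem tendsto_measure_logZeta_le (x : ℝ) :
    Tendsto (fun T : ℝ => volume.real {t ∈ Set.Icc T (2 * T) |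
      Real.log ‖riemannZeta ((1 / 2 : ℂ) + t * Complex.I)‖ ≤
        x * √(Real.log (Real.log T) / 2)} / T) atTop
      (𝓝 ((ProbabilityTheory.gaussianReal 0 1).real (Set.Iic x))) := by
  refine (gaussianLimit_logZeta.tendsto_measure_le
    (fun T => (measurable_logZeta (by norm_num)).div_const _) x).congr' ?_
  filter_upwards [eventually_clt_pos] with T hT
  congr 3
  ext t
  rw [div_le_iff₀ (by linarith), logZeta, clt, scaleOne]
  push_cast
  rfl

end FA.SelbergCLT
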